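import Mathlib
import Fermat.Prelude.Def_GaloisRep_Residual

set_option autoImplicit false

namespace Fermat.Agent.S53

open Module

/-- Burnside's theorem over an algebraically closed field, in subalgebra form: a subalgebra of
`End K W` acting irreducibly on a nontrivial finite-dimensional space is everything. -/
theorem subalgebra_eq_top_of_irreducible {K W : Type*} [Field K] [IsAlgClosed K] [AddCommGroup W]
    [Module K W] [FiniteDimensional K W] [Nontrivial W] (A : Subalgebra K (Module.End K W))
    (hirr : ∀ U : Submodule K W, (∀ a ∈ A, ∀ x ∈ U, (a : Module.End K W) x ∈ U) → U = ⊥ ∨ U = ⊤) :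
    A = ⊤ := by
  have : IsSimpleModule A W := by
    rw [isSimpleModule_iff]
    refine { exists_pair_ne := ⟨⊥, ⊤, bot_ne_top⟩, eq_bot_or_eq_top := ?_ }
    intro U
    rcases hirr (U.restrictScalars K) (fun a ha x hx => U.smul_mem ⟨a, ha⟩ hx) with h | h
    · left
      apply Submodule.restrictScalars_injective K
      rw [h]; rfl
    · right
      apply Submodule.restrictScalars_injective K
      rw [h]; rfl
  have hSchur := IsSimpleModule.algebraMap_end_bijective_of_isAlgClosed (A := A) (V := W) K
  have : Module.Finite (Module.End A W) W := by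
    have : IsScalarTower K (Module.End A W) W := ⟨fun c φ w => by
      simp [Algebra.smul_def]⟩
    exact Module.Finite.of_restrictScalars_finite K (Module.End A W) W
  have hdens := Module.Finite.toModuleEnd_moduleEnd_surjective (R := A) (M := W)
  rw [eq_top_iff]
  intro f _
  -- `f` is linear over `End A W` since the latter consists of scalars
  let f' : Module.End (Module.End A W) W :=
    { toFun := f
      map_add' := f.map_add
      map_smul' := by
        intro φ w
        obtain ⟨c, rfl⟩ := hSchur.2 φ
        simp [Algebra.algebraMap_eq_smul_one] }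
  obtain ⟨a, ha⟩ := hdens f'
  have : f = (a : Module.End K W) := by
    ext w
    have h2 := congrArg (fun g : Module.End (Module.End A W) W => g w) ha
    exact h2.symm
  rw [this]
  exact a.2


/-- Burnside's theorem over an algebraically closed field, monoid-hom form. -/
theorem span_range_eq_top_of_irreducible {K W G : Type*} [Field K] [IsAlgClosed K] [AddCommGroup W]
    [Module K W] [FiniteDimensional K W] [Nontrivial W] [Monoid G] (ρ : G →* Module.End K W)
    (hirr : ∀ U : Submodule K W, (∀ g : G, ∀ x ∈ U, ρ g x ∈ U) → U = ⊥ ∨ U = ⊤) :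
    Submodule.span K (Set.range ρ) = ⊤ := by
  have hA : Algebra.adjoin K (Set.range ρ) = ⊤ := by
    apply subalgebra_eq_top_of_irreducible
    intro U hU
    exact hirr U (fun g x hx => hU (ρ g) (Algebra.subset_adjoin ⟨g, rfl⟩) x hx)
  have h1 := Algebra.adjoin_eq_span K (Set.range ρ)
  rw [hA] at h1
  have h2 : (Submonoid.closure (Set.range ρ) : Set (Module.End K W)) = Set.range ρ := by
    rw [← MonoidHom.coe_mrange, Submonoid.closure_eq]
  rw [h2] at h1
  rw [← h1]
  rfl

/-- Descent of "spanning" for matrices along a field extension. -/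
theorem matrix_span_eq_top_of_map {k K n : Type*} [Field k] [Field K] [Algebra k K] [Fintype n]
    [DecidableEq n] (S : Set (Matrix n n k))
    (h : Submodule.span K ((fun M : Matrix n n k => M.map (algebraMap k K)) '' S) = ⊤) :
    Submodule.span k S = ⊤ := by
  by_contra hne
  obtain ⟨φ, hφ, hle⟩ := Submodule.exists_le_ker_of_lt_top _ (lt_top_iff_ne_top.mpr hne)
  -- the extended functional
  let Φ : Matrix n n K →ₗ[K] K :=
    ∑ i : n, ∑ j : n, (algebraMap k K (φ (Matrix.single i j 1))) •
      (Matrix.entryLinearMap K K i j : Matrix n n K →ₗ[K] K)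
  have hΦapp : ∀ M : Matrix n n K, Φ M = ∑ i : n, ∑ j : n,
      algebraMap k K (φ (Matrix.single i j 1)) * M i j := by
    intro M
    simp [Φ, LinearMap.sum_apply, Algebra.smul_def]
  have hφapp : ∀ M : Matrix n n k, φ M = ∑ i : n, ∑ j : n, φ (Matrix.single i j 1) * M i j := by
    intro M
    conv_lhs => rw [Matrix.matrix_eq_sum_single M]
    simp only [map_sum]
    refine Finset.sum_congr rfl fun i _ => Finset.sum_congr rfl fun j _ => ?_
    have hs : Matrix.single i j (M i j) = M i j • Matrix.single i j (1 : k) := by
      rw [Matrix.smul_single, smul_eq_mul, mul_one]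
    rw [hs, map_smul, smul_eq_mul, mul_comm]
  have hΦmap : ∀ M : Matrix n n k, Φ (M.map (algebraMap k K)) = algebraMap k K (φ M) := by
    intro M
    rw [hΦapp, hφapp]
    simp [map_sum, map_mul]
  have hΦ0 : Φ = 0 := by
    have hker : Submodule.span K ((fun M : Matrix n n k => M.map (algebraMap k K)) '' S) ≤
        LinearMap.ker Φ := by
      rw [Submodule.span_le]
      rintro _ ⟨M, hM, rfl⟩
      have hM0 : φ M = 0 := hle (Submodule.subset_span hM)
      simp [hΦmap, hM0]
    rw [h] at hker
    exact LinearMap.ker_eq_top.mp (top_le_iff.mp hker)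
  apply hφ
  ext M
  have hzero : ∀ i j, φ (Matrix.single i j 1) = 0 := by
    intro i j
    have h1 := hΦmap (Matrix.single i j 1)
    rw [hΦ0] at h1
    simp only [LinearMap.zero_apply] at h1
    exact (FaithfulSMul.algebraMap_injective k K) (by rw [← h1, map_zero])
  rw [hφapp]
  simp [hzero]


/-- Transport of "spanning" along a linear equivalence (range form). -/
theorem span_range_equiv_eq_top {R M N ι : Type*} [Semiring R] [AddCommMonoid M] [AddCommMonoid N]
    [Module R M] [Module R N] (e : M ≃ₗ[R] N) (f : ι → M)
    (h : Submodule.span R (Set.range f) = ⊤) :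
    Submodule.span R (Set.range fun i => e (f i)) = ⊤ := by
  have h1 : (Set.range fun i => e (f i)) = e '' Set.range f := by
    rw [← Set.range_comp]; rfl
  rw [h1, ← LinearEquiv.coe_coe, ← Submodule.map_span, h, Submodule.map_top,
    LinearMap.range_eq_top]
  exact e.surjective

/-- **Burnside** for a residual Galois representation, matrix form w.r.t. any basis:
absolute irreducibility (in the Prelude's sense) implies that the matrices of `ρbar.ρ σ`
span the full matrix algebra over `k`. -/
theorem span_range_toMatrix_eq_top_of_absIrr {k : Type} [Field k] (ρbar : ResidualGaloisRep k)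
    (habs : ρbar.IsAbsolutelyIrreducible) (b : Module.Basis (Fin 2) k ρbar.V) :
    Submodule.span k (Set.range fun σ => LinearMap.toMatrix b b (ρbar.ρ σ)) = ⊤ := by
  classical
  let K := AlgebraicClosure k
  let bK : Module.Basis (Fin 2) K (TensorProduct k K ρbar.V) := Algebra.TensorProduct.basis K b
  have hK : Submodule.span K (Set.range (ρbar.baseChange K).ρ) = ⊤ := by
    have hnt : Nontrivial (ρbar.baseChange K).V := by
      apply Module.nontrivial_of_finrank_pos (R := K)
      rw [(ρbar.baseChange K).finrank_eq]; norm_num
    exact span_range_eq_top_of_irreducible (ρbar.baseChange K).ρ habs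
  have h1 : Submodule.span K (Set.range fun σ =>
      LinearMap.toMatrix bK bK ((ρbar.baseChange K).ρ σ)) = ⊤ :=
    span_range_equiv_eq_top (LinearMap.toMatrix bK bK) _ hK
  apply matrix_span_eq_top_of_map (K := K)
  rw [← h1]
  congr 1
  ext M
  constructor
  · rintro ⟨_, ⟨σ, rfl⟩, rfl⟩
    exact ⟨σ, LinearMap.toMatrix_baseChange K (ρbar.ρ σ) b b⟩
  · rintro ⟨σ, rfl⟩
    exact ⟨_, ⟨σ, rfl⟩, (LinearMap.toMatrix_baseChange K (ρbar.ρ σ) b b).symm⟩

/-- **Burnside** for a residual Galois representation: absolute irreducibility (in the Prelude's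
sense) implies that the operators `ρbar.ρ σ` span `End_k V`. -/
theorem span_range_eq_top_of_absIrr {k : Type} [Field k] (ρbar : ResidualGaloisRep k)
    (habs : ρbar.IsAbsolutelyIrreducible) :
    Submodule.span k (Set.range ρbar.ρ) = (⊤ : Submodule k (Module.End k ρbar.V)) := by
  classical
  let b : Module.Basis (Fin 2) k ρbar.V := Module.finBasisOfFinrankEq k ρbar.V ρbar.finrank_eq
  have h := span_range_toMatrix_eq_top_of_absIrr ρbar habs b
  have h2 := span_range_equiv_eq_top (LinearMap.toMatrix b b).symm _ h
  simpa using h2

/-- Schur's lemma for an absolutely irreducible residual representation: an endomorphism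
commuting with the Galois action is a scalar. -/
theorem exists_eq_smul_one_of_commute {k : Type} [Field k] (ρbar : ResidualGaloisRep k)
    (habs : ρbar.IsAbsolutelyIrreducible) (f : Module.End k ρbar.V)
    (hf : ∀ σ, f * ρbar.ρ σ = ρbar.ρ σ * f) : ∃ c : k, f = c • (1 : Module.End k ρbar.V) := by
  classical
  -- `f` commutes with everything, hence is central in `End_k V`
  have hcomm : ∀ g : Module.End k ρbar.V, f * g = g * f := by
    intro g
    have hg : g ∈ Submodule.span k (Set.range ρbar.ρ) := by
      rw [span_range_eq_top_of_absIrr ρbar habs]; trivial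
    induction hg using Submodule.span_induction with
    | mem x hx => obtain ⟨σ, rfl⟩ := hx; exact hf σ
    | zero => simp
    | add x y _ _ hx hy => rw [mul_add, add_mul, hx, hy]
    | smul c x _ hx => rw [mul_smul_comm, smul_mul_assoc, hx]
  have hmem : f ∈ Subalgebra.center k (Module.End k ρbar.V) := by
    rw [Subalgebra.mem_center_iff]
    intro g
    exact (hcomm g).symm
  rw [Algebra.IsCentral.center_eq_bot, Algebra.mem_bot] at hmem
  obtain ⟨c, hc⟩ := hmem
  exact ⟨c, by rw [← hc, Algebra.algebraMap_eq_smul_one]⟩

/-- Lifting coefficients: if matrices `r g` span `M₂(k)` over `k` and `π : 𝒪 → k` is a surjective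
ring hom, every matrix is a finite `π(𝒪)`-combination of the `r g`. -/
theorem exists_finsupp_sum_eq_of_span_eq_top {k 𝒪 G n : Type*} [Field k] [CommRing 𝒪] [Fintype n]
    [DecidableEq n] (π : 𝒪 →+* k) (hπ : Function.Surjective π) (r : G → Matrix n n k)
    (hr : Submodule.span k (Set.range r) = ⊤) (M : Matrix n n k) :
    ∃ c : G →₀ 𝒪, (c.sum fun g a => π a • r g) = M := by
  classical
  have hM : M ∈ Submodule.span k (Set.range r) := by rw [hr]; trivial
  obtain ⟨c0, hc0⟩ := (Finsupp.mem_span_range_iff_exists_finsupp).mp hM
  choose s hs using hπ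
  let s' : k → 𝒪 := fun a => if a = 0 then 0 else s a
  have hs' : ∀ a, π (s' a) = a := by
    intro a
    by_cases h : a = 0
    · simp [s', h]
    · simp [s', h, hs]
  refine ⟨c0.mapRange s' (by simp [s']), ?_⟩
  rw [Finsupp.sum_mapRange_index (by simp)]
  simpa [hs'] using hc0

end Fermat.Agent.S53
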