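import Mathlib
import Fermat.Prelude.Def_GaloisRep_DeformationCondition

/-!
# S53: abstract pro-representability interface (pure commutative algebra, no Galois groups)

`X` is an index type (for S53: `G × Fin 2 × Fin 2`, the matrix entries), and
`F A x` is a predicate on families `x : X → A` for local `𝒪`-algebras `A`
(for S53: "`x` is the family of entries of a rigid continuous lift of type `𝒟`").
`ProRepHyp` lists what the abstract existence theorem needs; the conclusion is
`ProRepData` (a complete Noetherian local `𝒪`-algebra `R` with a universal family).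
-/

set_option autoImplicit false

namespace Fermat.Agent.S53

open IsLocalRing

/-- The `𝒪`-algebra structure on `k[ε]` used by `GaloisRep.TangentFinite`. -/
@[reducible] noncomputable def dualNumberAlgebra (𝒪 : Type) [CommRing 𝒪] [IsLocalRing 𝒪] :
    Algebra 𝒪 (DualNumber (ResidueField 𝒪)) :=
  ((algebraMap (ResidueField 𝒪) (DualNumber (ResidueField 𝒪))).comp
    (algebraMap 𝒪 (ResidueField 𝒪))).toAlgebra

/-- Hypotheses of the abstract pro-representability theorem. `x0 : X → 𝒪` is a fixed
set-theoretic lift of the unique residual family. -/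
structure ProRepHyp (𝒪 : Type) [CommRing 𝒪] [IsLocalRing 𝒪] (X : Type)
    (F : ∀ (A : Type) [CommRing A] [IsLocalRing A] [Algebra 𝒪 A], (X → A) → Prop)
    (x0 : X → 𝒪) : Prop where
  /-- the residual family is of type `F` -/
  base : F (ResidueField 𝒪) (fun i => residue 𝒪 (x0 i))
  /-- every family of type `F` reduces to the residual family -/
  lift : ∀ (A : Type) [CommRing A] [IsLocalRing A] [Algebra 𝒪 A],
    GaloisRep.IsArtinianTestAlgebra 𝒪 A → ∀ x : X → A, F A x →
      ∀ i, x i - algebraMap 𝒪 A (x0 i) ∈ maximalIdeal A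
  /-- functoriality -/
  map : ∀ (A B : Type) [CommRing A] [IsLocalRing A] [Algebra 𝒪 A]
    [CommRing B] [IsLocalRing B] [Algebra 𝒪 B],
    GaloisRep.IsArtinianTestAlgebra 𝒪 A → GaloisRep.IsArtinianTestAlgebra 𝒪 B →
    ∀ (φ : A →ₐ[𝒪] B) (x : X → A), F A x → F B (fun i => φ (x i))
  /-- descent along injective maps -/
  descend : ∀ (A B : Type) [CommRing A] [IsLocalRing A] [Algebra 𝒪 A]
    [CommRing B] [IsLocalRing B] [Algebra 𝒪 B],
    GaloisRep.IsArtinianTestAlgebra 𝒪 A → GaloisRep.IsArtinianTestAlgebra 𝒪 B →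
    ∀ (φ : A →ₐ[𝒪] B), Function.Injective φ → ∀ (x : X → A), F B (fun i => φ (x i)) → F A x
  /-- gluing over fibre products -/
  glue : ∀ (A B C P : Type) [CommRing A] [IsLocalRing A] [Algebra 𝒪 A]
    [CommRing B] [IsLocalRing B] [Algebra 𝒪 B] [CommRing C] [IsLocalRing C] [Algebra 𝒪 C]
    [CommRing P] [IsLocalRing P] [Algebra 𝒪 P],
    GaloisRep.IsArtinianTestAlgebra 𝒪 A → GaloisRep.IsArtinianTestAlgebra 𝒪 B →
    GaloisRep.IsArtinianTestAlgebra 𝒪 C → GaloisRep.IsArtinianTestAlgebra 𝒪 P →
    ∀ (f : A →ₐ[𝒪] C) (g : B →ₐ[𝒪] C) (pA : P →ₐ[𝒪] A) (pB : P →ₐ[𝒪] B),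
      f.comp pA = g.comp pB →
      Function.Injective (fun x => (pA x, pB x)) →
      (∀ a b, f a = g b → ∃ x, pA x = a ∧ pB x = b) →
      ∀ x : X → P, F A (fun i => pA (x i)) → F B (fun i => pB (x i)) → F P x
  /-- finiteness of the tangent space -/
  tangent : letI := dualNumberAlgebra 𝒪
    Set.Finite {x : X → DualNumber (ResidueField 𝒪) | F (DualNumber (ResidueField 𝒪)) x}

/-- Conclusion of the abstract pro-representability theorem: a complete Noetherian local
`𝒪`-algebra `R` with residue field `k` and a universal family `xR : X → R`. -/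
structure ProRepData (𝒪 : Type) [CommRing 𝒪] [IsLocalRing 𝒪] (X : Type)
    (F : ∀ (A : Type) [CommRing A] [IsLocalRing A] [Algebra 𝒪 A], (X → A) → Prop) :
    Type 1 where
  R : Type
  [instCommRing : CommRing R]
  [instIsLocalRing : IsLocalRing R]
  [instIsNoetherianRing : IsNoetherianRing R]
  [instIsAdicComplete : IsAdicComplete (maximalIdeal R) R]
  [instAlgebra : Algebra 𝒪 R]
  [instIsLocalHom : IsLocalHom (algebraMap 𝒪 R)]
  residue_surjective : Function.Surjective (residue R ∘ algebraMap 𝒪 R)
  /-- the universal family -/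
  xR : X → R
  /-- every push-forward of the universal family to a test algebra is of type `F` -/
  isOfType : ∀ (B : Type) [CommRing B] [IsLocalRing B] [Algebra 𝒪 B],
    GaloisRep.IsArtinianTestAlgebra 𝒪 B → ∀ q : R →ₐ[𝒪] B, F B (fun i => q (xR i))
  /-- universality on test algebras -/
  universal : ∀ (A : Type) [CommRing A] [IsLocalRing A] [Algebra 𝒪 A],
    GaloisRep.IsArtinianTestAlgebra 𝒪 A → ∀ x : X → A, F A x →
      ∃! φ : R →ₐ[𝒪] A, ∀ i, φ (xR i) = x i

attribute [instance] ProRepData.instCommRing ProRepData.instIsLocalRing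
  ProRepData.instIsNoetherianRing ProRepData.instIsAdicComplete
  ProRepData.instAlgebra ProRepData.instIsLocalHom

end Fermat.Agent.S53
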