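/-
S53 shared definitions (Galois side): the matrix model of `GaloisRepAdic`, rigid lifts and the
concrete deformation predicate `IsDef` fed to the abstract pro-representability theorem.
Definitions only (no theorems about them except trivial `rfl`-lemmas).
-/
import Mathlib
import Fermat.Prelude.Def_GaloisRep_DeformationRingData
import Fermat.Prelude.Def_GaloisRep_DeformationCondition
import Fermat.Agent.S53.ProRepDefs

set_option autoImplicit false

namespace Fermat.Agent.S53

open IsLocalRing

noncomputable section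

/-- The absolute Galois group of `ℚ` (as an abstract group). -/
abbrev GQ : Type := AlgebraicClosure ℚ ≃ₐ[ℚ] AlgebraicClosure ℚ

/-- `2 × 2` matrices. -/
abbrev Mat2 (A : Type) : Type := Matrix (Fin 2) (Fin 2) A

/-- The index type of matrix entries of a representation: `(σ, i, j)`. -/
abbrev Idx : Type := GQ × Fin 2 × Fin 2

/-- The family of entries of a matrix-valued function. -/
def entries {A : Type} (r : GQ → Mat2 A) : Idx → A := fun p => r p.1 p.2.1 p.2.2

/-- The matrix-valued function with a given family of entries. -/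
def toMat {A : Type} (x : Idx → A) : GQ → Mat2 A := fun σ => Matrix.of fun i j => x (σ, i, j)

theorem toMat_apply {A : Type} (x : Idx → A) (σ : GQ) (i j : Fin 2) :
    toMat x σ i j = x (σ, i, j) := rfl

theorem entries_apply {A : Type} (r : GQ → Mat2 A) (σ : GQ) (i j : Fin 2) :
    entries r (σ, i, j) = r σ i j := rfl

/-- Adic continuity of a matrix representation over a local ring: for every `n` it is trivial
modulo `𝔪 ^ n` on the fixer of some finite extension of `ℚ`. -/
def MatCont {A : Type} [CommRing A] [IsLocalRing A] (r : GQ →* Mat2 A) : Prop :=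
  ∀ n : ℕ, ∃ L : IntermediateField ℚ (AlgebraicClosure ℚ), FiniteDimensional ℚ L ∧
    ∀ σ : GQ, (∀ x ∈ L, σ x = x) → ∀ i j, (r σ - 1) i j ∈ maximalIdeal A ^ n

/-- The linear action on `Fin 2 → A` attached to a matrix representation. -/
def linOfMat {A : Type} [CommRing A] (r : GQ →* Mat2 A) :
    GQ →* Module.End A (Fin 2 → A) where
  toFun σ := Matrix.toLin' (r σ)
  map_one' := by rw [map_one, Matrix.toLin'_one]; rfl
  map_mul' σ τ := by rw [map_mul, Matrix.toLin'_mul]; rfl

theorem linOfMat_apply {A : Type} [CommRing A] (r : GQ →* Mat2 A) (σ : GQ) (v : Fin 2 → A) :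
    linOfMat r σ v = (r σ).mulVec v := rfl

theorem matCont_isAdicContinuous {A : Type} [CommRing A] [IsLocalRing A] (r : GQ →* Mat2 A)
    (hr : MatCont r) : GaloisActionIsAdicContinuous A (linOfMat r) := by
  intro n
  obtain ⟨L, hL, h⟩ := hr n
  refine ⟨L, hL, fun σ hσ v => ?_⟩
  have hmem : ∀ w : Fin 2 → A, (∀ i, w i ∈ maximalIdeal A ^ n) →
      w ∈ (maximalIdeal A ^ n) • (⊤ : Submodule A (Fin 2 → A)) := by
    intro w hw
    have hw' : w = ∑ i, w i • (Pi.single i (1 : A) : Fin 2 → A) := by
      funext j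
      simp [Finset.sum_apply, Pi.single_apply]
    rw [hw']
    exact Submodule.sum_mem _ fun i _ => Submodule.smul_mem_smul (hw i) Submodule.mem_top
  have hsub : linOfMat r σ v - v = (r σ - 1).mulVec v := by
    rw [Matrix.sub_mulVec, Matrix.one_mulVec]; rfl
  rw [hsub]
  apply hmem
  intro i
  show ∑ j, (r σ - 1) i j * v j ∈ _
  exact Ideal.sum_mem _ fun j _ => Ideal.mul_mem_right _ _ (h σ hσ i j)

/-- The `GaloisRepAdic` attached to a continuous matrix representation (`V = Fin 2 → A`). -/
def repOfMat {A : Type} [CommRing A] [IsLocalRing A] (r : GQ →* Mat2 A)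
    (hr : MatCont r) : GaloisRepAdic A where
  V := Fin 2 → A
  finrank_eq := by simp
  ρ := linOfMat r
  isAdicContinuous := matCont_isAdicContinuous r hr

/-- The monoid homomorphism with a given family of entries (given multiplicativity). -/
def homOfEntries {A : Type} [CommRing A] (x : Idx → A) (h1 : toMat x 1 = 1)
    (hmul : ∀ σ τ : GQ, toMat x (σ * τ) = toMat x σ * toMat x τ) : GQ →* Mat2 A where
  toFun := toMat x
  map_one' := h1
  map_mul' := hmul

theorem homOfEntries_apply {A : Type} [CommRing A] (x : Idx → A) (h1 : toMat x 1 = 1)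
    (hmul : ∀ σ τ : GQ, toMat x (σ * τ) = toMat x σ * toMat x τ) (σ : GQ) :
    homOfEntries x h1 hmul σ = toMat x σ := rfl

/-- A matrix representation which is trivial on the fixer of a finite extension is adically
continuous. -/
theorem matCont_of_finiteLevel {A : Type} [CommRing A] [IsLocalRing A] (r : GQ →* Mat2 A)
    (h : ∃ L : IntermediateField ℚ (AlgebraicClosure ℚ), FiniteDimensional ℚ L ∧
      ∀ σ : GQ, (∀ y ∈ L, σ y = y) → r σ = 1) : MatCont r := by
  intro n
  obtain ⟨L, hL, hL'⟩ := h
  refine ⟨L, hL, fun σ hσ i j => ?_⟩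
  rw [hL' σ hσ, sub_self]
  exact Ideal.zero_mem _

/-- Push-forward of a matrix representation along a ring homomorphism. -/
def mapHom {A B : Type} [CommRing A] [CommRing B] (φ : A →+* B) (r : GQ →* Mat2 A) :
    GQ →* Mat2 B :=
  (φ.mapMatrix : Mat2 A →+* Mat2 B).toMonoidHom.comp r

theorem mapHom_apply {A B : Type} [CommRing A] [CommRing B] (φ : A →+* B) (r : GQ →* Mat2 A)
    (σ : GQ) (i j : Fin 2) : mapHom φ r σ i j = φ (r σ i j) := rfl

/-- Conjugate of a matrix representation by an invertible matrix. -/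
def conjHom {A : Type} [CommRing A] (M M' : Mat2 A) (h : M' * M = 1) (r : GQ →* Mat2 A) :
    GQ →* Mat2 A where
  toFun σ := M * r σ * M'
  map_one' := by
    rw [map_one, mul_one]
    exact mul_eq_one_comm.mp h
  map_mul' σ τ := by
    rw [map_mul]
    calc M * (r σ * r τ) * M' = M * r σ * 1 * (r τ * M') := by
          simp only [mul_one, mul_assoc]
      _ = M * r σ * (M' * M) * (r τ * M') := by rw [h]
      _ = M * r σ * M' * (M * r τ * M') := by simp only [mul_assoc]

theorem conjHom_apply {A : Type} [CommRing A] (M M' : Mat2 A) (h : M' * M = 1)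
    (r : GQ →* Mat2 A) (σ : GQ) : conjHom M M' h r σ = M * r σ * M' := rfl

/-- The matrix form of a residual representation in a basis. -/
def rbarHom {k : Type} [Field k] (ρbar : ResidualGaloisRep k)
    (b : Module.Basis (Fin 2) k ρbar.V) : GQ →* Mat2 k where
  toFun σ := LinearMap.toMatrix b b (ρbar.ρ σ)
  map_one' := by rw [map_one]; exact LinearMap.toMatrix_one b
  map_mul' σ τ := by rw [map_mul]; exact LinearMap.toMatrix_mul b _ _

theorem rbarHom_apply {k : Type} [Field k] (ρbar : ResidualGaloisRep k)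
    (b : Module.Basis (Fin 2) k ρbar.V) (σ : GQ) :
    rbarHom ρbar b σ = LinearMap.toMatrix b b (ρbar.ρ σ) := rfl

/-- The `𝒪`-linear combination `∑ c(g) • r(g)` of the matrices of a representation. -/
def comb {𝒪 A : Type} [CommRing 𝒪] [CommRing A] [Algebra 𝒪 A] (c : GQ →₀ 𝒪)
    (r : GQ → Mat2 A) : Mat2 A :=
  c.sum fun g a => a • r g

/-- Rigidity of a matrix-valued function with respect to two `𝒪`-linear combinations `c₁`, `c₂`:
`∑ c₁(g) r(g)` is diagonal and `∑ c₂(g) r(g)` has lower-left entry `1`. -/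
def IsRigid {𝒪 A : Type} [CommRing 𝒪] [CommRing A] [Algebra 𝒪 A] (c₁ c₂ : GQ →₀ 𝒪)
    (r : GQ → Mat2 A) : Prop :=
  comb c₁ r 0 1 = 0 ∧ comb c₁ r 1 0 = 0 ∧ comb c₂ r 1 0 = 1

/-- The rigidifying data attached to the residual representation: a basis, a set-theoretic lift
`x0` of the entries of the residual matrices to `𝒪`, and two `𝒪`-linear combinations `c₁`, `c₂`
of group elements acting residually as `e₁₁` and `e₂₁`. -/
structure Setup (𝒪 : Type) [CommRing 𝒪] [IsLocalRing 𝒪]
    (ρbar : ResidualGaloisRep (ResidueField 𝒪)) : Type where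
  b : Module.Basis (Fin 2) (ResidueField 𝒪) ρbar.V
  x0 : Idx → 𝒪
  hx0 : ∀ (σ : GQ) (i j : Fin 2), residue 𝒪 (x0 (σ, i, j)) = rbarHom ρbar b σ i j
  c₁ : GQ →₀ 𝒪
  c₂ : GQ →₀ 𝒪
  hc₁ : comb c₁ (rbarHom ρbar b) = !![1, 0; 0, 0]
  hc₂ : comb c₂ (rbarHom ρbar b) = !![0, 0; 1, 0]

/-- A family `x` of entries over a local `𝒪`-algebra lifts the residual representation:
entrywise congruent to the fixed lift `x0` modulo the maximal ideal. -/
def Lifts {𝒪 : Type} [CommRing 𝒪] [IsLocalRing 𝒪] {ρbar : ResidualGaloisRep (ResidueField 𝒪)}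
    (S : Setup 𝒪 ρbar) {A : Type} [CommRing A] [IsLocalRing A] [Algebra 𝒪 A] (x : Idx → A) :
    Prop :=
  ∀ p : Idx, x p - algebraMap 𝒪 A (S.x0 p) ∈ maximalIdeal A

/-- The concrete deformation predicate on families of matrix entries: `x` is the family of
entries of a rigid lift of the residual representation, trivial on the fixer of a finite
extension, whose associated `GaloisRepAdic` is of type `𝒟`. -/
structure IsDef {𝒪 : Type} [CommRing 𝒪] [IsLocalRing 𝒪]
    {ρbar : ResidualGaloisRep (ResidueField 𝒪)} (S : Setup 𝒪 ρbar)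
    (𝒟 : ∀ ⦃A : Type⦄ [CommRing A] [IsLocalRing A] [Algebra 𝒪 A], GaloisRepAdic A → Prop)
    (A : Type) [CommRing A] [IsLocalRing A] [Algebra 𝒪 A] (x : Idx → A) : Prop where
  map_one : toMat x 1 = 1
  map_mul : ∀ σ τ : GQ, toMat x (σ * τ) = toMat x σ * toMat x τ
  finiteLevel : ∃ L : IntermediateField ℚ (AlgebraicClosure ℚ), FiniteDimensional ℚ L ∧
    ∀ σ : GQ, (∀ y ∈ L, σ y = y) → toMat x σ = 1
  lifts : Lifts S x
  rigid : IsRigid S.c₁ S.c₂ (toMat x)
  type : ∀ (r : GQ →* Mat2 A) (hr : MatCont r), (∀ σ, r σ = toMat x σ) → 𝒟 (repOfMat r hr)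

end

end Fermat.Agent.S53
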