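import Mathlib
import Fermat.Agent.S53.ProRepDefs

/-!
# S53: extending universality from Artinian test algebras to complete local algebras

Pure commutative algebra (no Galois groups).

* `exists_unique_algHom_of_forall_quotient` : if `A` is `I`-adically complete and, for every
  `n`, there is a unique `𝒪`-algebra map `R → A ⧸ I ^ (n + 1)` with prescribed values on a
  family `xR : X → R`, then there is a unique `𝒪`-algebra map `R → A` with the prescribed
  values.
-/

set_option autoImplicit false

namespace Fermat.Agent.S53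

open IsLocalRing

/-- **Extension of universality to a complete algebra.**  If `A` is `I`-adically complete and
for every `n` there is a unique `𝒪`-algebra map `R → A ⧸ I ^ (n + 1)` sending the family `xR`
to (the reduction of) the family `x`, then there is a unique `𝒪`-algebra map `R → A` sending
`xR` to `x`. -/
theorem exists_unique_algHom_of_forall_quotient {𝒪 R A : Type*} [CommRing 𝒪] [CommRing R]
    [Algebra 𝒪 R] [CommRing A] [Algebra 𝒪 A] (I : Ideal A) [IsAdicComplete I A] {X : Type*}
    (xR : X → R) (x : X → A)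
    (huniv : ∀ n : ℕ, ∃! φ : R →ₐ[𝒪] A ⧸ I ^ (n + 1),
      ∀ i, φ (xR i) = Ideal.Quotient.mk _ (x i)) :
    ∃! φ : R →ₐ[𝒪] A, ∀ i, φ (xR i) = x i := by
  classical
  choose φ hφ hφu using huniv
  have hcompat : ∀ {m n : ℕ} (hle : m ≤ n),
      (Ideal.Quotient.factorₐ 𝒪 (Ideal.pow_le_pow_right (Nat.succ_le_succ hle))).comp (φ n)
        = φ m := by
    intro m n hle
    apply hφu
    intro i
    rw [AlgHom.comp_apply, hφ]
    rfl
  let f : ∀ n : ℕ, R →ₐ[𝒪] A ⧸ I ^ n := fun n =>
    (Ideal.Quotient.factorₐ 𝒪 (Ideal.pow_le_pow_right (Nat.le_succ n))).comp (φ n)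
  have hfx : ∀ n i, f n (xR i) = Ideal.Quotient.mk _ (x i) := by
    intro n i
    simp only [f, AlgHom.comp_apply, hφ]
    rfl
  have hf : ∀ {m n : ℕ} (hle : m ≤ n),
      (Ideal.Quotient.factorₐ 𝒪 (Ideal.pow_le_pow_right hle)).comp (f n) = f m := by
    intro m n hle
    have h1 : f m = ((Ideal.Quotient.factorₐ 𝒪 (Ideal.pow_le_pow_right (Nat.le_succ m))).comp
        (Ideal.Quotient.factorₐ 𝒪 (Ideal.pow_le_pow_right (Nat.succ_le_succ hle)))).comp (φ n) := by
      rw [AlgHom.comp_assoc, hcompat hle]
    rw [h1]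
    simp only [f]
    rw [← AlgHom.comp_assoc, Ideal.Quotient.factorₐ_comp, Ideal.Quotient.factorₐ_comp]
  refine ⟨IsAdicComplete.liftAlgHom I f hf, ?_, ?_⟩
  · intro i
    rw [IsHausdorff.eq_iff_smodEq (I := I)]
    intro n
    rw [smul_eq_mul, Ideal.mul_top, SModEq.sub_mem, ← Ideal.Quotient.eq,
      IsAdicComplete.mk_liftAlgHom, hfx]
  · intro ψ hψ
    apply IsAdicComplete.algHom_ext I
    intro n
    rw [IsAdicComplete.mkₐ_comp_liftAlgHom]
    have h2 : (Ideal.Quotient.mkₐ 𝒪 (I ^ (n + 1))).comp ψ = φ n := by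
      apply hφu
      intro i
      rw [AlgHom.comp_apply, hψ]
      rfl
    simp only [f]
    rw [← h2, ← AlgHom.comp_assoc]
    rfl

/-! ### Test-algebra facts for surjective images and for `A ⧸ 𝔪 ^ (n + 1)` -/

/-- A surjective image (onto a local ring) of a local `𝒪`-algebra with local structure map
again has local structure map. -/
theorem isLocalHom_algebraMap_of_surjective {𝒪 A B : Type*} [CommRing 𝒪] [CommRing A]
    [IsLocalRing A] [Algebra 𝒪 A] [CommRing B] [IsLocalRing B] [Algebra 𝒪 B]
    (hloc : IsLocalHom (algebraMap 𝒪 A)) (q : A →ₐ[𝒪] B) (hq : Function.Surjective q) :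
    IsLocalHom (algebraMap 𝒪 B) := by
  have hq' : IsLocalHom (q : A →+* B) := IsLocalHom.of_surjective (q : A →+* B) hq
  rw [← q.comp_algebraMap]
  exact RingHom.isLocalHom_comp _ _

/-- A surjective image (onto a local ring) of a local `𝒪`-algebra whose residue field is a
quotient of `𝒪` again has this property. -/
theorem residue_comp_algebraMap_surjective_of_surjective {𝒪 A B : Type*} [CommRing 𝒪]
    [CommRing A] [IsLocalRing A] [Algebra 𝒪 A] [CommRing B] [IsLocalRing B] [Algebra 𝒪 B]
    (hres : Function.Surjective (residue A ∘ algebraMap 𝒪 A)) (q : A →ₐ[𝒪] B)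
    (hq : Function.Surjective q) :
    Function.Surjective (residue B ∘ algebraMap 𝒪 B) := by
  have hq' : IsLocalHom (q : A →+* B) := IsLocalHom.of_surjective (q : A →+* B) hq
  intro b
  obtain ⟨b', rfl⟩ := residue_surjective b
  obtain ⟨a, rfl⟩ := hq b'
  obtain ⟨c, hc⟩ := hres (residue A a)
  refine ⟨c, ?_⟩
  simp only [Function.comp_apply] at hc ⊢
  rw [← sub_eq_zero, ← map_sub, residue_eq_zero_iff] at hc ⊢
  rw [← q.commutes c, ← map_sub]
  intro hu
  exact hc (isUnit_of_map_unit (q : A →+* B) _ hu)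

/-- A surjective Artinian local image of a local `𝒪`-algebra with local structure map and
residue field a quotient of `𝒪` is an Artinian test algebra. -/
theorem isArtinianTestAlgebra_of_surjective_artinian {𝒪 : Type} [CommRing 𝒪] [IsLocalRing 𝒪]
    {A B : Type} [CommRing A] [IsLocalRing A] [Algebra 𝒪 A] [CommRing B] [IsLocalRing B]
    [Algebra 𝒪 B] [IsArtinianRing B]
    (hloc : IsLocalHom (algebraMap 𝒪 A))
    (hres : Function.Surjective (residue A ∘ algebraMap 𝒪 A)) (q : A →ₐ[𝒪] B)
    (hq : Function.Surjective q) :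
    GaloisRep.IsArtinianTestAlgebra 𝒪 B :=
  ⟨isLocalHom_algebraMap_of_surjective hloc q hq,
    residue_comp_algebraMap_surjective_of_surjective hres q hq, inferInstance⟩

theorem maximalIdeal_pow_succ_ne_top (A : Type*) [CommRing A] [IsLocalRing A] (n : ℕ) :
    maximalIdeal A ^ (n + 1) ≠ ⊤ := by
  intro h
  have h1 : maximalIdeal A ^ (n + 1) ≤ maximalIdeal A := Ideal.pow_le_self (Nat.succ_ne_zero n)
  rw [h] at h1
  exact (maximalIdeal.isMaximal A).ne_top (top_le_iff.mp h1)

theorem nontrivial_quotient_maximalIdeal_pow_succ (A : Type*) [CommRing A] [IsLocalRing A]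
    (n : ℕ) : Nontrivial (A ⧸ maximalIdeal A ^ (n + 1)) :=
  Ideal.Quotient.nontrivial_iff.mpr (maximalIdeal_pow_succ_ne_top A n)

theorem isLocalRing_quotient_maximalIdeal_pow_succ (A : Type*) [CommRing A] [IsLocalRing A]
    (n : ℕ) : IsLocalRing (A ⧸ maximalIdeal A ^ (n + 1)) := by
  have := nontrivial_quotient_maximalIdeal_pow_succ A n
  exact IsLocalRing.of_surjective' (Ideal.Quotient.mk _) Ideal.Quotient.mk_surjective

/-- `A ⧸ 𝔪 ^ (n + 1)` is Artinian for a Noetherian local ring `A`. -/
theorem isArtinianRing_quotient_maximalIdeal_pow_succ (A : Type*) [CommRing A] [IsLocalRing A]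
    [IsNoetherianRing A] (n : ℕ) : IsArtinianRing (A ⧸ maximalIdeal A ^ (n + 1)) := by
  have := isLocalRing_quotient_maximalIdeal_pow_succ A n
  rw [isArtinianRing_iff_isNilpotent_maximalIdeal]
  refine ⟨n + 1, ?_⟩
  rw [← IsLocalRing.map_maximalIdeal_of_surjective (Ideal.Quotient.mk (maximalIdeal A ^ (n + 1)))
    Ideal.Quotient.mk_surjective, ← Ideal.map_pow, Ideal.zero_eq_bot, Ideal.map_eq_bot_iff_le_ker,
    Ideal.mk_ker]

/-- `A ⧸ 𝔪 ^ (n + 1)` is an Artinian test algebra, for a Noetherian local `𝒪`-algebra `A` with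
local structure map and residue field a quotient of `𝒪`. -/
theorem isArtinianTestAlgebra_quotient_maximalIdeal_pow_succ {𝒪 : Type} [CommRing 𝒪]
    [IsLocalRing 𝒪] {A : Type} [CommRing A] [IsLocalRing A] [IsNoetherianRing A] [Algebra 𝒪 A]
    (hloc : IsLocalHom (algebraMap 𝒪 A))
    (hres : Function.Surjective (residue A ∘ algebraMap 𝒪 A)) (n : ℕ) :
    @GaloisRep.IsArtinianTestAlgebra 𝒪 _ (A ⧸ maximalIdeal A ^ (n + 1)) _
      (isLocalRing_quotient_maximalIdeal_pow_succ A n) _ := by
  have := isLocalRing_quotient_maximalIdeal_pow_succ A n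
  have := isArtinianRing_quotient_maximalIdeal_pow_succ A n
  exact isArtinianTestAlgebra_of_surjective_artinian hloc hres
    (Ideal.Quotient.mkₐ 𝒪 (maximalIdeal A ^ (n + 1))) (Ideal.Quotient.mkₐ_surjective _ _)

/-! ### Universality on complete Noetherian local algebras -/

/-- **Universality of a pro-representing ring on complete Noetherian local algebras.**
If `x : X → A` is a family in a complete Noetherian local `𝒪`-algebra `A` all of whose
push-forwards to Artinian quotients are of type `F`, then there is a unique `𝒪`-algebra map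
from the pro-representing ring carrying the universal family to `x`.  (The hypothesis `hx`
has the shape of `GaloisRep.IsDeformationCondition.iff_forall_surjective`.) -/
theorem ProRepData.existsUnique_of_complete {𝒪 : Type} [CommRing 𝒪] [IsLocalRing 𝒪] {X : Type}
    {F : ∀ (A : Type) [CommRing A] [IsLocalRing A] [Algebra 𝒪 A], (X → A) → Prop}
    (D : ProRepData 𝒪 X F)
    (A : Type) [CommRing A] [IsLocalRing A] [IsNoetherianRing A]
    [IsAdicComplete (maximalIdeal A) A] [Algebra 𝒪 A]
    (hloc : IsLocalHom (algebraMap 𝒪 A))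
    (hres : Function.Surjective (residue A ∘ algebraMap 𝒪 A))
    (x : X → A)
    (hx : ∀ (B : Type) [CommRing B] [IsLocalRing B] [Algebra 𝒪 B],
      GaloisRep.IsArtinianTestAlgebra 𝒪 B → ∀ q : A →ₐ[𝒪] B, Function.Surjective q →
        F B (fun i => q (x i))) :
    ∃! φ : D.R →ₐ[𝒪] A, ∀ i, φ (D.xR i) = x i := by
  apply exists_unique_algHom_of_forall_quotient (maximalIdeal A)
  intro n
  have := isLocalRing_quotient_maximalIdeal_pow_succ A n
  have htest := isArtinianTestAlgebra_quotient_maximalIdeal_pow_succ hloc hres n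
  exact D.universal (A ⧸ maximalIdeal A ^ (n + 1)) htest _
    (hx (A ⧸ maximalIdeal A ^ (n + 1)) htest (Ideal.Quotient.mkₐ 𝒪 (maximalIdeal A ^ (n + 1)))
      (Ideal.Quotient.mkₐ_surjective _ _))

end Fermat.Agent.S53
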