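/-
S53 (Galois side), task G1: every `GaloisRepAdic` is equivalent to a matrix model `repOfMat`,
equivalence of matrix models is conjugacy, and conjugation preserves continuity.
-/
import Mathlib
import Fermat.Agent.S53.Defs

set_option autoImplicit false

namespace Fermat.Agent.S53

open IsLocalRing Matrix

noncomputable section

/-- Coordinates (in a basis) of an element of `I • ⊤` lie in `I`. -/
theorem dict1_repr_mem_of_mem_smul_top {A : Type} [CommRing A] {V : Type} [AddCommGroup V]
    [Module A V] (I : Ideal A) (b : Module.Basis (Fin 2) A V) {x : V}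
    (hx : x ∈ I • (⊤ : Submodule A V)) (i : Fin 2) : b.repr x i ∈ I := by
  refine Submodule.smul_induction_on (p := fun x => b.repr x i ∈ I) hx ?_ ?_
  · intro a ha w _
    rw [map_smul, Finsupp.smul_apply, smul_eq_mul]
    exact I.mul_mem_right _ ha
  · intro x y hx hy
    rw [map_add, Finsupp.add_apply]
    exact I.add_mem hx hy

/-- The matrix homomorphism of a linear action in a basis. -/
def dict1_matOfBasis {A : Type} [CommRing A] {V : Type} [AddCommGroup V] [Module A V]
    (b : Module.Basis (Fin 2) A V) (ρ : GQ →* Module.End A V) : GQ →* Mat2 A where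
  toFun σ := LinearMap.toMatrix b b (ρ σ)
  map_one' := by rw [map_one]; exact LinearMap.toMatrix_one b
  map_mul' σ τ := by rw [map_mul]; exact LinearMap.toMatrix_mul b (ρ σ) (ρ τ)

theorem dict1_matOfBasis_apply {A : Type} [CommRing A] {V : Type} [AddCommGroup V] [Module A V]
    (b : Module.Basis (Fin 2) A V) (ρ : GQ →* Module.End A V) (σ : GQ) :
    dict1_matOfBasis b ρ σ = LinearMap.toMatrix b b (ρ σ) := rfl

theorem dict1_matOfBasis_mulVec_repr {A : Type} [CommRing A] {V : Type} [AddCommGroup V]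
    [Module A V] (b : Module.Basis (Fin 2) A V) (ρ : GQ →* Module.End A V) (σ : GQ) (x : V) :
    dict1_matOfBasis b ρ σ *ᵥ ⇑(b.repr x) = ⇑(b.repr (ρ σ x)) :=
  LinearMap.toMatrix_mulVec_repr b b (ρ σ) x

/-- The matrix form of an adically continuous action is `MatCont`. -/
theorem dict1_matCont_matOfBasis {A : Type} [CommRing A] [IsLocalRing A] {V : Type}
    [AddCommGroup V] [Module A V] (b : Module.Basis (Fin 2) A V) (ρ : GQ →* Module.End A V)
    (hρ : GaloisActionIsAdicContinuous A ρ) : MatCont (dict1_matOfBasis b ρ) := by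
  intro n
  obtain ⟨L, hL, h⟩ := hρ n
  refine ⟨L, hL, fun σ hσ i j => ?_⟩
  have : (dict1_matOfBasis b ρ σ - 1) i j = b.repr (ρ σ (b j) - b j) i := by
    rw [Matrix.sub_apply, map_sub, Finsupp.sub_apply]
    show LinearMap.toMatrix b b (ρ σ) i j - (1 : Matrix (Fin 2) (Fin 2) A) i j = _
    rw [LinearMap.toMatrix_apply, Module.Basis.repr_self, Matrix.one_apply,
      Finsupp.single_apply]
    congr 1
    by_cases hij : i = j
    · simp [hij]
    · simp [hij, Ne.symm hij]
  rw [this]
  exact dict1_repr_mem_of_mem_smul_top _ b (h σ hσ (b j)) i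

/-- A representation with a basis is equivalent to the matrix model of its matrices in that
basis. -/
theorem dict1_isEquiv_repOfMat_matOfBasis {A : Type} [CommRing A] [IsLocalRing A]
    (ρ : GaloisRepAdic A) (b : Module.Basis (Fin 2) A ρ.V)
    (hr : MatCont (dict1_matOfBasis b ρ.ρ)) :
    ρ.IsEquiv (repOfMat (dict1_matOfBasis b ρ.ρ) hr) :=
  ⟨{ toLinearEquiv := b.equivFun
     map_apply := fun σ x => by
       show ⇑(b.repr (ρ.ρ σ x)) = dict1_matOfBasis b ρ.ρ σ *ᵥ ⇑(b.repr x)
       exact (dict1_matOfBasis_mulVec_repr b ρ.ρ σ x).symm }⟩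

theorem exists_repOfMat_isEquiv {A : Type} [CommRing A] [IsLocalRing A] (ρ : GaloisRepAdic A) :
    ∃ (r : GQ →* Mat2 A) (hr : MatCont r), ρ.IsEquiv (repOfMat r hr) := by
  let b : Module.Basis (Fin 2) A ρ.V := Module.finBasisOfFinrankEq A ρ.V ρ.finrank_eq
  exact ⟨dict1_matOfBasis b ρ.ρ, dict1_matCont_matOfBasis b ρ.ρ ρ.isAdicContinuous,
    dict1_isEquiv_repOfMat_matOfBasis ρ b _⟩

/-- A linear automorphism of `Fin 2 → R` intertwining two families of matrices is the same as an
invertible matrix conjugating one family into the other. -/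
theorem dict1_exists_linearEquiv_intertwining_iff {R : Type} [CommRing R] {ι : Type*}
    (r r' : ι → Mat2 R) :
    (∃ e : (Fin 2 → R) ≃ₗ[R] (Fin 2 → R), ∀ i x, e (r i *ᵥ x) = r' i *ᵥ e x) ↔
      ∃ M M' : Mat2 R, M * M' = 1 ∧ M' * M = 1 ∧ ∀ i, M * r i = r' i * M := by
  constructor
  · rintro ⟨e, he⟩
    refine ⟨LinearMap.toMatrix' e.toLinearMap, LinearMap.toMatrix' e.symm.toLinearMap, ?_, ?_, ?_⟩
    · rw [← LinearMap.toMatrix'_comp, ← LinearMap.toMatrix'_id]
      congr 1
      ext x : 1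
      simp
    · rw [← LinearMap.toMatrix'_comp, ← LinearMap.toMatrix'_id]
      congr 1
      ext x : 1
      simp
    · intro i
      have h1 : r i = LinearMap.toMatrix' (Matrix.toLin' (r i)) :=
        (LinearMap.toMatrix'_toLin' _).symm
      have h2 : r' i = LinearMap.toMatrix' (Matrix.toLin' (r' i)) :=
        (LinearMap.toMatrix'_toLin' _).symm
      rw [h1, h2, ← LinearMap.toMatrix'_comp, ← LinearMap.toMatrix'_comp]
      congr 1
      refine LinearMap.ext fun x => ?_
      simp only [LinearMap.coe_comp, LinearEquiv.coe_coe, Function.comp_apply,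
        Matrix.toLin'_apply]
      exact he i x
  · rintro ⟨M, M', hMM', hM'M, h⟩
    refine ⟨LinearEquiv.ofLinearMap (Matrix.toLin' M) (Matrix.toLin' M') ?_ ?_, fun i x => ?_⟩
    · rw [← Matrix.toLin'_mul, hMM', Matrix.toLin'_one]
    · rw [← Matrix.toLin'_mul, hM'M, Matrix.toLin'_one]
    · show M *ᵥ (r i *ᵥ x) = r' i *ᵥ (M *ᵥ x)
      rw [Matrix.mulVec_mulVec, Matrix.mulVec_mulVec, h i]

theorem repOfMat_isEquiv_iff {A : Type} [CommRing A] [IsLocalRing A] (r r' : GQ →* Mat2 A)
    (hr : MatCont r) (hr' : MatCont r') :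
    (repOfMat r hr).IsEquiv (repOfMat r' hr') ↔
      ∃ M M' : Mat2 A, M * M' = 1 ∧ M' * M = 1 ∧ ∀ σ, M * r σ = r' σ * M := by
  rw [← dict1_exists_linearEquiv_intertwining_iff (fun σ => r σ) (fun σ => r' σ)]
  constructor
  · rintro ⟨e⟩
    exact ⟨e.toLinearEquiv, fun σ x => e.map_apply σ x⟩
  · rintro ⟨e, he⟩
    exact ⟨{ toLinearEquiv := e, map_apply := fun σ x => he σ x }⟩

/-- Entries of `M * N * M'` lie in an ideal containing the entries of `N`. -/
theorem dict1_mul_mul_apply_mem {A : Type} [CommRing A] (I : Ideal A) (M N M' : Mat2 A)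
    (hN : ∀ i j, N i j ∈ I) (i j : Fin 2) : (M * N * M') i j ∈ I := by
  rw [Matrix.mul_apply]
  refine I.sum_mem fun a _ => I.mul_mem_right _ ?_
  rw [Matrix.mul_apply]
  exact I.sum_mem fun b _ => I.mul_mem_left _ (hN b a)

theorem matCont_conjHom {A : Type} [CommRing A] [IsLocalRing A] (M M' : Mat2 A) (h : M' * M = 1)
    (r : GQ →* Mat2 A) (hr : MatCont r) : MatCont (conjHom M M' h r) := by
  have hMM' : M * M' = 1 := mul_eq_one_comm.mp h
  intro n
  obtain ⟨L, hL, hL'⟩ := hr n
  refine ⟨L, hL, fun σ hσ i j => ?_⟩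
  have : conjHom M M' h r σ - 1 = M * (r σ - 1) * M' := by
    rw [conjHom_apply, mul_sub, sub_mul, mul_one, hMM']
  rw [this]
  exact dict1_mul_mul_apply_mem _ M _ M' (hL' σ hσ) i j

theorem repOfMat_conjHom_isEquiv {A : Type} [CommRing A] [IsLocalRing A] (M M' : Mat2 A)
    (h : M' * M = 1) (r : GQ →* Mat2 A) (hr : MatCont r) :
    (repOfMat r hr).IsEquiv (repOfMat (conjHom M M' h r) (matCont_conjHom M M' h r hr)) := by
  rw [repOfMat_isEquiv_iff]
  refine ⟨M, M', mul_eq_one_comm.mp h, h, fun σ => ?_⟩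
  rw [conjHom_apply, mul_assoc, h, mul_one]

end

end Fermat.Agent.S53
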