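/-
S53 (Galois side), task G2: base change of the matrix model `repOfMat` along a local
homomorphism is the matrix model of the entrywise push-forward `mapHom`.
-/
import Mathlib
import Fermat.Agent.S53.Defs

set_option autoImplicit false

namespace Fermat.Agent.S53

open IsLocalRing Matrix
open scoped TensorProduct

noncomputable section

/-- The canonical identification `B ⊗[A] (Fin 2 → A) ≃ₗ[B] (Fin 2 → B)`. -/
def dict2_tensorPiEquiv (A B : Type) [CommRing A] [CommRing B] [Algebra A B] :
    B ⊗[A] (Fin 2 → A) ≃ₗ[B] (Fin 2 → B) :=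
  TensorProduct.piScalarRight A B B (Fin 2)

theorem dict2_tensorPiEquiv_tmul {A B : Type} [CommRing A] [CommRing B] [Algebra A B] (b : B)
    (f : Fin 2 → A) (i : Fin 2) :
    dict2_tensorPiEquiv A B (b ⊗ₜ[A] f) i = algebraMap A B (f i) * b := by
  rw [dict2_tensorPiEquiv, TensorProduct.piScalarRight_apply,
    TensorProduct.piScalarRightHom_tmul]
  exact Algebra.smul_def _ _

/-- Under `B ⊗[A] (Fin 2 → A) ≃ (Fin 2 → B)`, the base change of the action of a matrix is the
action of the entrywise image of the matrix. -/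
theorem dict2_tensorPiEquiv_baseChange {A B : Type} [CommRing A] [CommRing B] [Algebra A B]
    (M : Mat2 A) (x : B ⊗[A] (Fin 2 → A)) :
    dict2_tensorPiEquiv A B ((Matrix.toLin' M).baseChange B x) =
      (M.map (algebraMap A B)) *ᵥ (dict2_tensorPiEquiv A B x) := by
  induction x using TensorProduct.induction_on with
  | zero => simp only [map_zero, Matrix.mulVec_zero]
  | tmul b f =>
    funext i
    rw [LinearMap.baseChange_tmul, dict2_tensorPiEquiv_tmul, Matrix.toLin'_apply]
    show algebraMap A B (∑ j, M i j * f j) * b = ∑ j, (M.map (algebraMap A B)) i j *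
      dict2_tensorPiEquiv A B (b ⊗ₜ[A] f) j
    rw [map_sum, Finset.sum_mul]
    refine Finset.sum_congr rfl fun j _ => ?_
    rw [dict2_tensorPiEquiv_tmul, Matrix.map_apply, map_mul, mul_assoc]
  | add x y hx hy => rw [map_add, map_add, hx, hy, map_add, Matrix.mulVec_add]

theorem dict2_mapHom_sub_one_apply {A B : Type} [CommRing A] [CommRing B] (φ : A →+* B)
    (r : GQ →* Mat2 A) (σ : GQ) (i j : Fin 2) :
    (mapHom φ r σ - 1) i j = φ ((r σ - 1) i j) := by
  rw [Matrix.sub_apply, Matrix.sub_apply, map_sub, mapHom_apply, Matrix.one_apply,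
    Matrix.one_apply]
  split_ifs <;> simp

/-- A local homomorphism maps `𝔪_A ^ n` into `𝔪_B ^ n`. -/
theorem dict2_map_maximalIdeal_pow_mem {A B : Type} [CommRing A] [IsLocalRing A] [CommRing B]
    [IsLocalRing B] (φ : A →+* B) (hφ : IsLocalHom φ) (n : ℕ) {a : A}
    (ha : a ∈ maximalIdeal A ^ n) : φ a ∈ maximalIdeal B ^ n := by
  have hmap : (maximalIdeal A ^ n).map φ ≤ maximalIdeal B ^ n := by
    rw [Ideal.map_pow]
    exact Ideal.pow_right_mono (Ideal.map_le_iff_le_comap.mpr fun a ha =>
      Ideal.mem_comap.mpr (haveI := hφ; map_nonunit φ a ha)) n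
  exact hmap (Ideal.mem_map_of_mem φ ha)

theorem matCont_mapHom {A B : Type} [CommRing A] [IsLocalRing A] [CommRing B] [IsLocalRing B]
    (φ : A →+* B) (hφ : IsLocalHom φ) (r : GQ →* Mat2 A) (hr : MatCont r) :
    MatCont (mapHom φ r) := by
  intro n
  obtain ⟨L, hL, h⟩ := hr n
  refine ⟨L, hL, fun σ hσ i j => ?_⟩
  rw [dict2_mapHom_sub_one_apply]
  exact dict2_map_maximalIdeal_pow_mem φ hφ n (h σ hσ i j)

theorem baseChangeAlong_repOfMat_isEquiv {A B : Type} [CommRing A] [IsLocalRing A] [CommRing B]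
    [IsLocalRing B] (φ : A →+* B) (hφ : IsLocalHom φ) (r : GQ →* Mat2 A) (hr : MatCont r) :
    ((repOfMat r hr).baseChangeAlong φ hφ).IsEquiv
      (repOfMat (mapHom φ r) (matCont_mapHom φ hφ r hr)) := by
  let _ : Algebra A B := φ.toAlgebra
  exact ⟨{ toLinearEquiv := dict2_tensorPiEquiv A B
           map_apply := fun σ x => dict2_tensorPiEquiv_baseChange (r σ) x }⟩

end

end Fermat.Agent.S53
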