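/-
S53 (Galois side), dictionary part 3: the residual representation of `repOfMat r` versus
`ρbar`.  A matrix representation whose entries lift the fixed residual matrices has residual
representation equivalent to the base change of `ρbar`; conversely a matrix representation with
residual representation equivalent to the base change of `ρbar` is conjugate to one whose
entries lift the residual matrices.
-/
import Mathlib
import Fermat.Agent.S53.Defs

set_option autoImplicit false

namespace Fermat.Agent.S53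

open IsLocalRing
open scoped TensorProduct

noncomputable section

/-- Two residual representations whose matrices in given bases agree are equivalent. -/
theorem dict3_isEquiv_of_toMatrix_eq {K : Type} [Field K] (ρ₁ ρ₂ : ResidualGaloisRep K)
    (b₁ : Module.Basis (Fin 2) K ρ₁.V) (b₂ : Module.Basis (Fin 2) K ρ₂.V)
    (h : ∀ σ, LinearMap.toMatrix b₁ b₁ (ρ₁.ρ σ) = LinearMap.toMatrix b₂ b₂ (ρ₂.ρ σ)) :
    ρ₁.IsEquiv ρ₂ := by
  refine ⟨⟨b₁.equiv b₂ (Equiv.refl _), fun σ x => ?_⟩⟩
  have key : ((b₁.equiv b₂ (Equiv.refl _) : ρ₁.V ≃ₗ[K] ρ₂.V) : ρ₁.V →ₗ[K] ρ₂.V) ∘ₗ (ρ₁.ρ σ) =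
      (ρ₂.ρ σ) ∘ₗ ((b₁.equiv b₂ (Equiv.refl _) : ρ₁.V ≃ₗ[K] ρ₂.V) : ρ₁.V →ₗ[K] ρ₂.V) := by
    apply (LinearMap.toMatrix b₁ b₂).injective
    rw [LinearMap.toMatrix_comp b₁ b₁ b₂, LinearMap.toMatrix_comp b₁ b₂ b₂,
      LinearMap.toMatrix_basis_equiv, one_mul, mul_one, h σ]
  exact LinearMap.congr_fun key x

/-- An equivalence of residual representations gives an invertible matrix intertwining the
matrices of the two representations in any given bases. -/
theorem dict3_exists_intertwiner {K : Type} [Field K] (ρ₁ ρ₂ : ResidualGaloisRep K)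
    (b₁ : Module.Basis (Fin 2) K ρ₁.V) (b₂ : Module.Basis (Fin 2) K ρ₂.V)
    (h : ρ₁.IsEquiv ρ₂) :
    ∃ U U' : Matrix (Fin 2) (Fin 2) K, U * U' = 1 ∧ U' * U = 1 ∧
      ∀ σ, U * LinearMap.toMatrix b₁ b₁ (ρ₁.ρ σ) = LinearMap.toMatrix b₂ b₂ (ρ₂.ρ σ) * U := by
  obtain ⟨e⟩ := h
  refine ⟨LinearMap.toMatrix b₁ b₂ (e.toLinearEquiv : ρ₁.V →ₗ[K] ρ₂.V),
    LinearMap.toMatrix b₂ b₁ (e.toLinearEquiv.symm : ρ₂.V →ₗ[K] ρ₁.V), ?_, ?_, fun σ => ?_⟩
  · rw [← LinearMap.toMatrix_comp b₂ b₁ b₂, LinearEquiv.comp_coe, LinearEquiv.symm_trans_self,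
      LinearEquiv.refl_toLinearMap, LinearMap.toMatrix_id]
  · rw [← LinearMap.toMatrix_comp b₁ b₂ b₁, LinearEquiv.comp_coe, LinearEquiv.self_trans_symm,
      LinearEquiv.refl_toLinearMap, LinearMap.toMatrix_id]
  · rw [← LinearMap.toMatrix_comp b₁ b₁ b₂, ← LinearMap.toMatrix_comp b₁ b₂ b₂]
    congr 1
    exact LinearMap.ext fun x => e.map_apply σ x

/-- The matrices of the residual representation of `repOfMat r` in the standard basis. -/
theorem dict3_toMatrix_residual {A : Type} [CommRing A] [IsLocalRing A] (r : GQ →* Mat2 A)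
    (hr : MatCont r) (σ : GQ) :
    LinearMap.toMatrix
        (Algebra.TensorProduct.basis (ResidueField A) (Pi.basisFun A (Fin 2)))
        (Algebra.TensorProduct.basis (ResidueField A) (Pi.basisFun A (Fin 2)))
        ((repOfMat r hr).residual.ρ σ) = (r σ).map (residue A) := by
  have h1 : (repOfMat r hr).residual.ρ σ =
      (Matrix.toLin' (r σ)).baseChange (ResidueField A) := rfl
  rw [h1, LinearMap.toMatrix_baseChange, LinearMap.toMatrix_eq_toMatrix',
    LinearMap.toMatrix'_toLin', ResidueField.algebraMap_eq]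

/-- The matrices of a base change of a residual representation in the base-changed basis. -/
theorem dict3_toMatrix_baseChange {k K : Type} [Field k] [Field K] [Algebra k K]
    (ρbar : ResidualGaloisRep k) (b : Module.Basis (Fin 2) k ρbar.V) (σ : GQ) :
    LinearMap.toMatrix (Algebra.TensorProduct.basis K b) (Algebra.TensorProduct.basis K b)
        ((ρbar.baseChange K).ρ σ) = (rbarHom ρbar b σ).map (algebraMap k K) := by
  have h1 : (ρbar.baseChange K).ρ σ = (ρbar.ρ σ).baseChange K := rfl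
  rw [h1, LinearMap.toMatrix_baseChange, rbarHom_apply]

variable {𝒪 : Type} [CommRing 𝒪] [IsLocalRing 𝒪] {ρbar : ResidualGaloisRep (ResidueField 𝒪)}
  (S : Setup 𝒪 ρbar) {A : Type} [CommRing A] [IsLocalRing A] [Algebra 𝒪 A]

/-- If the entries of `r` lift the residual matrices, the residue of `r σ` is the image of
the residual matrix. -/
theorem dict3_map_residue_of_lifts
    (ψ : ResidueField 𝒪 →+* ResidueField A)
    (hψ : ∀ a : 𝒪, ψ (residue 𝒪 a) = residue A (algebraMap 𝒪 A a))
    (r : GQ → Mat2 A) (hl : Lifts S (entries r)) (σ : GQ) :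
    (r σ).map (residue A) = (rbarHom ρbar S.b σ).map ψ := by
  ext i j
  have h := hl (σ, i, j)
  rw [entries_apply, ← residue_eq_zero_iff, map_sub, sub_eq_zero] at h
  rw [Matrix.map_apply, Matrix.map_apply, h, ← hψ, S.hx0]

/-- Conversely, if the residue of `r σ` is the image of the residual matrix for every `σ`, then
the entries of `r` lift the residual matrices. -/
theorem dict3_lifts_of_map_residue
    (ψ : ResidueField 𝒪 →+* ResidueField A)
    (hψ : ∀ a : 𝒪, ψ (residue 𝒪 a) = residue A (algebraMap 𝒪 A a))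
    (r : GQ → Mat2 A) (h : ∀ σ, (r σ).map (residue A) = (rbarHom ρbar S.b σ).map ψ) :
    Lifts S (entries r) := by
  rintro ⟨σ, i, j⟩
  rw [entries_apply, ← residue_eq_zero_iff, map_sub, sub_eq_zero, ← hψ, S.hx0]
  have h' := congrFun (congrFun (h σ) i) j
  rwa [Matrix.map_apply, Matrix.map_apply] at h'

theorem residual_isEquiv_baseChangeAlong_of_lifts
    (ψ : ResidueField 𝒪 →+* ResidueField A)
    (hψ : ∀ a : 𝒪, ψ (residue 𝒪 a) = residue A (algebraMap 𝒪 A a))
    (r : GQ →* Mat2 A) (hr : MatCont r) (hl : Lifts S (entries r)) :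
    (repOfMat r hr).residual.IsEquiv (ρbar.baseChangeAlong ψ) := by
  letI : Algebra (ResidueField 𝒪) (ResidueField A) := ψ.toAlgebra
  have hb : ρbar.baseChangeAlong ψ = ρbar.baseChange (ResidueField A) := rfl
  rw [hb]
  refine dict3_isEquiv_of_toMatrix_eq _ _
    (Algebra.TensorProduct.basis (ResidueField A) (Pi.basisFun A (Fin 2)))
    (Algebra.TensorProduct.basis (ResidueField A) S.b) (fun σ => ?_)
  refine (dict3_toMatrix_residual r hr σ).trans
    (Eq.trans ?_ (dict3_toMatrix_baseChange ρbar S.b σ).symm)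
  rw [RingHom.algebraMap_toAlgebra]
  exact dict3_map_residue_of_lifts S ψ hψ r hl σ

theorem exists_conj_lifts_of_residual_isEquiv
    (ψ : ResidueField 𝒪 →+* ResidueField A)
    (hψ : ∀ a : 𝒪, ψ (residue 𝒪 a) = residue A (algebraMap 𝒪 A a))
    (r : GQ →* Mat2 A) (hr : MatCont r)
    (h : (repOfMat r hr).residual.IsEquiv (ρbar.baseChangeAlong ψ)) :
    ∃ (M M' : Mat2 A) (hM : M' * M = 1), M * M' = 1 ∧
      Lifts S (entries (conjHom M M' hM r)) := by
  letI : Algebra (ResidueField 𝒪) (ResidueField A) := ψ.toAlgebra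
  have hb : ρbar.baseChangeAlong ψ = ρbar.baseChange (ResidueField A) := rfl
  rw [hb] at h
  obtain ⟨U, U', hUU', hU'U, hint⟩ := dict3_exists_intertwiner _ _
    (Algebra.TensorProduct.basis (ResidueField A) (Pi.basisFun A (Fin 2)))
    (Algebra.TensorProduct.basis (ResidueField A) S.b) h
  have hint' : ∀ σ, U * (r σ).map (residue A) = (rbarHom ρbar S.b σ).map ψ * U := by
    intro σ
    have h2 : (rbarHom ρbar S.b σ).map (algebraMap (ResidueField 𝒪) (ResidueField A)) =
        (rbarHom ρbar S.b σ).map ψ := by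
      rw [RingHom.algebraMap_toAlgebra]
    rw [← h2]
    exact (congrArg (fun Z => U * Z) (dict3_toMatrix_residual r hr σ)).symm.trans
      ((hint σ).trans (congrArg (fun Z => Z * U) (dict3_toMatrix_baseChange ρbar S.b σ)))
  -- lift `U` entrywise
  have hex : ∀ i j, ∃ a : A, residue A a = U i j := fun i j => residue_surjective (U i j)
  choose m hm using hex
  let M : Mat2 A := Matrix.of m
  have hMU : M.map (residue A) = U := by
    ext i j
    exact hm i j
  have hdetU : U.det ≠ 0 := by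
    intro h0
    have h1 : (U * U').det = 1 := by rw [hUU', Matrix.det_one]
    rw [Matrix.det_mul, h0, zero_mul] at h1
    exact zero_ne_one h1
  have hdet : IsUnit M.det := by
    by_contra hnu
    have hmem : M.det ∈ maximalIdeal A := (mem_maximalIdeal _).2 hnu
    have h0 : residue A M.det = 0 := (residue_eq_zero_iff _).2 hmem
    apply hdetU
    rw [← hMU, ← h0]
    exact (RingHom.map_det (residue A) M).symm
  have hM1 : M⁻¹ * M = 1 := Matrix.nonsing_inv_mul M hdet
  have hM2 : M * M⁻¹ = 1 := Matrix.mul_nonsing_inv M hdet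
  refine ⟨M, M⁻¹, hM1, hM2, ?_⟩
  apply dict3_lifts_of_map_residue S ψ hψ
  intro σ
  rw [conjHom_apply, Matrix.map_mul, Matrix.map_mul, hMU, hint' σ, mul_assoc, ← hMU,
    ← Matrix.map_mul, hM2, Matrix.map_one _ (map_zero _) (map_one _), mul_one]

theorem ofResidualGaloisRep_isEquiv_repOfMat (hr : MatCont (rbarHom ρbar S.b)) :
    (GaloisRepAdic.ofResidualGaloisRep ρbar).IsEquiv (repOfMat (rbarHom ρbar S.b) hr) := by
  refine ⟨⟨S.b.equivFun, fun σ x => ?_⟩⟩
  show S.b.equivFun (ρbar.ρ σ x) = (rbarHom ρbar S.b σ).mulVec (S.b.equivFun x)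
  rw [rbarHom_apply]
  exact (LinearMap.toMatrix_mulVec_repr S.b S.b (ρbar.ρ σ) x).symm

end

end Fermat.Agent.S53
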