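/-
S53, task G7: the residual family of matrix entries is `IsDef` (`ProRepHyp.base`).
-/
import Mathlib
import Fermat.Agent.S53.Defs

set_option autoImplicit false

namespace Fermat.Agent.S53

open IsLocalRing

noncomputable section

/-- The residue field of `𝒪` is an Artinian test algebra (local copy used by `isDef_base`). -/
theorem hypBase_isArtinianTestAlgebra_residueField (𝒪 : Type) [CommRing 𝒪] [IsLocalRing 𝒪] :
    GaloisRep.IsArtinianTestAlgebra 𝒪 (ResidueField 𝒪) := by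
  refine ⟨?_, ?_, inferInstance⟩
  · rw [IsLocalRing.ResidueField.algebraMap_eq]
    infer_instance
  · rw [IsLocalRing.ResidueField.algebraMap_eq]
    exact (residue_surjective (R := ResidueField 𝒪)).comp (residue_surjective (R := 𝒪))

variable {𝒪 : Type} [CommRing 𝒪] [IsLocalRing 𝒪]
  {ρbar : ResidualGaloisRep (ResidueField 𝒪)} (S : Setup 𝒪 ρbar)
  (𝒟 : ∀ ⦃A : Type⦄ [CommRing A] [IsLocalRing A] [Algebra 𝒪 A], GaloisRepAdic A → Prop)
  (h𝒟 : GaloisRep.IsDeformationCondition 𝒪 𝒟)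

/-- `ρbar`, viewed as a `GaloisRepAdic`, is equivalent to the matrix model in the basis `b`
(local copy, so that this file only depends on `Defs`). -/
theorem hypBase_ofResidualGaloisRep_isEquiv_repOfMat {k : Type} [Field k]
    (ρ : ResidualGaloisRep k) (b : Module.Basis (Fin 2) k ρ.V) (hr : MatCont (rbarHom ρ b)) :
    (GaloisRepAdic.ofResidualGaloisRep ρ).IsEquiv (repOfMat (rbarHom ρ b) hr) := by
  refine ⟨⟨b.equivFun, fun σ v => ?_⟩⟩
  show b.equivFun (ρ.ρ σ v) = (LinearMap.toMatrix b b (ρ.ρ σ)).mulVec (b.equivFun v)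
  exact (LinearMap.toMatrix_mulVec_repr b b (ρ.ρ σ) v).symm

/-- The matrices of the residual entry family are those of `ρbar` in the basis `S.b`. -/
theorem hypBase_toMat_eq (σ : GQ) :
    toMat (fun i => residue 𝒪 (S.x0 i)) σ = rbarHom ρbar S.b σ := by
  ext i j
  rw [toMat_apply]
  exact S.hx0 σ i j

include h𝒟 in
theorem isDef_base (hbar : 𝒟 (GaloisRepAdic.ofResidualGaloisRep ρbar)) :
    IsDef S 𝒟 (ResidueField 𝒪) (fun i => residue 𝒪 (S.x0 i)) := by
  have hfun : toMat (fun i => residue 𝒪 (S.x0 i)) = ⇑(rbarHom ρbar S.b) :=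
    funext (hypBase_toMat_eq S)
  refine ⟨?_, ?_, ?_, ?_, ?_, ?_⟩
  · rw [hypBase_toMat_eq, map_one]
  · intro σ τ
    rw [hypBase_toMat_eq, hypBase_toMat_eq, hypBase_toMat_eq, map_mul]
  · obtain ⟨L, hL, h⟩ := ρbar.factorsThroughFiniteLevel
    refine ⟨L, hL, fun σ hσ => ?_⟩
    rw [hypBase_toMat_eq, rbarHom_apply, h σ hσ]
    exact LinearMap.toMatrix_one S.b
  · intro p
    have : residue 𝒪 (S.x0 p) - algebraMap 𝒪 (ResidueField 𝒪) (S.x0 p) = 0 := by
      rw [IsLocalRing.ResidueField.algebraMap_eq, sub_self]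
    rw [this]
    exact Ideal.zero_mem _
  · rw [hfun]
    refine ⟨?_, ?_, ?_⟩
    · rw [S.hc₁]; rfl
    · rw [S.hc₁]; rfl
    · rw [S.hc₂]; rfl
  · intro r hr hrx
    have hr_eq : r = rbarHom ρbar S.b := by
      ext σ : 1
      rw [hrx σ, hypBase_toMat_eq]
    subst hr_eq
    exact h𝒟.of_isEquiv (hypBase_isArtinianTestAlgebra_residueField 𝒪)
      (hypBase_ofResidualGaloisRep_isEquiv_repOfMat ρbar S.b hr) hbar

end

end Fermat.Agent.S53
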