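import Mathlib
import Fermat.Agent.S53.ProRepDefs

/-!
# S53: basic facts on Artinian test algebras
-/

set_option autoImplicit false
set_option linter.unusedSectionVars false
set_option linter.style.haveILetI false

namespace Fermat.Agent.S53

open IsLocalRing GaloisRep

variable {𝒪 : Type} [CommRing 𝒪] [IsLocalRing 𝒪]

/-- the maximal ideal of a local quotient is the image of the maximal ideal. -/
theorem maximalIdeal_eq_map_of_surjective {A B : Type*} [CommRing A] [IsLocalRing A]
    [CommRing B] [IsLocalRing B] (f : A →+* B) (hf : Function.Surjective f) :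
    maximalIdeal B = (maximalIdeal A).map f := by
  have : IsLocalHom f := IsLocalHom.of_surjective f hf
  apply le_antisymm
  · intro x hx
    obtain ⟨a, rfl⟩ := hf x
    refine Ideal.mem_map_of_mem f ?_
    intro ha
    exact hx (ha.map f)
  · exact ((local_hom_TFAE f).out 0 2).mp this

/-- T8: an `𝒪`-algebra hom into a local algebra with `𝒪 → B/m` onto is a local hom. -/
theorem isLocalHom_algHom {A B : Type} [CommRing A] [IsLocalRing A] [Algebra 𝒪 A]
    [CommRing B] [IsLocalRing B] [Algebra 𝒪 B]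
    (hB : Function.Surjective (residue B ∘ algebraMap 𝒪 B)) (φ : A →ₐ[𝒪] B) :
    IsLocalHom (φ : A →+* B) := by
  constructor
  intro a ha
  by_contra hna
  have ha' : a ∈ maximalIdeal A := hna
  obtain ⟨b, hb⟩ := ha.exists_right_inv
  obtain ⟨o, ho⟩ := hB (residue B b)
  have hmem : algebraMap 𝒪 B o - b ∈ maximalIdeal B := by
    rw [← Ideal.Quotient.eq]
    exact ho
  have h1 : (1 : A) - a * algebraMap 𝒪 A o ∉ maximalIdeal A := by
    intro h
    have := (maximalIdeal A).sub_mem h
      ((maximalIdeal A).neg_mem ((maximalIdeal A).mul_mem_right (algebraMap 𝒪 A o) ha'))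
    have h2 : (1 : A) ∈ maximalIdeal A := by
      convert this using 1; ring
    exact (Ideal.ne_top_iff_one _).mp (maximalIdeal.isMaximal A).ne_top h2
  have h1u : IsUnit ((1 : A) - a * algebraMap 𝒪 A o) := by
    by_contra h; exact h1 h
  have h3 : IsUnit ((φ : A →+* B) ((1 : A) - a * algebraMap 𝒪 A o)) := h1u.map _
  have h4 : (φ : A →+* B) ((1 : A) - a * algebraMap 𝒪 A o) ∈ maximalIdeal B := by
    have : (φ : A →+* B) ((1 : A) - a * algebraMap 𝒪 A o)
        = - ((φ : A →+* B) a * (algebraMap 𝒪 B o - b)) := by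
      simp only [map_sub, map_one, map_mul, RingHom.coe_coe, AlgHom.commutes]
      have hb' : φ a * b = 1 := hb
      linear_combination (-1 : B) * hb'
    rw [this]
    exact (maximalIdeal B).neg_mem ((maximalIdeal B).mul_mem_left _ hmem)
  exact h4 h3

/-- the residue field of a test algebra is a quotient of the residue field of `𝒪`. -/
theorem residueField_map_surjective {A : Type} [CommRing A] [IsLocalRing A] [Algebra 𝒪 A]
    [IsLocalHom (algebraMap 𝒪 A)]
    (hA : Function.Surjective (residue A ∘ algebraMap 𝒪 A)) :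
    Function.Surjective (ResidueField.map (algebraMap 𝒪 A)) := by
  intro x
  obtain ⟨a, rfl⟩ := residue_surjective x
  obtain ⟨o, ho⟩ := hA (residue A a)
  exact ⟨residue 𝒪 o, by simpa using ho⟩

/-- T0: test algebras are finite rings. -/
theorem finite_of_isArtinianTestAlgebra [Finite (ResidueField 𝒪)] {A : Type} [CommRing A]
    [IsLocalRing A] [Algebra 𝒪 A] (hA : IsArtinianTestAlgebra 𝒪 A) : Finite A := by
  have := hA.isLocalHom
  have := hA.isArtinian
  have : Finite (ResidueField A) :=
    Finite.of_surjective _ (residueField_map_surjective hA.residue_surjective)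
  obtain ⟨n, hn⟩ := (isArtinianRing_iff_isNilpotent_maximalIdeal A).mp ‹_›
  have : Finite (A ⧸ (⊥ : Ideal A)) := finite_quotient_iff.mpr ⟨n, hn.le⟩
  exact Finite.of_equiv _ (RingEquiv.quotientBot A).toEquiv

/-- T1: an `𝒪`-algebra that embeds into a test algebra is a (local) test algebra. -/
theorem isArtinianTestAlgebra_of_injective [Finite (ResidueField 𝒪)] {A B : Type} [CommRing A]
    [Algebra 𝒪 A] [CommRing B] [IsLocalRing B] [Algebra 𝒪 B] (hB : IsArtinianTestAlgebra 𝒪 B)
    (φ : A →ₐ[𝒪] B) (hφ : Function.Injective φ) :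
    ∃ _ : IsLocalRing A, IsArtinianTestAlgebra 𝒪 A := by
  have : Finite B := finite_of_isArtinianTestAlgebra hB
  have : Finite A := Finite.of_injective φ hφ
  have : Nontrivial A := ⟨⟨0, 1, fun h => by
    have := congrArg φ h
    simp at this⟩⟩
  -- `φ` reflects units
  have hunit : ∀ a : A, IsUnit (φ a) → IsUnit a := by
    intro a ha
    rw [isUnit_iff_mem_nonZeroDivisors_of_finite, mem_nonZeroDivisors_iff_right]
    intro x hx
    apply hφ
    have h2 : φ x * φ a = 0 := by rw [← map_mul, hx, map_zero]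
    rw [map_zero]
    exact (IsUnit.mul_left_eq_zero ha).mp h2
  have hloc : IsLocalRing A := by
    refine IsLocalRing.of_isUnit_or_isUnit_one_sub_self fun a => ?_
    rcases IsLocalRing.isUnit_or_isUnit_one_sub_self (φ a) with h | h
    · exact Or.inl (hunit a h)
    · refine Or.inr (hunit _ ?_)
      rwa [map_sub, map_one]
  refine ⟨hloc, ⟨⟨fun o ho => ?_⟩, ?_, inferInstance⟩⟩
  · have := hB.isLocalHom
    have h2 : IsUnit (algebraMap 𝒪 B o) := by
      rw [← φ.commutes]; exact ho.map φ
    exact IsUnit.of_map (algebraMap 𝒪 B) o h2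
  · intro x
    obtain ⟨a, rfl⟩ := residue_surjective x
    obtain ⟨o, ho⟩ := hB.residue_surjective (residue B (φ a))
    refine ⟨o, ?_⟩
    have hmem : algebraMap 𝒪 B o - φ a ∈ maximalIdeal B := by
      rw [← Ideal.Quotient.eq]; exact ho
    show residue A (algebraMap 𝒪 A o) = residue A a
    rw [← sub_eq_zero, ← map_sub, residue_eq_zero_iff]
    intro hu
    apply hmem
    have := hu.map φ
    rwa [map_sub, φ.commutes] at this

/-- T2: a nontrivial quotient of a test algebra is a (local) test algebra. -/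
theorem isArtinianTestAlgebra_of_surjective {A B : Type} [CommRing A] [IsLocalRing A]
    [Algebra 𝒪 A] [CommRing B] [Nontrivial B] [Algebra 𝒪 B] (hA : IsArtinianTestAlgebra 𝒪 A)
    (φ : A →ₐ[𝒪] B) (hφ : Function.Surjective φ) :
    ∃ _ : IsLocalRing B, IsArtinianTestAlgebra 𝒪 B := by
  have hloc : IsLocalRing B := IsLocalRing.of_surjective' (φ : A →+* B) hφ
  have hφloc : IsLocalHom (φ : A →+* B) := IsLocalHom.of_surjective (φ : A →+* B) hφ
  have := hA.isArtinian
  refine ⟨hloc, ⟨⟨fun o ho => ?_⟩, ?_, hφ.isArtinianRing (f := (φ : A →+* B))⟩⟩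
  · have := hA.isLocalHom
    have h2 : IsUnit ((φ : A →+* B) (algebraMap 𝒪 A o)) := by
      rw [RingHom.coe_coe, φ.commutes]; exact ho
    exact IsUnit.of_map (algebraMap 𝒪 A) o (IsUnit.of_map (φ : A →+* B) _ h2)
  · intro x
    obtain ⟨b, rfl⟩ := residue_surjective x
    obtain ⟨a, rfl⟩ := hφ b
    obtain ⟨o, ho⟩ := hA.residue_surjective (residue A a)
    refine ⟨o, ?_⟩
    have hmem : algebraMap 𝒪 A o - a ∈ maximalIdeal A := by
      rw [← Ideal.Quotient.eq]; exact ho
    show residue B (algebraMap 𝒪 B o) = residue B (φ a)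
    rw [← sub_eq_zero, ← map_sub, residue_eq_zero_iff, ← φ.commutes, ← map_sub]
    intro hu
    exact hmem (IsUnit.of_map (φ : A →+* B) _ hu)

/-- T7: the quotients `A/m^(n+1)` of a Noetherian local `𝒪`-algebra with residue field `k`
are test algebras. -/
theorem isArtinianTestAlgebra_quotient_pow {A : Type} [CommRing A] [IsLocalRing A]
    [IsNoetherianRing A] [Algebra 𝒪 A] (hloc : IsLocalHom (algebraMap 𝒪 A))
    (hres : Function.Surjective (residue A ∘ algebraMap 𝒪 A)) (n : ℕ) :
    ∃ _ : IsLocalRing (A ⧸ maximalIdeal A ^ (n + 1)),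
      IsArtinianTestAlgebra 𝒪 (A ⧸ maximalIdeal A ^ (n + 1)) := by
  have hne : maximalIdeal A ^ (n + 1) ≠ ⊤ := by
    intro h
    have h1 : (1 : A) ∈ maximalIdeal A ^ (n + 1) := h ▸ Submodule.mem_top
    exact (Ideal.ne_top_iff_one _).mp (maximalIdeal.isMaximal A).ne_top
      (Ideal.pow_le_self (Nat.succ_ne_zero n) h1)
  have : Nontrivial (A ⧸ maximalIdeal A ^ (n + 1)) := Ideal.Quotient.nontrivial_iff.mpr hne
  have hsurj : Function.Surjective (Ideal.Quotient.mk (maximalIdeal A ^ (n + 1))) :=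
    Ideal.Quotient.mk_surjective
  have hlocq : IsLocalRing (A ⧸ maximalIdeal A ^ (n + 1)) :=
    IsLocalRing.of_surjective' _ hsurj
  have hmkloc : IsLocalHom (Ideal.Quotient.mk (maximalIdeal A ^ (n + 1))) :=
    IsLocalHom.of_surjective _ hsurj
  refine ⟨hlocq, ⟨⟨fun o ho => ?_⟩, ?_, ?_⟩⟩
  · exact IsUnit.of_map (algebraMap 𝒪 A) o
      (IsUnit.of_map (Ideal.Quotient.mk (maximalIdeal A ^ (n + 1))) _ ho)
  · intro x
    obtain ⟨b, rfl⟩ := residue_surjective x
    obtain ⟨a, rfl⟩ := hsurj b
    obtain ⟨o, ho⟩ := hres (residue A a)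
    refine ⟨o, ?_⟩
    have hmem : algebraMap 𝒪 A o - a ∈ maximalIdeal A := by
      rw [← Ideal.Quotient.eq]; exact ho
    show residue _ (Ideal.Quotient.mk _ (algebraMap 𝒪 A o)) = residue _ (Ideal.Quotient.mk _ a)
    rw [← sub_eq_zero, ← map_sub, residue_eq_zero_iff, ← map_sub]
    intro hu
    exact hmem (IsUnit.of_map (Ideal.Quotient.mk (maximalIdeal A ^ (n + 1))) _ hu)
  · rw [isArtinianRing_iff_isNilpotent_maximalIdeal]
    refine ⟨n + 1, ?_⟩
    rw [maximalIdeal_eq_map_of_surjective _ hsurj, ← Ideal.map_pow, Ideal.map_quotient_self]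
    rfl

/-- T9: `k[ε]` with the algebra structure of `TangentFinite` is a test algebra. -/
theorem isArtinianTestAlgebra_dualNumber :
    letI := dualNumberAlgebra 𝒪
    IsArtinianTestAlgebra 𝒪 (DualNumber (ResidueField 𝒪)) := by
  letI := dualNumberAlgebra 𝒪
  have hmap : ∀ o : 𝒪, algebraMap 𝒪 (DualNumber (ResidueField 𝒪)) o
      = TrivSqZeroExt.inl (residue 𝒪 o) := fun o => rfl
  refine ⟨⟨fun o ho => ?_⟩, ?_, ?_⟩
  · rw [hmap, TrivSqZeroExt.isUnit_iff_isUnit_fst, TrivSqZeroExt.fst_inl] at ho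
    by_contra h
    exact ho.ne_zero ((residue_eq_zero_iff o).mpr h)
  · intro x
    obtain ⟨y, rfl⟩ := residue_surjective x
    obtain ⟨o, ho⟩ := residue_surjective (R := 𝒪) (TrivSqZeroExt.fst y)
    refine ⟨o, ?_⟩
    show residue _ (algebraMap 𝒪 (DualNumber (ResidueField 𝒪)) o) = residue _ y
    rw [← sub_eq_zero, ← map_sub, residue_eq_zero_iff, mem_maximalIdeal, mem_nonunits_iff, hmap,
      TrivSqZeroExt.isUnit_iff_isUnit_fst, TrivSqZeroExt.fst_sub, TrivSqZeroExt.fst_inl, ho,
      sub_self]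
    exact not_isUnit_zero
  · have : Module.Finite (ResidueField 𝒪) (DualNumber (ResidueField 𝒪)) :=
      inferInstanceAs (Module.Finite (ResidueField 𝒪) (ResidueField 𝒪 × ResidueField 𝒪))
    exact IsArtinianRing.of_finite (ResidueField 𝒪) (DualNumber (ResidueField 𝒪))

end Fermat.Agent.S53
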