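/-
S53 (Galois side) G9: the concrete deformation predicate `IsDef` glues over fibre products.
-/
import Mathlib
import Fermat.Agent.S53.Defs
import Fermat.Agent.S53.Dict1
import Fermat.Agent.S53.Dict2
import Fermat.Agent.S53.TestAlg

set_option autoImplicit false

namespace Fermat.Agent.S53

open IsLocalRing

noncomputable section

/-- The matrix of entries of a pushed-forward family is the entrywise image. -/
theorem glue_toMat_map {A B : Type} (φ : A → B) (x : Idx → A) (σ : GQ) :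
    toMat (fun i => φ (x i)) σ = (toMat x σ).map φ := rfl

/-- `comb` commutes with entrywise application of an algebra homomorphism. -/
theorem glue_comb_map {𝒪 A B : Type} [CommRing 𝒪] [CommRing A] [Algebra 𝒪 A] [CommRing B]
    [Algebra 𝒪 B] (φ : A →ₐ[𝒪] B) (c : GQ →₀ 𝒪) (r : GQ → Mat2 A) :
    comb c (fun σ => (r σ).map φ) = (comb c r).map φ := by
  have h : ∀ M : Mat2 A, M.map φ = (φ.mapMatrix : Mat2 A →ₐ[𝒪] Mat2 B) M := fun M => rfl
  simp only [comb, h, Finsupp.sum, map_sum, map_smul]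

/-- Two matrices over the fibre product agree as soon as both projections agree. -/
theorem glue_mat_ext {P A B : Type} (pA : P → A) (pB : P → B)
    (hinj : Function.Injective (fun x => (pA x, pB x))) {M N : Mat2 P}
    (hA : M.map pA = N.map pA) (hB : M.map pB = N.map pB) : M = N := by
  ext i j
  apply hinj
  exact Prod.ext (congrFun (congrFun hA i) j) (congrFun (congrFun hB i) j)

variable {𝒪 : Type} [CommRing 𝒪] [IsLocalRing 𝒪]
  {ρbar : ResidualGaloisRep (ResidueField 𝒪)} (S : Setup 𝒪 ρbar)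
  (𝒟 : ∀ ⦃A : Type⦄ [CommRing A] [IsLocalRing A] [Algebra 𝒪 A], GaloisRepAdic A → Prop)
  (h𝒟 : GaloisRep.IsDeformationCondition 𝒪 𝒟)

/-- One projection of the `type` field: the base change of a matrix representation over the
source is of type `𝒟` as soon as its entrywise image is the entry family of an `IsDef`. -/
theorem glue_type_baseChange {A P : Type} [CommRing A] [IsLocalRing A] [Algebra 𝒪 A]
    [CommRing P] [IsLocalRing P] [Algebra 𝒪 P]
    (h𝒟 : GaloisRep.IsDeformationCondition 𝒪 𝒟)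
    (hA : GaloisRep.IsArtinianTestAlgebra 𝒪 A) (pA : P →ₐ[𝒪] A)
    (hpA : IsLocalHom (pA : P →+* A)) (x : Idx → P)
    (hxA : IsDef S 𝒟 A (fun i => pA (x i))) (r : GQ →* Mat2 P) (hr : MatCont r)
    (hrx : ∀ σ, r σ = toMat x σ) :
    𝒟 ((repOfMat r hr).baseChangeAlong (pA : P →+* A) hpA) := by
  have h1 : 𝒟 (repOfMat (mapHom (pA : P →+* A) r) (matCont_mapHom (pA : P →+* A) hpA r hr)) := by
    refine hxA.type _ _ fun σ => ?_
    ext i j
    rw [mapHom_apply, hrx σ]
    rfl
  obtain ⟨e⟩ := baseChangeAlong_repOfMat_isEquiv (pA : P →+* A) hpA r hr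
  exact h𝒟.of_isEquiv hA ⟨e.symm⟩ h1

include h𝒟 in
theorem isDef_glue {A B C P : Type} [CommRing A] [IsLocalRing A] [Algebra 𝒪 A]
    [CommRing B] [IsLocalRing B] [Algebra 𝒪 B] [CommRing C] [IsLocalRing C] [Algebra 𝒪 C]
    [CommRing P] [IsLocalRing P] [Algebra 𝒪 P]
    (hA : GaloisRep.IsArtinianTestAlgebra 𝒪 A) (hB : GaloisRep.IsArtinianTestAlgebra 𝒪 B)
    (hC : GaloisRep.IsArtinianTestAlgebra 𝒪 C) (hP : GaloisRep.IsArtinianTestAlgebra 𝒪 P)
    (f : A →ₐ[𝒪] C) (g : B →ₐ[𝒪] C) (pA : P →ₐ[𝒪] A) (pB : P →ₐ[𝒪] B)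
    (hfg : f.comp pA = g.comp pB)
    (hinj : Function.Injective (fun x => (pA x, pB x)))
    (hsurj : ∀ a b, f a = g b → ∃ x, pA x = a ∧ pB x = b)
    (x : Idx → P) (hxA : IsDef S 𝒟 A (fun i => pA (x i))) (hxB : IsDef S 𝒟 B (fun i => pB (x i))) :
    IsDef S 𝒟 P x := by
  have hpA : IsLocalHom (pA : P →+* A) := isLocalHom_algHom hA.residue_surjective pA
  have hpB : IsLocalHom (pB : P →+* B) := isLocalHom_algHom hB.residue_surjective pB
  have h1A : ((1 : Mat2 P)).map pA = 1 := Matrix.map_one _ (map_zero _) (map_one _)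
  have h1B : ((1 : Mat2 P)).map pB = 1 := Matrix.map_one _ (map_zero _) (map_one _)
  refine ⟨?_, ?_, ?_, ?_, ?_, ?_⟩
  · -- map_one
    refine glue_mat_ext pA pB hinj ?_ ?_
    · rw [h1A]; exact hxA.map_one
    · rw [h1B]; exact hxB.map_one
  · -- map_mul
    intro σ τ
    refine glue_mat_ext pA pB hinj ?_ ?_
    · rw [Matrix.map_mul]; exact hxA.map_mul σ τ
    · rw [Matrix.map_mul]; exact hxB.map_mul σ τ
  · -- finiteLevel
    obtain ⟨LA, hLA, hLA'⟩ := hxA.finiteLevel
    obtain ⟨LB, hLB, hLB'⟩ := hxB.finiteLevel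
    refine ⟨LA ⊔ LB, IntermediateField.finiteDimensional_sup LA LB, fun σ hσ => ?_⟩
    refine glue_mat_ext pA pB hinj ?_ ?_
    · rw [h1A]
      exact hLA' σ fun y hy => hσ y ((le_sup_left : LA ≤ LA ⊔ LB) hy)
    · rw [h1B]
      exact hLB' σ fun y hy => hσ y ((le_sup_right : LB ≤ LA ⊔ LB) hy)
  · -- lifts
    intro p
    have h := hxA.lifts p
    intro hu
    apply h
    have h2 : pA (x p) - algebraMap 𝒪 A (S.x0 p) = pA (x p - algebraMap 𝒪 P (S.x0 p)) := by
      rw [map_sub, AlgHom.commutes]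
    rw [h2]
    exact hu.map pA
  · -- rigid
    obtain ⟨a1, a2, a3⟩ := hxA.rigid
    obtain ⟨b1, b2, b3⟩ := hxB.rigid
    have eA : ∀ c : GQ →₀ 𝒪, comb c (toMat (fun i => pA (x i))) = (comb c (toMat x)).map pA :=
      fun c => glue_comb_map pA c (toMat x)
    have eB : ∀ c : GQ →₀ 𝒪, comb c (toMat (fun i => pB (x i))) = (comb c (toMat x)).map pB :=
      fun c => glue_comb_map pB c (toMat x)
    rw [eA] at a1 a2 a3
    rw [eB] at b1 b2 b3
    refine ⟨?_, ?_, ?_⟩
    · apply hinj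
      refine Prod.ext ?_ ?_
      · show pA _ = pA 0
        rw [map_zero]; exact a1
      · show pB _ = pB 0
        rw [map_zero]; exact b1
    · apply hinj
      refine Prod.ext ?_ ?_
      · show pA _ = pA 0
        rw [map_zero]; exact a2
      · show pB _ = pB 0
        rw [map_zero]; exact b2
    · apply hinj
      refine Prod.ext ?_ ?_
      · show pA _ = pA 1
        rw [map_one]; exact a3
      · show pB _ = pB 1
        rw [map_one]; exact b3
  · -- type
    intro r hr hrx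
    exact h𝒟.of_fibreProduct hA hB hC hP f g pA pB hpA hpB hfg hinj hsurj
      (glue_type_baseChange S 𝒟 h𝒟 hA pA hpA x hxA r hr hrx)
      (glue_type_baseChange S 𝒟 h𝒟 hB pB hpB x hxB r hr hrx)

end

end Fermat.Agent.S53
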