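import Mathlib

/-!
# 2×2 rigidification over a (Henselian) local ring  (S53, sub-lemma (d))

Pure matrix statements.  `m` denotes the maximal ideal of the local ring `A`.

* `eq_smul_one_of_rigid` (3b): if `N₁, N₁'` are diagonal with diagonal `≡ (1,0) mod m`,
  `N₂ 1 0 = 1 = N₂' 1 0` and `M * N₁ = N₁' * M`, `M * N₂ = N₂' * M`, then `M` is a scalar matrix.
* `exists_rigidifying_conj_of_hensel` (3a): if `N₁ ≡ e₁₁`, `N₂ ≡ e₂₁ mod m` and `A` satisfies
  Hensel's lemma, there is `M ≡ 1 mod m`, invertible, with `M N₁ M⁻¹` diagonal and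
  `(M N₂ M⁻¹) 1 0 = 1`.
-/

set_option autoImplicit false

namespace Fermat.Agent.S53

open Matrix Polynomial IsLocalRing

/-- Entrywise equality of explicit `2 × 2` matrices. -/
theorem rigid_of_eq {A : Type*} {a b c d a' b' c' d' : A} (h1 : a = a') (h2 : b = b') (h3 : c = c')
    (h4 : d = d') : !![a, b; c, d] = !![a', b'; c', d'] := by
  subst h1 h2 h3 h4; rfl

variable {A : Type*} [CommRing A]

/-- In a local ring, an element congruent to `1` modulo the maximal ideal is a unit. -/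
theorem rigid_isUnit_of_sub_one_mem [IsLocalRing A] {x : A} (hx : x - 1 ∈ maximalIdeal A) :
    IsUnit x := by
  apply IsLocalRing.isUnit_of_mem_nonunits_one_sub_self
  have : 1 - x ∈ maximalIdeal A := by
    have := (maximalIdeal A).neg_mem hx
    rwa [neg_sub] at this
  exact (IsLocalRing.mem_maximalIdeal _).1 this

/-- **(3b) Rigidity.** A matrix intertwining two rigid pairs is a scalar matrix. -/
theorem eq_smul_one_of_rigid [IsLocalRing A]
    (N₁ N₂ N₁' N₂' M : Matrix (Fin 2) (Fin 2) A)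
    (hd : N₁ 0 1 = 0 ∧ N₁ 1 0 = 0) (hd' : N₁' 0 1 = 0 ∧ N₁' 1 0 = 0)
    (ha : N₁ 0 0 - 1 ∈ maximalIdeal A) (hb : N₁ 1 1 ∈ maximalIdeal A)
    (ha' : N₁' 0 0 - 1 ∈ maximalIdeal A) (hb' : N₁' 1 1 ∈ maximalIdeal A)
    (h2 : N₂ 1 0 = 1) (h2' : N₂' 1 0 = 1)
    (hM₁ : M * N₁ = N₁' * M) (hM₂ : M * N₂ = N₂' * M) :
    ∃ x : A, M = x • (1 : Matrix (Fin 2) (Fin 2) A) := by
  -- entries of the intertwining relations
  have e01 := congrFun (congrFun hM₁ 0) 1
  have e10 := congrFun (congrFun hM₁ 1) 0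
  have f10 := congrFun (congrFun hM₂ 1) 0
  simp only [Matrix.mul_apply, Fin.sum_univ_two] at e01 e10 f10
  rw [hd.1, hd'.1] at e01
  rw [hd.2, hd'.2] at e10
  -- `M 0 1 = 0`
  have hu1 : IsUnit (N₁' 0 0 - N₁ 1 1) := by
    apply rigid_isUnit_of_sub_one_mem
    have := (maximalIdeal A).sub_mem ha' hb
    convert this using 1; ring
  have hM01 : M 0 1 = 0 := by
    have h : M 0 1 * (N₁' 0 0 - N₁ 1 1) = 0 := by linear_combination -e01
    exact (hu1.mul_left_eq_zero).1 h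
  -- `M 1 0 = 0`
  have hu2 : IsUnit (N₁ 0 0 - N₁' 1 1) := by
    apply rigid_isUnit_of_sub_one_mem
    have := (maximalIdeal A).sub_mem ha hb'
    convert this using 1; ring
  have hM10 : M 1 0 = 0 := by
    have h : M 1 0 * (N₁ 0 0 - N₁' 1 1) = 0 := by linear_combination e10
    exact (hu2.mul_left_eq_zero).1 h
  -- `M 1 1 = M 0 0`
  have hM11 : M 1 1 = M 0 0 := by
    rw [h2, h2', hM10] at f10
    linear_combination f10
  refine ⟨M 0 0, ?_⟩
  ext i j
  fin_cases i <;> fin_cases j <;> simp [hM01, hM10, hM11]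

/-- Corollary of (3b): two families simultaneously conjugate by an invertible `M`, both rigid,
are equal. -/
theorem eq_of_rigid_of_conj [IsLocalRing A] {ι : Type*}
    (r r' : ι → Matrix (Fin 2) (Fin 2) A)
    (N₁ N₂ N₁' N₂' M M' : Matrix (Fin 2) (Fin 2) A)
    (hMM' : M' * M = 1)
    (hd : N₁ 0 1 = 0 ∧ N₁ 1 0 = 0) (hd' : N₁' 0 1 = 0 ∧ N₁' 1 0 = 0)
    (ha : N₁ 0 0 - 1 ∈ maximalIdeal A) (hb : N₁ 1 1 ∈ maximalIdeal A)
    (ha' : N₁' 0 0 - 1 ∈ maximalIdeal A) (hb' : N₁' 1 1 ∈ maximalIdeal A)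
    (h2 : N₂ 1 0 = 1) (h2' : N₂' 1 0 = 1)
    (hM₁ : M * N₁ = N₁' * M) (hM₂ : M * N₂ = N₂' * M)
    (hr : ∀ i, M * r i = r' i * M) : r = r' := by
  obtain ⟨x, hx⟩ := eq_smul_one_of_rigid N₁ N₂ N₁' N₂' M hd hd' ha hb ha' hb' h2 h2' hM₁ hM₂
  have hxM' : x • M' = 1 := by
    have h := hMM'
    rw [hx, Matrix.mul_smul, Matrix.mul_one] at h
    exact h
  funext i
  have h := hr i
  have h1 : M' * (M * r i) = M' * (r' i * M) := by rw [h]
  rw [← Matrix.mul_assoc, hMM', Matrix.one_mul] at h1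
  rw [h1, hx, Matrix.mul_smul, Matrix.mul_one, Matrix.mul_smul, ← Matrix.smul_mul, hxM',
    Matrix.one_mul]

/-- **(3a) Rigidification**, with Hensel's lemma as an explicit hypothesis. -/
theorem exists_rigidifying_conj_of_hensel [IsLocalRing A]
    (hens : ∀ f : A[X], f.Monic → ∀ a₀ : A, f.eval a₀ ∈ maximalIdeal A →
      IsUnit (f.derivative.eval a₀) → ∃ a : A, f.IsRoot a ∧ a - a₀ ∈ maximalIdeal A)
    (N₁ N₂ : Matrix (Fin 2) (Fin 2) A)
    (h₁ : ∀ i j, N₁ i j - (if i = 0 ∧ j = 0 then 1 else 0) ∈ maximalIdeal A)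
    (h₂ : ∀ i j, N₂ i j - (if i = 1 ∧ j = 0 then 1 else 0) ∈ maximalIdeal A) :
    ∃ (M M' : Matrix (Fin 2) (Fin 2) A) (a b : A), M * M' = 1 ∧ M' * M = 1 ∧
      (∀ i j, M i j - (1 : Matrix (Fin 2) (Fin 2) A) i j ∈ maximalIdeal A) ∧
      a - 1 ∈ maximalIdeal A ∧ b ∈ maximalIdeal A ∧
      M * N₁ * M' = !![a, 0; 0, b] ∧ (M * N₂ * M') 1 0 = 1 := by
  -- entries of `N₁`
  obtain ⟨p, q, r, s, hN₁⟩ : ∃ p q r s : A, N₁ = !![p, q; r, s] :=
    ⟨N₁ 0 0, N₁ 0 1, N₁ 1 0, N₁ 1 1, Matrix.eta_fin_two N₁⟩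
  have hp : p - 1 ∈ maximalIdeal A := by simpa [hN₁] using h₁ 0 0
  have hq : q ∈ maximalIdeal A := by simpa [hN₁] using h₁ 0 1
  have hr : r ∈ maximalIdeal A := by simpa [hN₁] using h₁ 1 0
  have hs : s ∈ maximalIdeal A := by simpa [hN₁] using h₁ 1 1
  -- residues
  have rp : residue A p = 1 := by
    have := (residue_eq_zero_iff (p - 1)).2 hp
    rw [map_sub, map_one, sub_eq_zero] at this
    exact this
  have rq : residue A q = 0 := (residue_eq_zero_iff q).2 hq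
  have rr : residue A r = 0 := (residue_eq_zero_iff r).2 hr
  have rs : residue A s = 0 := (residue_eq_zero_iff s).2 hs
  -- characteristic polynomial and its root `a ≡ 1`
  set f : A[X] := X ^ 2 + (C (-(p + s)) * X + C (p * s - q * r)) with hf
  have hfm : f.Monic :=
    Polynomial.monic_X_pow_add (lt_of_le_of_lt degree_linear_le (by norm_num))
  have hf1 : f.eval 1 ∈ maximalIdeal A := by
    rw [← residue_eq_zero_iff]
    simp [hf, rp, rq, rr, rs]
  have hf1' : IsUnit (f.derivative.eval 1) := by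
    apply rigid_isUnit_of_sub_one_mem
    rw [← residue_eq_zero_iff]
    simp [hf, rp, rs]
  obtain ⟨a, hroot, ha⟩ := hens f hfm 1 hf1 hf1'
  have hroot' : a ^ 2 - (p + s) * a + (p * s - q * r) = 0 := by
    have := hroot
    simp only [Polynomial.IsRoot, hf, eval_add, eval_pow, eval_X, eval_mul, eval_C] at this
    linear_combination this
  have ra : residue A a = 1 := by
    have := (residue_eq_zero_iff (a - 1)).2 ha
    rw [map_sub, map_one, sub_eq_zero] at this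
    exact this
  -- the other root
  set b : A := p + s - a with hb
  have rb : residue A b = 0 := by simp [hb, rp, rs, ra]
  have hbm : b ∈ maximalIdeal A := (residue_eq_zero_iff b).1 rb
  -- the eigenvector matrix `P ≡ 1` and its determinant
  set δ : A := (p - b) * (a - s) + q * r with hδ
  have rδ : residue A δ = 1 := by simp [hδ, rp, rs, ra, rb, rq, rr]
  have hδu : IsUnit δ := by
    apply rigid_isUnit_of_sub_one_mem
    rw [← residue_eq_zero_iff, map_sub, rδ, map_one, sub_self]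
  obtain ⟨δi, hδi⟩ := hδu.exists_right_inv
  have rδi : residue A δi = 1 := by
    have := congrArg (residue A) hδi
    rwa [map_mul, rδ, one_mul, map_one] at this
  set P : Matrix (Fin 2) (Fin 2) A := !![p - b, -q; r, a - s] with hP
  set Pi : Matrix (Fin 2) (Fin 2) A := !![δi * (a - s), δi * q; δi * (-r), δi * (p - b)] with hPi
  have hPPi : P * Pi = 1 := by
    rw [hP, hPi, Matrix.mul_fin_two, Matrix.one_fin_two]
    refine rigid_of_eq ?_ ?_ ?_ ?_
    · linear_combination hδi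
    · ring
    · ring
    · linear_combination hδi
  have hPiP : Pi * P = 1 := by
    rw [hP, hPi, Matrix.mul_fin_two, Matrix.one_fin_two]
    refine rigid_of_eq ?_ ?_ ?_ ?_
    · linear_combination hδi
    · ring
    · ring
    · linear_combination hδi
  have hNP : N₁ * P = P * !![a, 0; 0, b] := by
    rw [hN₁, hP, Matrix.mul_fin_two, Matrix.mul_fin_two]
    refine rigid_of_eq ?_ ?_ ?_ ?_
    · linear_combination (-1 : A) * hroot'
    · ring
    · ring
    · linear_combination hroot'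
  -- the entry `u = (P⁻¹ N₂ P) 1 0 ≡ 1`
  obtain ⟨p₂, q₂, r₂, s₂, hN₂⟩ : ∃ p q r s : A, N₂ = !![p, q; r, s] :=
    ⟨N₂ 0 0, N₂ 0 1, N₂ 1 0, N₂ 1 1, Matrix.eta_fin_two N₂⟩
  have hr₂ : r₂ - 1 ∈ maximalIdeal A := by simpa [hN₂] using h₂ 1 0
  have rr₂ : residue A r₂ = 1 := by
    have := (residue_eq_zero_iff (r₂ - 1)).2 hr₂
    rw [map_sub, map_one, sub_eq_zero] at this
    exact this
  set u : A := (Pi * N₂ * P) 1 0 with hu
  have hu' : u = δi * (-r) * (p₂ * (p - b) + q₂ * r) + δi * (p - b) * (r₂ * (p - b) + s₂ * r) := by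
    rw [hu, hN₂, hP, hPi, Matrix.mul_fin_two, Matrix.mul_fin_two]
    simp
    ring
  have ru : residue A u = 1 := by
    rw [hu']
    simp [rδi, rr, rp, rb, rr₂]
  have huu : IsUnit u := by
    apply rigid_isUnit_of_sub_one_mem
    rw [← residue_eq_zero_iff, map_sub, ru, map_one, sub_self]
  obtain ⟨ui, hui⟩ := huu.exists_right_inv
  have hD : !![u, 0; 0, 1] * !![ui, 0; 0, (1 : A)] = 1 := by
    rw [Matrix.mul_fin_two, Matrix.one_fin_two]
    refine rigid_of_eq ?_ ?_ ?_ ?_ <;> simp [hui]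
  have hD' : !![ui, 0; 0, (1 : A)] * !![u, 0; 0, 1] = 1 := by
    rw [Matrix.mul_fin_two, Matrix.one_fin_two]
    refine rigid_of_eq ?_ ?_ ?_ ?_ <;> simp [mul_comm ui u, hui]
  refine ⟨!![u, 0; 0, 1] * Pi, P * !![ui, 0; 0, 1], a, b, ?_, ?_, ?_, ha, hbm, ?_, ?_⟩
  · -- M * M' = 1
    calc !![u, 0; 0, 1] * Pi * (P * !![ui, 0; 0, 1])
        = !![u, 0; 0, 1] * (Pi * P) * !![ui, 0; 0, 1] := by simp only [Matrix.mul_assoc]
      _ = 1 := by rw [hPiP, Matrix.mul_one, hD]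
  · -- M' * M = 1
    calc P * !![ui, 0; 0, 1] * (!![u, 0; 0, 1] * Pi)
        = P * (!![ui, 0; 0, 1] * !![u, 0; 0, 1]) * Pi := by simp only [Matrix.mul_assoc]
      _ = 1 := by rw [hD', Matrix.mul_one, hPPi]
  · -- M ≡ 1
    intro i j
    rw [← residue_eq_zero_iff, hPi, Matrix.mul_fin_two]
    fin_cases i <;> fin_cases j <;> simp [ru, rδi, ra, rs, rq, rr, rp, rb]
  · -- M N₁ M' is diagonal
    calc !![u, 0; 0, 1] * Pi * N₁ * (P * !![ui, 0; 0, 1])
        = !![u, 0; 0, 1] * Pi * (N₁ * P) * !![ui, 0; 0, 1] := by simp only [Matrix.mul_assoc]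
      _ = !![u, 0; 0, 1] * (Pi * P) * !![a, 0; 0, b] * !![ui, 0; 0, 1] := by
          rw [hNP]; simp only [Matrix.mul_assoc]
      _ = !![a, 0; 0, b] := by
          rw [hPiP, Matrix.mul_one, Matrix.mul_fin_two, Matrix.mul_fin_two]
          refine rigid_of_eq ?_ ?_ ?_ ?_
          · linear_combination a * hui
          · ring
          · ring
          · ring
  · -- (M N₂ M') 1 0 = 1
    have : !![u, 0; 0, 1] * Pi * N₂ * (P * !![ui, 0; 0, 1])
        = !![u, 0; 0, 1] * (Pi * N₂ * P) * !![ui, 0; 0, 1] := by simp only [Matrix.mul_assoc]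
    rw [this, Matrix.eta_fin_two (Pi * N₂ * P), Matrix.mul_fin_two, Matrix.mul_fin_two]
    simp
    rw [← hu]
    linear_combination hui

/-- **(3a) Rigidification** over a Henselian local ring. -/
theorem exists_rigidifying_conj [HenselianLocalRing A]
    (N₁ N₂ : Matrix (Fin 2) (Fin 2) A)
    (h₁ : ∀ i j, N₁ i j - (if i = 0 ∧ j = 0 then 1 else 0) ∈ maximalIdeal A)
    (h₂ : ∀ i j, N₂ i j - (if i = 1 ∧ j = 0 then 1 else 0) ∈ maximalIdeal A) :
    ∃ (M M' : Matrix (Fin 2) (Fin 2) A) (a b : A), M * M' = 1 ∧ M' * M = 1 ∧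
      (∀ i j, M i j - (1 : Matrix (Fin 2) (Fin 2) A) i j ∈ maximalIdeal A) ∧
      a - 1 ∈ maximalIdeal A ∧ b ∈ maximalIdeal A ∧
      M * N₁ * M' = !![a, 0; 0, b] ∧ (M * N₂ * M') 1 0 = 1 :=
  exists_rigidifying_conj_of_hensel
    (fun f hf a₀ h h' => HenselianLocalRing.is_henselian f hf a₀ h h') N₁ N₂ h₁ h₂

/-- **(3a) Rigidification** over a local ring which is complete for its maximal ideal. -/
theorem exists_rigidifying_conj_of_isAdicComplete [IsLocalRing A]
    [IsAdicComplete (maximalIdeal A) A]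
    (N₁ N₂ : Matrix (Fin 2) (Fin 2) A)
    (h₁ : ∀ i j, N₁ i j - (if i = 0 ∧ j = 0 then 1 else 0) ∈ maximalIdeal A)
    (h₂ : ∀ i j, N₂ i j - (if i = 1 ∧ j = 0 then 1 else 0) ∈ maximalIdeal A) :
    ∃ (M M' : Matrix (Fin 2) (Fin 2) A) (a b : A), M * M' = 1 ∧ M' * M = 1 ∧
      (∀ i j, M i j - (1 : Matrix (Fin 2) (Fin 2) A) i j ∈ maximalIdeal A) ∧
      a - 1 ∈ maximalIdeal A ∧ b ∈ maximalIdeal A ∧
      M * N₁ * M' = !![a, 0; 0, b] ∧ (M * N₂ * M') 1 0 = 1 :=
  exists_rigidifying_conj_of_hensel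
    (fun f hf a₀ h h' =>
      HenselianRing.is_henselian (I := maximalIdeal A) f hf a₀ h
        (h'.map (Ideal.Quotient.mk (maximalIdeal A)))) N₁ N₂ h₁ h₂

end Fermat.Agent.S53
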