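import Mathlib
import Fermat.Agent.S53.Defs
import Fermat.Agent.S53.Rigid

/-!
# Rigid representatives of strict equivalence classes  (S53, G4)

* `rigid_unique`: two rigid lifts of the residual representation which are conjugate are equal.
* `exists_rigid_conj`: over a complete local algebra, every lift of the residual representation
  is conjugate (by a matrix congruent to `1`) to a rigid lift.
-/

set_option autoImplicit false

namespace Fermat.Agent.S53

open IsLocalRing

noncomputable section

/-- Entries of the linear combination `comb c r`. -/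
theorem rigidRep_comb_apply {𝒪 A : Type} [CommRing 𝒪] [CommRing A] [Algebra 𝒪 A] (c : GQ →₀ 𝒪)
    (r : GQ → Mat2 A) (i j : Fin 2) :
    comb c r i j = c.sum fun g a => a • r g i j := by
  unfold comb
  simp [Finsupp.sum, Matrix.sum_apply]

/-- `comb` commutes with left multiplication by a fixed matrix. -/
theorem rigidRep_comb_mul_left {𝒪 A : Type} [CommRing 𝒪] [CommRing A] [Algebra 𝒪 A]
    (c : GQ →₀ 𝒪) (r : GQ → Mat2 A) (M : Mat2 A) :
    comb c (fun σ => M * r σ) = M * comb c r := by
  unfold comb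
  simp [Finsupp.sum, Finset.mul_sum]

/-- `comb` commutes with right multiplication by a fixed matrix. -/
theorem rigidRep_comb_mul_right {𝒪 A : Type} [CommRing 𝒪] [CommRing A] [Algebra 𝒪 A]
    (c : GQ →₀ 𝒪) (r : GQ → Mat2 A) (M : Mat2 A) :
    comb c (fun σ => r σ * M) = comb c r * M := by
  unfold comb
  simp [Finsupp.sum, Finset.sum_mul]

variable {𝒪 : Type} [CommRing 𝒪] [IsLocalRing 𝒪] {ρbar : ResidualGaloisRep (ResidueField 𝒪)}
  (S : Setup 𝒪 ρbar) {A : Type} [CommRing A] [IsLocalRing A] [Algebra 𝒪 A]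
  [IsLocalHom (algebraMap 𝒪 A)]

/-- The structure map of a local algebra maps the maximal ideal into the maximal ideal. -/
theorem rigidRep_algebraMap_mem {a : 𝒪} (ha : a ∈ maximalIdeal 𝒪) :
    algebraMap 𝒪 A a ∈ maximalIdeal A := by
  rw [mem_maximalIdeal, mem_nonunits_iff] at ha ⊢
  exact fun h => ha (isUnit_of_map_unit (algebraMap 𝒪 A) a h)

omit [IsLocalHom (algebraMap 𝒪 A)] in
/-- A linear combination of the matrices of a lift is congruent to the image of the same linear
combination of the fixed lifts `x0`. -/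
theorem rigidRep_comb_sub_mem (c : GQ →₀ 𝒪) (r : GQ → Mat2 A) (hl : Lifts S (entries r))
    (i j : Fin 2) :
    comb c r i j - algebraMap 𝒪 A (comb c (toMat S.x0) i j) ∈ maximalIdeal A := by
  rw [rigidRep_comb_apply, rigidRep_comb_apply]
  simp only [Finsupp.sum, map_sum, ← Finset.sum_sub_distrib]
  refine Ideal.sum_mem _ fun g _ => ?_
  have h := hl (g, i, j)
  rw [entries_apply] at h
  have h2 : c g • r g i j - algebraMap 𝒪 A (c g • toMat S.x0 g i j)
      = algebraMap 𝒪 A (c g) * (r g i j - algebraMap 𝒪 A (S.x0 (g, i, j))) := by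
    rw [Algebra.smul_def, toMat_apply, smul_eq_mul, map_mul]
    ring
  rw [h2]
  exact Ideal.mul_mem_left _ _ h

omit [Algebra 𝒪 A] [IsLocalHom (algebraMap 𝒪 A)] in
/-- The residue of a linear combination of the fixed lifts is the linear combination of the
residual matrices. -/
theorem rigidRep_residue_comb (c : GQ →₀ 𝒪) (i j : Fin 2) :
    residue 𝒪 (comb c (toMat S.x0) i j) = comb c (rbarHom ρbar S.b) i j := by
  rw [rigidRep_comb_apply, rigidRep_comb_apply]
  simp only [Finsupp.sum, map_sum]
  refine Finset.sum_congr rfl fun g _ => ?_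
  rw [toMat_apply, smul_eq_mul, map_mul, S.hx0, Algebra.smul_def]
  rfl

/-- If `∑ c(g) ρbar(g) = N0`, then `∑ c(g) r(g) ≡ N0` modulo the maximal ideal, for any lift
`r` (here `N0` has entries `0` or `1`, given by a decidable predicate). -/
theorem rigidRep_comb_congr (c : GQ →₀ 𝒪) (r : GQ → Mat2 A) (hl : Lifts S (entries r))
    (P : Fin 2 → Fin 2 → Prop) [∀ i j, Decidable (P i j)]
    (hc : ∀ i j, comb c (rbarHom ρbar S.b) i j = if P i j then 1 else 0) (i j : Fin 2) :
    comb c r i j - (if P i j then 1 else 0) ∈ maximalIdeal A := by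
  have h1 := rigidRep_comb_sub_mem S c r hl i j
  have h2 : comb c (toMat S.x0) i j - (if P i j then 1 else 0) ∈ maximalIdeal 𝒪 := by
    rw [← residue_eq_zero_iff, map_sub, rigidRep_residue_comb, hc]
    split_ifs <;> simp
  have h3 := rigidRep_algebraMap_mem (A := A) h2
  have h4 : comb c r i j - (if P i j then (1 : A) else 0)
      = (comb c r i j - algebraMap 𝒪 A (comb c (toMat S.x0) i j))
        + algebraMap 𝒪 A (comb c (toMat S.x0) i j - (if P i j then 1 else 0)) := by
    rw [map_sub]
    split_ifs <;> simp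
  rw [h4]
  exact Ideal.add_mem _ h1 h3

/-- For a lift `r`, `∑ c₁(g) r(g) ≡ e₁₁` modulo the maximal ideal. -/
theorem rigidRep_comb_c₁ (r : GQ → Mat2 A) (hl : Lifts S (entries r)) (i j : Fin 2) :
    comb S.c₁ r i j - (if i = 0 ∧ j = 0 then 1 else 0) ∈ maximalIdeal A := by
  refine rigidRep_comb_congr S S.c₁ r hl (fun i j => i = 0 ∧ j = 0) (fun i j => ?_) i j
  rw [S.hc₁]
  fin_cases i <;> fin_cases j <;> simp

/-- For a lift `r`, `∑ c₂(g) r(g) ≡ e₂₁` modulo the maximal ideal. -/
theorem rigidRep_comb_c₂ (r : GQ → Mat2 A) (hl : Lifts S (entries r)) (i j : Fin 2) :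
    comb S.c₂ r i j - (if i = 1 ∧ j = 0 then 1 else 0) ∈ maximalIdeal A := by
  refine rigidRep_comb_congr S S.c₂ r hl (fun i j => i = 1 ∧ j = 0) (fun i j => ?_) i j
  rw [S.hc₂]
  fin_cases i <;> fin_cases j <;> simp

/-- **Uniqueness of rigid representatives**: two rigid lifts of the residual representation
which are conjugate are equal. -/
theorem rigid_unique (r r' : GQ →* Mat2 A) (hl : Lifts S (entries r)) (hl' : Lifts S (entries r'))
    (hrig : IsRigid S.c₁ S.c₂ r) (hrig' : IsRigid S.c₁ S.c₂ r')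
    (M M' : Mat2 A) (hMM' : M' * M = 1) (hconj : ∀ σ, M * r σ = r' σ * M) : r = r' := by
  have key : ∀ c : GQ →₀ 𝒪, M * comb c r = comb c r' * M := by
    intro c
    rw [← rigidRep_comb_mul_left, ← rigidRep_comb_mul_right]
    congr 1
    funext σ
    exact hconj σ
  have h := eq_of_rigid_of_conj (ι := GQ) (fun σ => r σ) (fun σ => r' σ)
    (comb S.c₁ r) (comb S.c₂ r) (comb S.c₁ r') (comb S.c₂ r') M M' hMM'
    ⟨hrig.1, hrig.2.1⟩ ⟨hrig'.1, hrig'.2.1⟩
    (by simpa using rigidRep_comb_c₁ S r hl 0 0)
    (by simpa using rigidRep_comb_c₁ S r hl 1 1)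
    (by simpa using rigidRep_comb_c₁ S r' hl' 0 0)
    (by simpa using rigidRep_comb_c₁ S r' hl' 1 1)
    hrig.2.2 hrig'.2.2 (key S.c₁) (key S.c₂) hconj
  exact MonoidHom.ext fun σ => congrFun h σ

/-- **Existence of rigid representatives**: over a complete local algebra every lift of the
residual representation is conjugate to a rigid lift. -/
theorem exists_rigid_conj [IsAdicComplete (maximalIdeal A) A] (r : GQ →* Mat2 A)
    (hl : Lifts S (entries r)) :
    ∃ (M M' : Mat2 A) (hM : M' * M = 1), M * M' = 1 ∧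
      Lifts S (entries (conjHom M M' hM r)) ∧ IsRigid S.c₁ S.c₂ (conjHom M M' hM r) := by
  obtain ⟨M, M', a, b, hMM', hM'M, hM1, -, -, hN₁, hN₂⟩ :=
    exists_rigidifying_conj_of_isAdicComplete (comb S.c₁ r) (comb S.c₂ r)
      (rigidRep_comb_c₁ S r hl) (rigidRep_comb_c₂ S r hl)
  have hcomb : ∀ c : GQ →₀ 𝒪, comb c (conjHom M M' hM'M r) = M * comb c r * M' := by
    intro c
    rw [← rigidRep_comb_mul_left, ← rigidRep_comb_mul_right]
    rfl
  refine ⟨M, M', hM'M, hMM', ?_, ?_, ?_, ?_⟩
  · -- the conjugate is still a lift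
    have hmapM : (residue A).mapMatrix M = 1 := by
      ext i j
      have := (residue_eq_zero_iff _).2 (hM1 i j)
      rw [map_sub, sub_eq_zero] at this
      rw [RingHom.mapMatrix_apply, Matrix.map_apply, this]
      fin_cases i <;> fin_cases j <;> simp
    have hmapM' : (residue A).mapMatrix M' = 1 := by
      have := congrArg (residue A).mapMatrix hM'M
      rw [map_mul, hmapM, mul_one, map_one] at this
      exact this
    intro p
    obtain ⟨σ, i, j⟩ := p
    have h := hl (σ, i, j)
    rw [entries_apply] at h ⊢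
    rw [conjHom_apply]
    have h5 : (M * r σ * M') i j - r σ i j ∈ maximalIdeal A := by
      rw [← residue_eq_zero_iff, map_sub, sub_eq_zero]
      have := congrFun (congrFun (show (residue A).mapMatrix (M * r σ * M')
        = (residue A).mapMatrix (r σ) by rw [map_mul, map_mul, hmapM, hmapM', one_mul, mul_one])
        i) j
      simpa [RingHom.mapMatrix_apply, Matrix.map_apply] using this
    have h6 : (M * r σ * M') i j - algebraMap 𝒪 A (S.x0 (σ, i, j))
        = ((M * r σ * M') i j - r σ i j) + (r σ i j - algebraMap 𝒪 A (S.x0 (σ, i, j))) := by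
      ring
    rw [h6]
    exact Ideal.add_mem _ h5 h
  · rw [hcomb, hN₁]; rfl
  · rw [hcomb, hN₁]; rfl
  · rw [hcomb]; exact hN₂

end

end Fermat.Agent.S53
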