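/-
S53, task G10: finiteness of the set of rigid deformations to the dual numbers
(`ProRepHyp.tangent` for the concrete predicate `IsDef`), from `GaloisRep.TangentFinite`.
-/
import Mathlib
import Fermat.Agent.S53.Defs
import Fermat.Agent.S53.Dict1
import Fermat.Agent.S53.Dict3
import Fermat.Agent.S53.RigidRep
import Fermat.Agent.S53.TestAlg

set_option autoImplicit false

namespace Fermat.Agent.S53

open IsLocalRing

noncomputable section

/-- A type mapping to a setoid, injectively up to the relation, is finite as soon as the quotient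
is finite. -/
theorem hypTangent_finite_of_quotient {α β : Type*} (s : Setoid β) (hs : Finite (Quotient s))
    (f : α → β) (hf : ∀ a a' : α, s.r (f a) (f a') → a = a') : Finite α :=
  Finite.of_injective (fun a => Quotient.mk s (f a)) fun a a' h => hf a a' (Quotient.exact h)

/-- The entry family is determined by the attached monoid homomorphism. -/
theorem hypTangent_eq_of_homOfEntries_eq {A : Type} [CommRing A] (x y : Idx → A)
    (h1 : toMat x 1 = 1) (hmul : ∀ σ τ : GQ, toMat x (σ * τ) = toMat x σ * toMat x τ)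
    (h1' : toMat y 1 = 1) (hmul' : ∀ σ τ : GQ, toMat y (σ * τ) = toMat y σ * toMat y τ)
    (h : homOfEntries x h1 hmul = homOfEntries y h1' hmul') : x = y := by
  funext p
  obtain ⟨σ, i, j⟩ := p
  have h2 : toMat x σ = toMat y σ := DFunLike.congr_fun h σ
  have h3 := congrFun (congrFun h2 i) j
  simpa only [toMat_apply] using h3

variable {𝒪 : Type} [CommRing 𝒪] [IsLocalRing 𝒪]
  {ρbar : ResidualGaloisRep (ResidueField 𝒪)} (S : Setup 𝒪 ρbar)
  (𝒟 : ∀ ⦃A : Type⦄ [CommRing A] [IsLocalRing A] [Algebra 𝒪 A], GaloisRepAdic A → Prop)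
  (h𝒟 : GaloisRep.IsDeformationCondition 𝒪 𝒟)

theorem isDef_tangent (hfin : GaloisRep.TangentFinite 𝒪 ρbar 𝒟) :
    letI := dualNumberAlgebra 𝒪
    Set.Finite {x : Idx → DualNumber (ResidueField 𝒪) |
      IsDef S 𝒟 (DualNumber (ResidueField 𝒪)) x} := by
  let _ := dualNumberAlgebra 𝒪
  have hT : GaloisRep.IsArtinianTestAlgebra 𝒪 (DualNumber (ResidueField 𝒪)) :=
    isArtinianTestAlgebra_dualNumber (𝒪 := 𝒪)
  have : IsLocalHom (algebraMap 𝒪 (DualNumber (ResidueField 𝒪))) := hT.isLocalHom
  rw [← Set.finite_coe_iff]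
  let ψ : ResidueField 𝒪 →+* ResidueField (DualNumber (ResidueField 𝒪)) :=
    (residue (DualNumber (ResidueField 𝒪))).comp
      (algebraMap (ResidueField 𝒪) (DualNumber (ResidueField 𝒪)))
  have hψ : ∀ a : 𝒪, ψ (residue 𝒪 a) =
      residue (DualNumber (ResidueField 𝒪)) (algebraMap 𝒪 (DualNumber (ResidueField 𝒪)) a) :=
    fun a => rfl
  refine hypTangent_finite_of_quotient _ hfin
    (fun x : {x : Idx → DualNumber (ResidueField 𝒪) |
        IsDef S 𝒟 (DualNumber (ResidueField 𝒪)) x} =>
      ⟨repOfMat (homOfEntries x.1 x.2.map_one x.2.map_mul)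
          (matCont_of_finiteLevel _ x.2.finiteLevel),
        x.2.type _ _ (fun σ => rfl),
        residual_isEquiv_baseChangeAlong_of_lifts S ψ hψ _ _ x.2.lifts⟩) ?_
  rintro ⟨x, hx⟩ ⟨y, hy⟩ h
  have h' : (repOfMat (homOfEntries x hx.map_one hx.map_mul)
      (matCont_of_finiteLevel _ hx.finiteLevel)).IsEquiv
      (repOfMat (homOfEntries y hy.map_one hy.map_mul)
        (matCont_of_finiteLevel _ hy.finiteLevel)) := h
  obtain ⟨M, M', -, hM'M, hconj⟩ := (repOfMat_isEquiv_iff _ _ _ _).mp h'
  have hxy : homOfEntries x hx.map_one hx.map_mul = homOfEntries y hy.map_one hy.map_mul :=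
    rigid_unique S _ _ hx.lifts hy.lifts hx.rigid hy.rigid M M' hM'M hconj
  exact Subtype.ext (hypTangent_eq_of_homOfEntries_eq x y _ _ _ _ hxy)

end

end Fermat.Agent.S53
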