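/-
S53 helper (definitions only): the output package of the abstract "pro-representing ring"
construction.  Pure commutative algebra, no Galois representations.

Given an `𝒪`-algebra `Λ` and a set `𝒥` of ideals of `Λ`, a `ProRing 𝒪 Λ 𝒥` is a complete
noetherian local `𝒪`-algebra `R` with residue field that of `𝒪`, together with compatible
surjections `p J : R →ₐ[𝒪] Λ ⧸ J` (`J ∈ 𝒥`) such that `R` is the inverse limit of the `Λ ⧸ J`
and the kernels of the `p J` are cofinal with the powers of the maximal ideal of `R`.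
-/
import Mathlib

set_option autoImplicit false

namespace Fermat.Agent.S53

structure ProRing (𝒪 : Type) [CommRing 𝒪] (Λ : Type) [CommRing Λ] [Algebra 𝒪 Λ]
    (𝒥 : Set (Ideal Λ)) : Type 1 where
  R : Type
  [instCommRing : CommRing R]
  [instIsLocalRing : IsLocalRing R]
  [instIsNoetherianRing : IsNoetherianRing R]
  [instIsAdicComplete : IsAdicComplete (IsLocalRing.maximalIdeal R) R]
  [instAlgebra : Algebra 𝒪 R]
  [instIsLocalHom : IsLocalHom (algebraMap 𝒪 R)]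
  residue_surjective : Function.Surjective (IsLocalRing.residue R ∘ algebraMap 𝒪 R)
  /-- the projections -/
  p : ∀ J : Ideal Λ, J ∈ 𝒥 → (R →ₐ[𝒪] Λ ⧸ J)
  p_surjective : ∀ (J : Ideal Λ) (hJ : J ∈ 𝒥), Function.Surjective (p J hJ)
  p_compat : ∀ (J J' : Ideal Λ) (hJ : J ∈ 𝒥) (hJ' : J' ∈ 𝒥) (h : J ≤ J') (x : R),
    Ideal.Quotient.factor h (p J hJ x) = p J' hJ' x
  /-- the kernels of the projections are cofinal with the powers of the maximal ideal -/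
  cofinal : ∀ n : ℕ, ∃ (J : Ideal Λ) (hJ : J ∈ 𝒥),
    RingHom.ker (p J hJ : R →+* Λ ⧸ J) ≤ IsLocalRing.maximalIdeal R ^ n
  /-- every compatible family comes from an element of `R` -/
  exists_of_compat : ∀ y : (∀ J : Ideal Λ, J ∈ 𝒥 → Λ ⧸ J),
    (∀ (J J' : Ideal Λ) (hJ : J ∈ 𝒥) (hJ' : J' ∈ 𝒥) (h : J ≤ J'),
      Ideal.Quotient.factor h (y J hJ) = y J' hJ') →
    ∃ x : R, ∀ (J : Ideal Λ) (hJ : J ∈ 𝒥), p J hJ x = y J hJ

attribute [instance] ProRing.instCommRing ProRing.instIsLocalRing ProRing.instIsNoetherianRing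
  ProRing.instIsAdicComplete ProRing.instAlgebra ProRing.instIsLocalHom

/-- The statement of the abstract existence theorem (to be proved in
`Fermat/Agent/S53/ProRing.lean` as `Fermat.Agent.S53.nonempty_proRing`). -/
def ProRingStatement : Prop :=
  ∀ (𝒪 : Type) [CommRing 𝒪] [IsDomain 𝒪] [IsDiscreteValuationRing 𝒪]
    [IsAdicComplete (IsLocalRing.maximalIdeal 𝒪) 𝒪] [Finite (IsLocalRing.ResidueField 𝒪)]
    (Λ : Type) [CommRing Λ] [Algebra 𝒪 Λ] (M : Ideal Λ) (_hM : M ≠ ⊤)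
    (_hres : ∀ x : Λ, ∃ a : 𝒪, x - algebraMap 𝒪 Λ a ∈ M)
    (_hπ : ∀ a ∈ IsLocalRing.maximalIdeal 𝒪, algebraMap 𝒪 Λ a ∈ M)
    (𝒥 : Set (Ideal Λ)) (_hne : 𝒥.Nonempty)
    (_hle : ∀ J ∈ 𝒥, J ≤ M) (_hpow : ∀ J ∈ 𝒥, ∃ n : ℕ, M ^ n ≤ J)
    (_hinf : ∀ J ∈ 𝒥, ∀ J' ∈ 𝒥, J ⊓ J' ∈ 𝒥)
    (t : Finset Λ) (_ht : ∀ x ∈ t, x ∈ M)
    (_hgen : ∀ J ∈ 𝒥, M ≤ J ⊔ Ideal.span (t : Set Λ)),
    Nonempty (ProRing 𝒪 Λ 𝒥)

end Fermat.Agent.S53
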