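import Mathlib
import Fermat.Agent.S53.ProRepDefs
import Fermat.Agent.S53.ProRingDefs
import Fermat.Agent.S53.TestAlg

/-!
# S53: good ideals of `Λ = MvPolynomial X 𝒪` (definitions for the bridge
`ProRepHyp + ProRingStatement → ProRepData`)
-/

set_option autoImplicit false
set_option linter.unusedSectionVars false
set_option linter.style.haveILetI false

namespace Fermat.Agent.S53

open IsLocalRing GaloisRep

variable {𝒪 : Type} [CommRing 𝒪] [IsLocalRing 𝒪] {X : Type}

/-- the tautological family over `Λ ⧸ J` -/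
noncomputable def tautFam (J : Ideal (MvPolynomial X 𝒪)) : X → MvPolynomial X 𝒪 ⧸ J :=
  fun i => Ideal.Quotient.mk J (MvPolynomial.X i)

/-- `J` is good if `Λ ⧸ J` is a test algebra and the tautological family is of type `F`. -/
def Good (F : ∀ (A : Type) [CommRing A] [IsLocalRing A] [Algebra 𝒪 A], (X → A) → Prop)
    (J : Ideal (MvPolynomial X 𝒪)) : Prop :=
  ∃ _ : IsLocalRing (MvPolynomial X 𝒪 ⧸ J),
    IsArtinianTestAlgebra 𝒪 (MvPolynomial X 𝒪 ⧸ J) ∧ F (MvPolynomial X 𝒪 ⧸ J) (tautFam J)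

/-- the augmentation ideal: kernel of `Λ → k`, `X i ↦ residue (x0 i)`. -/
noncomputable def augIdeal (x0 : X → 𝒪) : Ideal (MvPolynomial X 𝒪) :=
  RingHom.ker (MvPolynomial.aeval (fun i => residue 𝒪 (x0 i)) :
    MvPolynomial X 𝒪 →ₐ[𝒪] ResidueField 𝒪)

end Fermat.Agent.S53
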