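import Mathlib
import Fermat.Agent.S53.ProRepBasic

/-!
# S53: properties of good ideals of `Λ = MvPolynomial X 𝒪`
-/

set_option autoImplicit false
set_option linter.unusedSectionVars false
set_option linter.style.haveILetI false

namespace Fermat.Agent.S53

open IsLocalRing GaloisRep

variable {𝒪 : Type} [CommRing 𝒪] [IsLocalRing 𝒪] {X : Type}
  {F : ∀ (A : Type) [CommRing A] [IsLocalRing A] [Algebra 𝒪 A], (X → A) → Prop}
  {x0 : X → 𝒪}

/-- the residue field of `𝒪` is a test algebra -/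
theorem proRepGood_isArtinianTestAlgebra_residueField : IsArtinianTestAlgebra 𝒪 (ResidueField 𝒪) := by
  refine ⟨⟨fun o ho => ?_⟩, ?_, inferInstance⟩
  · by_contra h
    exact ho.ne_zero ((residue_eq_zero_iff o).mpr h)
  · intro x
    obtain ⟨y, rfl⟩ := residue_surjective x
    obtain ⟨o, rfl⟩ := residue_surjective y
    exact ⟨o, rfl⟩

theorem one_notMem_augIdeal (x0 : X → 𝒪) : (1 : MvPolynomial X 𝒪) ∉ augIdeal x0 := by
  intro h
  have h' : (MvPolynomial.aeval (fun i => residue 𝒪 (x0 i)) : MvPolynomial X 𝒪 →ₐ[𝒪] ResidueField 𝒪) 1 = 0 := h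
  rw [map_one] at h'
  exact one_ne_zero h'

theorem mem_augIdeal_iff (x0 : X → 𝒪) (a : MvPolynomial X 𝒪) :
    a ∈ augIdeal x0 ↔
      (MvPolynomial.aeval (fun i => residue 𝒪 (x0 i)) : MvPolynomial X 𝒪 →ₐ[𝒪] ResidueField 𝒪) a = 0 :=
  Iff.rfl

theorem C_mem_augIdeal_iff (x0 : X → 𝒪) (o : 𝒪) :
    (MvPolynomial.C o : MvPolynomial X 𝒪) ∈ augIdeal x0 ↔ o ∈ maximalIdeal 𝒪 := by
  rw [mem_augIdeal_iff, MvPolynomial.aeval_C, ← residue_eq_zero_iff]
  rfl

/-- every element of `Λ` is congruent to a constant modulo the augmentation ideal -/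
theorem exists_sub_C_mem_augIdeal (x0 : X → 𝒪) (a : MvPolynomial X 𝒪) :
    ∃ o : 𝒪, a - MvPolynomial.C o ∈ augIdeal x0 := by
  obtain ⟨o, ho⟩ := residue_surjective
    ((MvPolynomial.aeval (fun i => residue 𝒪 (x0 i)) : MvPolynomial X 𝒪 →ₐ[𝒪] ResidueField 𝒪) a)
  refine ⟨o, ?_⟩
  rw [mem_augIdeal_iff, map_sub, MvPolynomial.aeval_C, sub_eq_zero, ← ho]
  rfl

/-- In a good quotient, the non-units are exactly the images of the augmentation ideal. -/
theorem Good.mem_augIdeal_iff_not_isUnit (h : ProRepHyp 𝒪 X F x0) {J : Ideal (MvPolynomial X 𝒪)}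
    (hJ : Good F J) (a : MvPolynomial X 𝒪) :
    a ∈ augIdeal x0 ↔ ¬ IsUnit (Ideal.Quotient.mk J a) := by
  obtain ⟨hloc, htest, hF⟩ := hJ
  haveI := hloc
  haveI := htest.isLocalHom
  -- two ring homs `Λ → κ(Λ/J)`
  let g₁ : MvPolynomial X 𝒪 →+* ResidueField (MvPolynomial X 𝒪 ⧸ J) :=
    (residue (MvPolynomial X 𝒪 ⧸ J)).comp (Ideal.Quotient.mk J)
  let g₂ : MvPolynomial X 𝒪 →+* ResidueField (MvPolynomial X 𝒪 ⧸ J) :=
    (ResidueField.map (algebraMap 𝒪 (MvPolynomial X 𝒪 ⧸ J))).comp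
      ((MvPolynomial.aeval (fun i => residue 𝒪 (x0 i)) :
        MvPolynomial X 𝒪 →ₐ[𝒪] ResidueField 𝒪) : MvPolynomial X 𝒪 →+* ResidueField 𝒪)
  have hg : g₁ = g₂ := by
    apply MvPolynomial.ringHom_ext
    · intro o
      simp only [g₁, g₂, RingHom.comp_apply, RingHom.coe_coe, MvPolynomial.aeval_C]
      rfl
    · intro i
      simp only [g₁, g₂, RingHom.comp_apply, RingHom.coe_coe, MvPolynomial.aeval_X]
      rw [ResidueField.map_residue, ← sub_eq_zero, ← map_sub, residue_eq_zero_iff]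
      exact h.lift _ htest _ hF i
  have h1 : g₁ a = 0 ↔ ¬ IsUnit (Ideal.Quotient.mk J a) := by
    simp only [g₁, RingHom.comp_apply]
    rw [residue_eq_zero_iff]
    rfl
  have h2 : g₂ a = 0 ↔ a ∈ augIdeal x0 := by
    simp only [g₂, RingHom.comp_apply, RingHom.coe_coe]
    rw [map_eq_zero_iff _ (RingHom.injective _)]
    rfl
  rw [← h2, ← hg, h1]

theorem Good.le_augIdeal (h : ProRepHyp 𝒪 X F x0) {J : Ideal (MvPolynomial X 𝒪)}
    (hJ : Good F J) : J ≤ augIdeal x0 := by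
  intro a ha
  rw [hJ.mem_augIdeal_iff_not_isUnit h]
  obtain ⟨hloc, -, -⟩ := hJ
  haveI := hloc
  rw [Ideal.Quotient.eq_zero_iff_mem.mpr ha]
  exact not_isUnit_zero

theorem Good.map_augIdeal (h : ProRepHyp 𝒪 X F x0) {J : Ideal (MvPolynomial X 𝒪)}
    (hJ : Good F J) :
    haveI := hJ.choose
    (augIdeal x0).map (Ideal.Quotient.mk J) = maximalIdeal (MvPolynomial X 𝒪 ⧸ J) := by
  haveI := hJ.choose
  apply le_antisymm
  · rw [Ideal.map_le_iff_le_comap]
    intro a ha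
    exact (hJ.mem_augIdeal_iff_not_isUnit h a).mp ha
  · intro b hb
    obtain ⟨a, rfl⟩ := Ideal.Quotient.mk_surjective b
    exact Ideal.mem_map_of_mem _ ((hJ.mem_augIdeal_iff_not_isUnit h a).mpr hb)

theorem Good.exists_pow_le (h : ProRepHyp 𝒪 X F x0) {J : Ideal (MvPolynomial X 𝒪)}
    (hJ : Good F J) : ∃ n : ℕ, augIdeal x0 ^ n ≤ J := by
  have hmap := hJ.map_augIdeal h
  haveI := hJ.choose
  haveI := hJ.choose_spec.1.isArtinian
  obtain ⟨n, hn⟩ := (isArtinianRing_iff_isNilpotent_maximalIdeal (MvPolynomial X 𝒪 ⧸ J)).mp ‹_›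
  refine ⟨n, ?_⟩
  have h1 : (augIdeal x0 ^ n).map (Ideal.Quotient.mk J) = ⊥ := by
    rw [Ideal.map_pow, hmap]; exact hn
  intro a ha
  have h2 : Ideal.Quotient.mk J a ∈ (augIdeal x0 ^ n).map (Ideal.Quotient.mk J) :=
    Ideal.mem_map_of_mem _ ha
  rw [h1] at h2
  exact Ideal.Quotient.eq_zero_iff_mem.mp h2

/-- the kernel of the evaluation at a family of type `F` is good -/
theorem good_ker_aeval [Finite (ResidueField 𝒪)] (h : ProRepHyp 𝒪 X F x0) {A : Type} [CommRing A]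
    [IsLocalRing A] [Algebra 𝒪 A] (hA : IsArtinianTestAlgebra 𝒪 A) (x : X → A) (hx : F A x) :
    Good F (RingHom.ker (MvPolynomial.aeval x : MvPolynomial X 𝒪 →ₐ[𝒪] A)) := by
  let f : MvPolynomial X 𝒪 →ₐ[𝒪] A := MvPolynomial.aeval x
  let ι : MvPolynomial X 𝒪 ⧸ RingHom.ker f →ₐ[𝒪] A := Ideal.kerLiftAlg f
  have hι : Function.Injective ι := Ideal.kerLiftAlg_injective f
  obtain ⟨hloc, htest⟩ := isArtinianTestAlgebra_of_injective hA ι hι
  refine ⟨hloc, htest, ?_⟩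
  have hfam : (fun i => ι (tautFam (RingHom.ker f) i)) = x := by
    funext i
    show f (MvPolynomial.X i) = x i
    simp [f]
  exact @ProRepHyp.descend 𝒪 _ _ X F x0 h (MvPolynomial X 𝒪 ⧸ RingHom.ker f) A _ hloc _ _ _ _
    htest hA ι hι (tautFam (RingHom.ker f)) (hfam ▸ hx)

/-- a finite quotient of `Λ` whose units are exactly the images of the elements outside the
augmentation ideal is a local test algebra -/
theorem testAlgebra_of_isUnit_iff (x0 : X → 𝒪) (J : Ideal (MvPolynomial X 𝒪))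
    [Finite (MvPolynomial X 𝒪 ⧸ J)]
    (hunit : ∀ a : MvPolynomial X 𝒪, IsUnit (Ideal.Quotient.mk J a) ↔ a ∉ augIdeal x0) :
    ∃ _ : IsLocalRing (MvPolynomial X 𝒪 ⧸ J),
      IsArtinianTestAlgebra 𝒪 (MvPolynomial X 𝒪 ⧸ J) := by
  have hnt : Nontrivial (MvPolynomial X 𝒪 ⧸ J) := by
    by_contra hne
    rw [not_nontrivial_iff_subsingleton] at hne
    have h0 : IsUnit (Ideal.Quotient.mk J (0 : MvPolynomial X 𝒪)) := isUnit_of_subsingleton _
    exact (hunit 0).mp h0 (augIdeal x0).zero_mem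
  have hloc : IsLocalRing (MvPolynomial X 𝒪 ⧸ J) := by
    refine IsLocalRing.of_isUnit_or_isUnit_one_sub_self fun b => ?_
    obtain ⟨a, rfl⟩ := Ideal.Quotient.mk_surjective b
    by_cases ha : a ∈ augIdeal x0
    · right
      have : (1 : MvPolynomial X 𝒪) - a ∉ augIdeal x0 := fun h1 =>
        one_notMem_augIdeal x0 (by simpa using (augIdeal x0).add_mem h1 ha)
      have h2 := (hunit (1 - a)).mpr this
      rwa [map_sub, map_one] at h2
    · exact Or.inl ((hunit a).mpr ha)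
  refine ⟨hloc, ⟨⟨fun o ho => ?_⟩, ?_, inferInstance⟩⟩
  · have h1 : (MvPolynomial.C o : MvPolynomial X 𝒪) ∉ augIdeal x0 := (hunit _).mp ho
    rw [C_mem_augIdeal_iff] at h1
    by_contra h2
    exact h1 h2
  · intro x
    obtain ⟨b, rfl⟩ := residue_surjective x
    obtain ⟨a, rfl⟩ := Ideal.Quotient.mk_surjective b
    obtain ⟨o, ho⟩ := exists_sub_C_mem_augIdeal x0 a
    refine ⟨o, ?_⟩
    show residue _ (Ideal.Quotient.mk J (MvPolynomial.C o)) = residue _ (Ideal.Quotient.mk J a)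
    rw [eq_comm, ← sub_eq_zero, ← map_sub, residue_eq_zero_iff, ← map_sub]
    intro hu
    exact (hunit _).mp hu ho

/-- good ideals are closed under intersection -/
theorem good_inf [Finite (ResidueField 𝒪)] (h : ProRepHyp 𝒪 X F x0)
    {J J' : Ideal (MvPolynomial X 𝒪)} (hJ : Good F J) (hJ' : Good F J') : Good F (J ⊓ J') := by
  have huA := hJ.mem_augIdeal_iff_not_isUnit h
  have huB := hJ'.mem_augIdeal_iff_not_isUnit h
  have hleA := hJ.le_augIdeal h
  have hleB := hJ'.le_augIdeal h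
  obtain ⟨hlocA, htA, hFA⟩ := hJ
  obtain ⟨hlocB, htB, hFB⟩ := hJ'
  haveI := hlocA
  haveI := hlocB
  haveI : Finite (MvPolynomial X 𝒪 ⧸ J) := finite_of_isArtinianTestAlgebra htA
  haveI : Finite (MvPolynomial X 𝒪 ⧸ J') := finite_of_isArtinianTestAlgebra htB
  -- the four maps
  let pA : MvPolynomial X 𝒪 ⧸ (J ⊓ J') →ₐ[𝒪] MvPolynomial X 𝒪 ⧸ J :=
    Ideal.Quotient.factorₐ 𝒪 inf_le_left
  let pB : MvPolynomial X 𝒪 ⧸ (J ⊓ J') →ₐ[𝒪] MvPolynomial X 𝒪 ⧸ J' :=
    Ideal.Quotient.factorₐ 𝒪 inf_le_right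
  let f : MvPolynomial X 𝒪 ⧸ J →ₐ[𝒪] MvPolynomial X 𝒪 ⧸ (J ⊔ J') :=
    Ideal.Quotient.factorₐ 𝒪 le_sup_left
  let g : MvPolynomial X 𝒪 ⧸ J' →ₐ[𝒪] MvPolynomial X 𝒪 ⧸ (J ⊔ J') :=
    Ideal.Quotient.factorₐ 𝒪 le_sup_right
  have hinj : Function.Injective (fun x => (pA x, pB x)) := by
    intro x y hxy
    obtain ⟨a, rfl⟩ := Ideal.Quotient.mk_surjective x
    obtain ⟨b, rfl⟩ := Ideal.Quotient.mk_surjective y
    have h1 : Ideal.Quotient.mk J a = Ideal.Quotient.mk J b := congrArg Prod.fst hxy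
    have h2 : Ideal.Quotient.mk J' a = Ideal.Quotient.mk J' b := congrArg Prod.snd hxy
    rw [Ideal.Quotient.eq] at h1 h2 ⊢
    exact ⟨h1, h2⟩
  haveI : Finite (MvPolynomial X 𝒪 ⧸ (J ⊓ J')) := Finite.of_injective _ hinj
  -- units of the fibre product
  have hunitP : ∀ a : MvPolynomial X 𝒪,
      IsUnit (Ideal.Quotient.mk (J ⊓ J') a) ↔ a ∉ augIdeal x0 := by
    intro a
    constructor
    · intro hu
      have h1 : IsUnit (Ideal.Quotient.mk J a) := hu.map pA
      exact fun ha => (huA a).mp ha h1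
    · intro ha
      have h1 : IsUnit (Ideal.Quotient.mk J a) := by
        by_contra hne; exact ha ((huA a).mpr hne)
      have h2 : IsUnit (Ideal.Quotient.mk J' a) := by
        by_contra hne; exact ha ((huB a).mpr hne)
      rw [isUnit_iff_mem_nonZeroDivisors_of_finite, mem_nonZeroDivisors_iff_right]
      intro x hx
      obtain ⟨b, rfl⟩ := Ideal.Quotient.mk_surjective x
      rw [← map_mul, Ideal.Quotient.eq_zero_iff_mem] at hx
      rw [Ideal.Quotient.eq_zero_iff_mem]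
      constructor
      · have h3 : Ideal.Quotient.mk J b * Ideal.Quotient.mk J a = 0 := by
          rw [← map_mul, Ideal.Quotient.eq_zero_iff_mem]; exact hx.1
        exact Ideal.Quotient.eq_zero_iff_mem.mp ((IsUnit.mul_left_eq_zero h1).mp h3)
      · have h3 : Ideal.Quotient.mk J' b * Ideal.Quotient.mk J' a = 0 := by
          rw [← map_mul, Ideal.Quotient.eq_zero_iff_mem]; exact hx.2
        exact Ideal.Quotient.eq_zero_iff_mem.mp ((IsUnit.mul_left_eq_zero h2).mp h3)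
  obtain ⟨hlocP, htP⟩ := testAlgebra_of_isUnit_iff x0 (J ⊓ J') hunitP
  -- the quotient by the sum
  have hsup : J ⊔ J' ≤ augIdeal x0 := sup_le hleA hleB
  haveI : Nontrivial (MvPolynomial X 𝒪 ⧸ (J ⊔ J')) :=
    Ideal.Quotient.nontrivial_iff.mpr fun htop =>
      one_notMem_augIdeal x0 (hsup (htop ▸ Submodule.mem_top))
  obtain ⟨hlocC, htC⟩ := isArtinianTestAlgebra_of_surjective htA f
    (Ideal.Quotient.factor_surjective le_sup_left)
  haveI := hlocP
  haveI := hlocC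
  refine ⟨hlocP, htP, ?_⟩
  refine h.glue (MvPolynomial X 𝒪 ⧸ J) (MvPolynomial X 𝒪 ⧸ J') (MvPolynomial X 𝒪 ⧸ (J ⊔ J'))
    (MvPolynomial X 𝒪 ⧸ (J ⊓ J')) htA htB htC htP f g pA pB ?_ hinj ?_ (tautFam (J ⊓ J')) hFA hFB
  · apply AlgHom.ext
    intro x
    obtain ⟨a, rfl⟩ := Ideal.Quotient.mk_surjective x
    rfl
  · intro a b hab
    obtain ⟨α, rfl⟩ := Ideal.Quotient.mk_surjective a
    obtain ⟨β, rfl⟩ := Ideal.Quotient.mk_surjective b
    have h1 : Ideal.Quotient.mk (J ⊔ J') α = Ideal.Quotient.mk (J ⊔ J') β := hab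
    rw [Ideal.Quotient.eq, Submodule.mem_sup] at h1
    obtain ⟨j, hj, j', hj', hjj⟩ := h1
    refine ⟨Ideal.Quotient.mk (J ⊓ J') (α - j), ?_, ?_⟩
    · show Ideal.Quotient.mk J (α - j) = Ideal.Quotient.mk J α
      rw [Ideal.Quotient.eq]
      simpa using J.neg_mem hj
    · show Ideal.Quotient.mk J' (α - j) = Ideal.Quotient.mk J' β
      rw [Ideal.Quotient.eq]
      have : α - j - β = j' := by linear_combination (-1 : MvPolynomial X 𝒪) * hjj
      rw [this]; exact hj'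

/-- the augmentation ideal is good -/
theorem good_augIdeal [Finite (ResidueField 𝒪)] (h : ProRepHyp 𝒪 X F x0) :
    Good F (augIdeal x0) :=
  good_ker_aeval h proRepGood_isArtinianTestAlgebra_residueField _ h.base

end Fermat.Agent.S53
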