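import Mathlib
import Fermat.Agent.S53.ProRepBasic
import Fermat.Agent.S53.ProRingDefs
import Fermat.Agent.S53.TestAlg

/-!
# S53: from a pro-ring for the good ideals of `Λ = MvPolynomial X 𝒪` to `ProRepData`

Given the hypotheses `ProRepHyp` and a `ProRing` for the set of good ideals of the polynomial
ring, the pro-ring together with the compatible family of the images of the variables is a
pro-representing object.
-/

set_option autoImplicit false
set_option linter.unusedSectionVars false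
set_option linter.style.haveILetI false

namespace Fermat.Agent.S53

open IsLocalRing GaloisRep

/-- The kernel of the evaluation map at a family of type `F` over a test algebra is good. -/
theorem good_ker_aeval_of_isOfType {𝒪 : Type} [CommRing 𝒪] [IsLocalRing 𝒪]
    [Finite (IsLocalRing.ResidueField 𝒪)] {X : Type}
    {F : ∀ (A : Type) [CommRing A] [IsLocalRing A] [Algebra 𝒪 A], (X → A) → Prop}
    {x0 : X → 𝒪} (h : ProRepHyp 𝒪 X F x0) {A : Type} [CommRing A] [IsLocalRing A]
    [Algebra 𝒪 A] (hA : IsArtinianTestAlgebra 𝒪 A) (x : X → A) (hx : F A x) :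
    Good F (RingHom.ker (MvPolynomial.aeval x : MvPolynomial X 𝒪 →ₐ[𝒪] A)) := by
  obtain ⟨hloc, htest⟩ := isArtinianTestAlgebra_of_injective hA
    (Ideal.kerLiftAlg (MvPolynomial.aeval x : MvPolynomial X 𝒪 →ₐ[𝒪] A))
    (Ideal.kerLiftAlg_injective _)
  refine ⟨hloc, htest, ?_⟩
  refine h.descend _ _ htest hA
    (Ideal.kerLiftAlg (MvPolynomial.aeval x : MvPolynomial X 𝒪 →ₐ[𝒪] A))
    (Ideal.kerLiftAlg_injective _) _ ?_
  have hfun : (fun i => Ideal.kerLiftAlg (MvPolynomial.aeval x : MvPolynomial X 𝒪 →ₐ[𝒪] A)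
      (tautFam (RingHom.ker (MvPolynomial.aeval x : MvPolynomial X 𝒪 →ₐ[𝒪] A)) i)) = x := by
    funext i
    simp [tautFam]
  rw [hfun]
  exact hx

/-- Every `𝒪`-algebra map from a pro-ring of the good ideals to a fixed test algebra `B` kills the
kernel of one projection `p J` (depending only on `B`). -/
theorem exists_good_ker_le {𝒪 : Type} [CommRing 𝒪] [IsLocalRing 𝒪] {X : Type}
    {F : ∀ (A : Type) [CommRing A] [IsLocalRing A] [Algebra 𝒪 A], (X → A) → Prop}
    (P : ProRing 𝒪 (MvPolynomial X 𝒪) {J | Good F J})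
    (B : Type) [CommRing B] [IsLocalRing B] [Algebra 𝒪 B] (hB : IsArtinianTestAlgebra 𝒪 B) :
    ∃ (J : Ideal (MvPolynomial X 𝒪)) (hJ : J ∈ {J | Good F J}), ∀ q : P.R →ₐ[𝒪] B,
      ∀ r : P.R, P.p J hJ r = 0 → q r = 0 := by
  have := hB.isArtinian
  obtain ⟨n, hn⟩ := (isArtinianRing_iff_isNilpotent_maximalIdeal B).mp ‹_›
  obtain ⟨J, hJ, hle⟩ := P.cofinal n
  refine ⟨J, hJ, fun q r hr => ?_⟩
  have hq : IsLocalHom (q : P.R →+* B) := isLocalHom_algHom hB.residue_surjective q
  have h1 : (maximalIdeal P.R).map (q : P.R →+* B) ≤ maximalIdeal B :=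
    ((local_hom_TFAE (q : P.R →+* B)).out 0 2).mp hq
  have hr' : r ∈ maximalIdeal P.R ^ n := hle (by rw [RingHom.mem_ker]; exact hr)
  have h2 : (q : P.R →+* B) r ∈ maximalIdeal B ^ n := by
    have h3 := Ideal.mem_map_of_mem (q : P.R →+* B) hr'
    rw [Ideal.map_pow] at h3
    exact Ideal.pow_right_mono h1 n h3
  rw [hn] at h2
  simpa using h2

theorem proRepData_of_proRing {𝒪 : Type} [CommRing 𝒪] [IsLocalRing 𝒪]
    [Finite (IsLocalRing.ResidueField 𝒪)] {X : Type}
    {F : ∀ (A : Type) [CommRing A] [IsLocalRing A] [Algebra 𝒪 A], (X → A) → Prop}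
    {x0 : X → 𝒪} (h : ProRepHyp 𝒪 X F x0)
    (P : ProRing 𝒪 (MvPolynomial X 𝒪) {J | Good F J}) :
    Nonempty (ProRepData 𝒪 X F) := by
  classical
  -- the universal family
  have hex : ∀ i : X, ∃ r : P.R, ∀ (J : Ideal (MvPolynomial X 𝒪)) (hJ : J ∈ {J | Good F J}),
      P.p J hJ r = tautFam J i := by
    intro i
    exact P.exists_of_compat (fun J _ => tautFam J i)
      (fun J J' hJ hJ' hle => by simp [tautFam])
  choose xR hxR using hex
  -- `p J ∘ aeval xR = mk J`
  have hpa : ∀ (J : Ideal (MvPolynomial X 𝒪)) (hJ : J ∈ {J | Good F J})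
      (f : MvPolynomial X 𝒪), P.p J hJ (MvPolynomial.aeval xR f) = Ideal.Quotient.mk J f := by
    intro J hJ f
    have hcomp : (P.p J hJ).comp (MvPolynomial.aeval xR) = Ideal.Quotient.mkₐ 𝒪 J := by
      apply MvPolynomial.algHom_ext
      intro i
      simp only [AlgHom.comp_apply, MvPolynomial.aeval_X, Ideal.Quotient.mkₐ_eq_mk]
      exact hxR i J hJ
    have := AlgHom.congr_fun hcomp f
    simpa using this
  -- any map to a test algebra is determined by the images of the `xR i`
  have hdet : ∀ (B : Type) [CommRing B] [IsLocalRing B] [Algebra 𝒪 B],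
      IsArtinianTestAlgebra 𝒪 B → ∀ r : P.R, ∃ f : MvPolynomial X 𝒪,
        ∀ q' : P.R →ₐ[𝒪] B, q' r = MvPolynomial.aeval (fun i => q' (xR i)) f := by
    intro B _ _ _ hB r
    obtain ⟨J, hJ, hker⟩ := exists_good_ker_le P B hB
    obtain ⟨f, hf⟩ := Ideal.Quotient.mk_surjective (P.p J hJ r)
    refine ⟨f, fun q' => ?_⟩
    have h0 : P.p J hJ (r - MvPolynomial.aeval xR f) = 0 := by
      rw [map_sub, hpa J hJ f, hf, sub_self]
    have h1 := hker q' _ h0
    rw [map_sub, sub_eq_zero] at h1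
    rw [h1]
    have hcomp : q'.comp (MvPolynomial.aeval xR) = MvPolynomial.aeval (fun i => q' (xR i)) := by
      apply MvPolynomial.algHom_ext
      intro i
      simp
    exact AlgHom.congr_fun hcomp f
  refine ⟨{ R := P.R
            residue_surjective := P.residue_surjective
            xR := xR
            isOfType := ?_
            universal := ?_ }⟩
  · intro B _ _ _ hB q
    obtain ⟨J, hJ, hker⟩ := exists_good_ker_le P B hB
    have hJ' : Good F J := hJ
    obtain ⟨hloc, htest, hF⟩ := hJ'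
    have hle : RingHom.ker (P.p J hJ).toRingHom ≤ RingHom.ker q.toRingHom := by
      intro r hr
      rw [RingHom.mem_ker] at hr ⊢
      exact hker q r hr
    have hmap := h.map (MvPolynomial X 𝒪 ⧸ J) B htest hB
      (AlgHom.liftOfSurjective (P.p J hJ) (P.p_surjective J hJ) q hle) (tautFam J) hF
    have hfun : (fun i => AlgHom.liftOfSurjective (P.p J hJ) (P.p_surjective J hJ) q hle
        (tautFam J i)) = fun i => q (xR i) := by
      funext i
      rw [← hxR i J hJ, AlgHom.liftOfSurjective_apply]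
    rw [hfun] at hmap
    exact hmap
  · intro A _ _ _ hA x hx
    have hJ : Good F (RingHom.ker (MvPolynomial.aeval x : MvPolynomial X 𝒪 →ₐ[𝒪] A)) :=
      good_ker_aeval_of_isOfType h hA x hx
    refine ⟨(Ideal.kerLiftAlg (MvPolynomial.aeval x : MvPolynomial X 𝒪 →ₐ[𝒪] A)).comp
      (P.p _ hJ), ?_, ?_⟩
    · intro i
      rw [AlgHom.comp_apply, hxR i _ hJ]
      simp [tautFam]
    · intro ψ hψ
      apply AlgHom.ext
      intro r
      obtain ⟨f, hf⟩ := hdet A hA r
      rw [hf ψ, hf ((Ideal.kerLiftAlg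
        (MvPolynomial.aeval x : MvPolynomial X 𝒪 →ₐ[𝒪] A)).comp (P.p _ hJ))]
      have e1 : (fun i => ψ (xR i)) = x := funext hψ
      have e2 : (fun i => ((Ideal.kerLiftAlg
          (MvPolynomial.aeval x : MvPolynomial X 𝒪 →ₐ[𝒪] A)).comp (P.p _ hJ)) (xR i)) = x := by
        funext i
        rw [AlgHom.comp_apply, hxR i _ hJ]
        simp [tautFam]
      rw [e1, e2]

end Fermat.Agent.S53
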