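import Mathlib

set_option autoImplicit false

/-!
# Compactness arguments for complete local rings with finite residue field

A ring `P` which is precomplete for an ideal `m` with all `P ⧸ m ^ N` finite behaves like a
compact space: a directed family of nonempty "closed" subsets has a common point.  We deduce
Chevalley's lemma and the surjectivity of `P → lim P ⧸ K_j` for directed families of ideals of a
complete noetherian local ring with finite residue field.
-/

namespace Fermat.Agent.S53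

open IsLocalRing

section General

variable {P : Type*} [CommRing P] (m : Ideal P)

/-- At each finite level some member of a directed family of sets has minimal image. -/
theorem exists_min_index (N : ℕ) [Finite (P ⧸ m ^ N)] {ι : Type*} [Nonempty ι] (C : ι → Set P)
    (hdir : ∀ i j, ∃ l, C l ⊆ C i ∩ C j) :
    ∃ j₁, ∀ j, ∀ c ∈ C j₁, ∃ c' ∈ C j, c - c' ∈ m ^ N := by
  classical
  let π : P → P ⧸ m ^ N := Ideal.Quotient.mk (m ^ N)
  let f : ι → ℕ := fun j => (π '' C j).ncard
  refine ⟨Function.argmin f, fun j c hc => ?_⟩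
  obtain ⟨l, hl⟩ := hdir (Function.argmin f) j
  have hsub : π '' C l ⊆ π '' C (Function.argmin f) :=
    Set.image_mono (fun x hx => (hl hx).1)
  have hle : (π '' C (Function.argmin f)).ncard ≤ (π '' C l).ncard := Function.argmin_le f l
  have heq : π '' C l = π '' C (Function.argmin f) :=
    Set.eq_of_subset_of_ncard_le hsub hle (Set.toFinite _)
  have hmem : π c ∈ π '' C l := by
    rw [heq]
    exact Set.mem_image_of_mem π hc
  obtain ⟨c', hc', hcc'⟩ := hmem
  exact ⟨c', (hl hc').2, (Ideal.Quotient.eq.mp hcc'.symm)⟩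

/-- **Compactness principle.** In a ring precomplete for `m` with finite quotients `P ⧸ m ^ N`,
a directed family of nonempty `m`-adically closed sets has a common point. -/
theorem exists_mem_forall_of_directed [IsPrecomplete m P] (hfin : ∀ N : ℕ, Finite (P ⧸ m ^ N))
    {ι : Type*} [Nonempty ι] (C : ι → Set P) (hne : ∀ j, (C j).Nonempty)
    (hdir : ∀ i j, ∃ l, C l ⊆ C i ∩ C j)
    (hclosed : ∀ j x, (∀ N : ℕ, ∃ c ∈ C j, x - c ∈ m ^ N) → x ∈ C j) :
    ∃ x, ∀ j, x ∈ C j := by
  classical
  -- the `N`-approximate intersection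
  let D : ℕ → P → Prop := fun N y => ∀ j, ∃ c ∈ C j, y - c ∈ m ^ N
  have h0 : D 0 0 := fun j => by
    obtain ⟨c, hc⟩ := hne j
    exact ⟨c, hc, by simp⟩
  have hstep : ∀ N (y : P), D N y → ∃ y', D (N + 1) y' ∧ y' - y ∈ m ^ N := by
    intro N y hy
    have := hfin (N + 1)
    obtain ⟨j₁, hj₁⟩ := exists_min_index m (N + 1) C hdir
    obtain ⟨c, hc, hyc⟩ := hy j₁
    refine ⟨c, fun j => hj₁ j c hc, ?_⟩
    have : c - y = -(y - c) := by ring
    rw [this]
    exact neg_mem hyc
  choose! nxt hnxt using hstep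
  let x : (N : ℕ) → {y : P // D N y} := fun N =>
    Nat.rec (motive := fun N => {y : P // D N y}) ⟨0, h0⟩
      (fun N y => ⟨nxt N y.1, (hnxt N y.1 y.2).1⟩) N
  have hx : ∀ N, (x (N + 1)).1 - (x N).1 ∈ m ^ N := fun N => (hnxt N (x N).1 (x N).2).2
  have hcauchy : ∀ a b, a ≤ b → (x b).1 - (x a).1 ∈ m ^ a := by
    intro a b hab
    induction b, hab using Nat.le_induction with
    | base => simp
    | succ b hab ih =>
      have : (x (b + 1)).1 - (x a).1 = ((x (b + 1)).1 - (x b).1) + ((x b).1 - (x a).1) := by ring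
      rw [this]
      exact Ideal.add_mem _ (Ideal.pow_le_pow_right hab (hx b)) ih
  obtain ⟨L, hL⟩ := IsPrecomplete.prec (I := m) (M := P) inferInstance (f := fun N => (x N).1)
    (by
      intro a b hab
      rw [SModEq.sub_mem, smul_eq_mul, Ideal.mul_top]
      have := hcauchy a b hab
      have h2 : (x a).1 - (x b).1 = -((x b).1 - (x a).1) := by ring
      rw [h2]
      exact neg_mem this)
  refine ⟨L, fun j => hclosed j L fun N => ?_⟩
  obtain ⟨c, hc, hxc⟩ := (x N).2 j
  refine ⟨c, hc, ?_⟩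
  have hLN := hL N
  rw [SModEq.sub_mem, smul_eq_mul, Ideal.mul_top] at hLN
  have : L - c = -((x N).1 - L) + ((x N).1 - c) := by ring
  rw [this]
  exact Ideal.add_mem _ (neg_mem hLN) hxc

end General

section Local

variable {P : Type*} [CommRing P] [IsLocalRing P] [IsNoetherianRing P]

/-- Ideals of a noetherian local ring are closed for the adic topology. -/
theorem mem_of_forall_mem_sup_maximalIdeal_pow (K : Ideal P) (x : P)
    (h : ∀ N : ℕ, x ∈ K ⊔ maximalIdeal P ^ N) : x ∈ K := by
  have hH : IsHausdorff (maximalIdeal P) (P ⧸ K) := inferInstance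
  rw [← Ideal.Quotient.eq_zero_iff_mem]
  refine IsHausdorff.haus hH _ fun N => ?_
  rw [SModEq.zero]
  obtain ⟨k, hk, e, he, rfl⟩ := Submodule.mem_sup.mp (h N)
  have hk0 : Ideal.Quotient.mk K k = 0 := Ideal.Quotient.eq_zero_iff_mem.mpr hk
  rw [map_add, hk0, zero_add]
  have : Ideal.Quotient.mk K e = e • (1 : P ⧸ K) := by
    rw [Algebra.smul_def, mul_one]; rfl
  rw [this]
  exact Submodule.smul_mem_smul he Submodule.mem_top

theorem finite_quotient_maximalIdeal_pow' [Finite (ResidueField P)] (N : ℕ) :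
    Finite (P ⧸ maximalIdeal P ^ N) := by
  have : Finite (P ⧸ maximalIdeal P) := inferInstanceAs (Finite (ResidueField P))
  exact Ideal.finite_quotient_pow (IsNoetherian.noetherian _) N

variable [IsPrecomplete (maximalIdeal P) P] [Finite (ResidueField P)]

/-- **Chevalley's lemma**: for a downward directed family of ideals `K j` of a complete noetherian
local ring with finite residue field and every `n`, some `K j` is contained in
`(⨅ i, K i) ⊔ 𝔪 ^ n`. -/
theorem exists_le_iInf_sup_maximalIdeal_pow {ι : Type*} [Nonempty ι] (K : ι → Ideal P)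
    (hdir : ∀ i j, ∃ l, K l ≤ K i ⊓ K j) (n : ℕ) :
    ∃ j, K j ≤ (⨅ i, K i) ⊔ maximalIdeal P ^ n := by
  by_contra hcon
  have hcon : ∀ j, ¬ K j ≤ (⨅ i, K i) ⊔ maximalIdeal P ^ n := fun j hj => hcon ⟨j, hj⟩
  let C : ι → Set P := fun j => {x | x ∈ K j ∧ x ∉ (⨅ i, K i) ⊔ maximalIdeal P ^ n}
  have hne : ∀ j, (C j).Nonempty := fun j => by
    obtain ⟨x, hx, hx'⟩ := Set.not_subset.mp (hcon j)
    exact ⟨x, hx, hx'⟩
  have hdirC : ∀ i j, ∃ l, C l ⊆ C i ∩ C j := fun i j => by
    obtain ⟨l, hl⟩ := hdir i j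
    exact ⟨l, fun x hx => ⟨⟨(hl hx.1).1, hx.2⟩, ⟨(hl hx.1).2, hx.2⟩⟩⟩
  have hclosed : ∀ j x, (∀ N : ℕ, ∃ c ∈ C j, x - c ∈ maximalIdeal P ^ N) → x ∈ C j := by
    intro j x hx
    constructor
    · refine mem_of_forall_mem_sup_maximalIdeal_pow (K j) x fun N => ?_
      obtain ⟨c, hc, hxc⟩ := hx N
      have : x = c + (x - c) := by ring
      rw [this]
      exact Submodule.add_mem_sup hc.1 hxc
    · intro hxmem
      obtain ⟨c, hc, hxc⟩ := hx n
      apply hc.2
      have : c = x - (x - c) := by ring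
      rw [this]
      exact Ideal.sub_mem _ hxmem (Ideal.mem_sup_right hxc)
  obtain ⟨x, hx⟩ := exists_mem_forall_of_directed (maximalIdeal P)
    finite_quotient_maximalIdeal_pow' C hne hdirC hclosed
  obtain ⟨j⟩ := ‹Nonempty ι›
  exact (hx j).2 (Ideal.mem_sup_left (Ideal.mem_iInf.mpr fun i => (hx i).1))

/-- **Chevalley's lemma**, set version: for a nonempty set `𝒦` of ideals closed under `⊓`. -/
theorem exists_mem_le_sInf_sup_maximalIdeal_pow (𝒦 : Set (Ideal P)) (hne : 𝒦.Nonempty)
    (hinf : ∀ K ∈ 𝒦, ∀ K' ∈ 𝒦, K ⊓ K' ∈ 𝒦) (n : ℕ) :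
    ∃ K ∈ 𝒦, K ≤ sInf 𝒦 ⊔ maximalIdeal P ^ n := by
  have : Nonempty 𝒦 := hne.to_subtype
  obtain ⟨j, hj⟩ := exists_le_iInf_sup_maximalIdeal_pow (fun K : 𝒦 => (K : Ideal P))
    (fun i j => ⟨⟨(i : Ideal P) ⊓ (j : Ideal P), hinf _ i.2 _ j.2⟩, le_rfl⟩) n
  refine ⟨j, j.2, ?_⟩
  rwa [sInf_eq_iInf']

/-- A compatible family of residues modulo a downward directed family of ideals of a complete
noetherian local ring with finite residue field comes from a single element. -/
theorem exists_forall_sub_mem_of_compatible {ι : Type*} [Nonempty ι] (K : ι → Ideal P)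
    (hdir : ∀ i j, ∃ l, K l ≤ K i ⊓ K j) (y : ι → P)
    (hcompat : ∀ i j, K i ≤ K j → y i - y j ∈ K j) :
    ∃ x, ∀ j, x - y j ∈ K j := by
  let C : ι → Set P := fun j => {x | x - y j ∈ K j}
  have hne : ∀ j, (C j).Nonempty := fun j => ⟨y j, by simp [C]⟩
  have hdirC : ∀ i j, ∃ l, C l ⊆ C i ∩ C j := fun i j => by
    obtain ⟨l, hl⟩ := hdir i j
    have hli : K l ≤ K i := hl.trans inf_le_left
    have hlj : K l ≤ K j := hl.trans inf_le_right
    refine ⟨l, fun x hx => ⟨?_, ?_⟩⟩
    · have : x - y i = (x - y l) + (y l - y i) := by ring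
      show x - y i ∈ K i
      rw [this]
      exact Ideal.add_mem _ (hli hx) (hcompat l i hli)
    · have : x - y j = (x - y l) + (y l - y j) := by ring
      show x - y j ∈ K j
      rw [this]
      exact Ideal.add_mem _ (hlj hx) (hcompat l j hlj)
  have hclosed : ∀ j x, (∀ N : ℕ, ∃ c ∈ C j, x - c ∈ maximalIdeal P ^ N) → x ∈ C j := by
    intro j x hx
    refine mem_of_forall_mem_sup_maximalIdeal_pow (K j) (x - y j) fun N => ?_
    obtain ⟨c, hc, hxc⟩ := hx N
    have : x - y j = (c - y j) + (x - c) := by ring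
    rw [this]
    exact Submodule.add_mem_sup hc hxc
  exact exists_mem_forall_of_directed (maximalIdeal P)
    finite_quotient_maximalIdeal_pow' C hne hdirC hclosed

end Local

end Fermat.Agent.S53
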