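import Mathlib

set_option autoImplicit false

/-!
# Completeness of power series rings over a complete local ring

For a commutative local ring `A`, adically complete with respect to its maximal ideal, the rings
`PowerSeries A` and `MvPowerSeries (Fin r) A` are adically complete with respect to their maximal
ideals.
-/

namespace Fermat.Agent.S53

open IsLocalRing PowerSeries

section OneVar

variable {A : Type*} [CommRing A] [IsLocalRing A]

/-- A power series lies in the maximal ideal iff its constant coefficient does. -/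
theorem ps_mem_maximalIdeal_iff (g : PowerSeries A) :
    g ∈ maximalIdeal (PowerSeries A) ↔ PowerSeries.coeff 0 g ∈ maximalIdeal A := by
  rw [mem_maximalIdeal, mem_maximalIdeal, mem_nonunits_iff, mem_nonunits_iff,
    PowerSeries.isUnit_iff_constantCoeff, PowerSeries.coeff_zero_eq_constantCoeff_apply]

theorem ps_X_mem_maximalIdeal : (PowerSeries.X : PowerSeries A) ∈ maximalIdeal (PowerSeries A) := by
  rw [ps_mem_maximalIdeal_iff]
  simp

theorem ps_C_mem_maximalIdeal_pow (n : ℕ) {a : A} (ha : a ∈ maximalIdeal A ^ n) :
    (PowerSeries.C a : PowerSeries A) ∈ maximalIdeal (PowerSeries A) ^ n := by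
  have h1 : Ideal.map (PowerSeries.C : A →+* PowerSeries A) (maximalIdeal A) ≤
      maximalIdeal (PowerSeries A) := by
    rw [Ideal.map_le_iff_le_comap]
    intro x hx
    rw [Ideal.mem_comap, ps_mem_maximalIdeal_iff]
    simpa using hx
  have h2 := Ideal.pow_right_mono h1 n
  rw [← Ideal.map_pow] at h2
  exact h2 (Ideal.mem_map_of_mem _ ha)

/-- Coefficients of elements of `𝔪^n` of the power series ring. -/
theorem ps_coeff_mem_of_mem_maximalIdeal_pow (n : ℕ) :
    ∀ g ∈ maximalIdeal (PowerSeries A) ^ n, ∀ k : ℕ,
      PowerSeries.coeff k g ∈ maximalIdeal A ^ (n - k) := by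
  induction n with
  | zero => intro g _ k; simp
  | succ n ih =>
    intro g hg k
    rw [pow_succ'] at hg
    revert k
    refine Submodule.mul_induction_on hg ?_ ?_
    · intro a ha b hb k
      rw [PowerSeries.coeff_mul]
      refine Ideal.sum_mem _ ?_
      rintro ⟨i, j⟩ hij
      have hij := Finset.HasAntidiagonal.mem_antidiagonal.mp hij
      dsimp only at hij ⊢
      have hb' := ih b hb j
      by_cases hi : i = 0
      · subst hi
        have ha' : PowerSeries.coeff 0 a ∈ maximalIdeal A := (ps_mem_maximalIdeal_iff a).1 ha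
        have hmul : PowerSeries.coeff 0 a * PowerSeries.coeff j b ∈
            maximalIdeal A ^ (1 + (n - j)) := by
          rw [pow_add, pow_one]
          exact Ideal.mul_mem_mul ha' hb'
        exact Ideal.pow_le_pow_right (by omega) hmul
      · exact Ideal.pow_le_pow_right (by omega) (Ideal.mul_mem_left _ _ hb')
    · intro x y hx hy k
      rw [map_add]
      exact Ideal.add_mem _ (hx k) (hy k)

/-- Converse: a power series whose coefficients lie in the appropriate powers of the maximal
ideal of `A` lies in `𝔪^n`. -/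
theorem ps_mem_maximalIdeal_pow_of_coeff_mem (n : ℕ) :
    ∀ g : PowerSeries A, (∀ k : ℕ, PowerSeries.coeff k g ∈ maximalIdeal A ^ (n - k)) →
      g ∈ maximalIdeal (PowerSeries A) ^ n := by
  induction n with
  | zero => intro g _; simp
  | succ n ih =>
    intro g hg
    rw [PowerSeries.eq_X_mul_shift_add_const g]
    refine Ideal.add_mem _ ?_ ?_
    · rw [pow_succ']
      refine Ideal.mul_mem_mul ps_X_mem_maximalIdeal (ih _ ?_)
      intro k
      rw [PowerSeries.coeff_mk]
      have := hg (k + 1)
      rwa [Nat.add_sub_add_right] at this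
    · refine ps_C_mem_maximalIdeal_pow (n + 1) ?_
      have := hg 0
      rwa [PowerSeries.coeff_zero_eq_constantCoeff_apply] at this

theorem ps_mem_maximalIdeal_pow_iff (n : ℕ) (g : PowerSeries A) :
    g ∈ maximalIdeal (PowerSeries A) ^ n ↔
      ∀ k : ℕ, PowerSeries.coeff k g ∈ maximalIdeal A ^ (n - k) :=
  ⟨fun h => ps_coeff_mem_of_mem_maximalIdeal_pow n g h, ps_mem_maximalIdeal_pow_of_coeff_mem n g⟩

theorem ps_isHausdorff [IsHausdorff (maximalIdeal A) A] :
    IsHausdorff (maximalIdeal (PowerSeries A)) (PowerSeries A) := by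
  refine ⟨fun g hg => ?_⟩
  ext k
  rw [map_zero]
  refine IsHausdorff.haus (I := maximalIdeal A) inferInstance _ fun n => ?_
  have h := hg (n + k)
  rw [SModEq.zero, smul_eq_mul, Ideal.mul_top] at h ⊢
  have := (ps_mem_maximalIdeal_pow_iff (n + k) g).1 h k
  rwa [Nat.add_sub_cancel] at this

theorem ps_isPrecomplete [IsPrecomplete (maximalIdeal A) A] :
    IsPrecomplete (maximalIdeal (PowerSeries A)) (PowerSeries A) := by
  refine ⟨fun f hf => ?_⟩
  -- coefficientwise limits
  have key : ∀ k : ℕ, ∃ c : A, ∀ n : ℕ,
      PowerSeries.coeff k (f (n + k)) ≡ c [SMOD (maximalIdeal A ^ n • ⊤ : Submodule A A)] := by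
    intro k
    refine IsPrecomplete.prec (I := maximalIdeal A) inferInstance
      (f := fun n => PowerSeries.coeff k (f (n + k))) ?_
    intro m n hmn
    have h := hf (m := m + k) (n := n + k) (by omega)
    rw [SModEq.sub_mem, smul_eq_mul, Ideal.mul_top] at h ⊢
    have := (ps_mem_maximalIdeal_pow_iff (m + k) _).1 h k
    rwa [Nat.add_sub_cancel, map_sub] at this
  choose c hc using key
  refine ⟨PowerSeries.mk c, fun n => ?_⟩
  rw [SModEq.sub_mem, smul_eq_mul, Ideal.mul_top, ps_mem_maximalIdeal_pow_iff]
  intro k
  rw [map_sub, PowerSeries.coeff_mk]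
  by_cases hk : k ≤ n
  · have h := hc k (n - k)
    rw [SModEq.sub_mem, smul_eq_mul, Ideal.mul_top, Nat.sub_add_cancel hk] at h
    exact h
  · have : n - k = 0 := by omega
    rw [this, pow_zero, Ideal.one_eq_top]
    exact Submodule.mem_top

/-- The power series ring over a local ring which is complete with respect to its maximal ideal
is complete with respect to its maximal ideal. -/
theorem ps_isAdicComplete [IsAdicComplete (maximalIdeal A) A] :
    IsAdicComplete (maximalIdeal (PowerSeries A)) (PowerSeries A) :=
  { toIsHausdorff := ps_isHausdorff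
    toIsPrecomplete := ps_isPrecomplete }

end OneVar

section MvFin

/-- Adic completeness with respect to the maximal ideal transports along ring isomorphisms. -/
theorem isAdicComplete_maximalIdeal_of_ringEquiv {R S : Type*} [CommRing R] [CommRing S]
    [IsLocalRing R] [IsLocalRing S] (e : R ≃+* S) [h : IsAdicComplete (maximalIdeal R) R] :
    IsAdicComplete (maximalIdeal S) S := by
  rw [← IsLocalRing.map_ringEquiv_maximalIdeal e]
  exact (IsAdicComplete.congr_ringEquiv (maximalIdeal R) e).2 h

/-- `A⟦X₁,…,X_r⟧` is complete with respect to its maximal ideal if the local ring `A` is. -/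
theorem mvPowerSeries_fin_isAdicComplete (A : Type*) [CommRing A] [IsLocalRing A]
    [IsAdicComplete (maximalIdeal A) A] (r : ℕ) :
    IsAdicComplete (maximalIdeal (MvPowerSeries (Fin r) A)) (MvPowerSeries (Fin r) A) := by
  induction r with
  | zero =>
    exact isAdicComplete_maximalIdeal_of_ringEquiv
      (MvPowerSeries.isEmptyEquiv (Fin 0) A).symm.toRingEquiv
  | succ n ih =>
    have := ih
    have : IsAdicComplete (maximalIdeal (PowerSeries (MvPowerSeries (Fin n) A)))
        (PowerSeries (MvPowerSeries (Fin n) A)) := ps_isAdicComplete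
    exact isAdicComplete_maximalIdeal_of_ringEquiv
      (MvPowerSeries.finSuccEquiv A n).symm.toRingEquiv

/-- `A⟦X_s : s ∈ σ⟧` (`σ` finite) is complete with respect to its maximal ideal if the local
ring `A` is. -/
theorem mvPowerSeries_isAdicComplete (A : Type*) [CommRing A] [IsLocalRing A]
    [IsAdicComplete (maximalIdeal A) A] (σ : Type*) [Finite σ] :
    IsAdicComplete (maximalIdeal (MvPowerSeries σ A)) (MvPowerSeries σ A) := by
  have := mvPowerSeries_fin_isAdicComplete A (Nat.card σ)
  exact isAdicComplete_maximalIdeal_of_ringEquiv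
    (MvPowerSeries.renameEquiv A (Finite.equivFin σ)).symm.toRingEquiv

end MvFin

section Residue

variable {σ : Type*} {A : Type*} [CommRing A] [IsLocalRing A]

theorem mvps_mem_maximalIdeal_iff (g : MvPowerSeries σ A) :
    g ∈ maximalIdeal (MvPowerSeries σ A) ↔ MvPowerSeries.constantCoeff g ∈ maximalIdeal A := by
  rw [mem_maximalIdeal, mem_maximalIdeal, mem_nonunits_iff, mem_nonunits_iff,
    MvPowerSeries.isUnit_iff_constantCoeff]

theorem mvps_X_mem_maximalIdeal (i : σ) :
    (MvPowerSeries.X i : MvPowerSeries σ A) ∈ maximalIdeal (MvPowerSeries σ A) := by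
  rw [mvps_mem_maximalIdeal_iff]
  simp

theorem mvps_C_mem_maximalIdeal {a : A} (ha : a ∈ maximalIdeal A) :
    (MvPowerSeries.C a : MvPowerSeries σ A) ∈ maximalIdeal (MvPowerSeries σ A) := by
  rw [mvps_mem_maximalIdeal_iff]
  simpa using ha

theorem mvps_sub_C_constantCoeff_mem_maximalIdeal (g : MvPowerSeries σ A) :
    g - MvPowerSeries.C (MvPowerSeries.constantCoeff g) ∈ maximalIdeal (MvPowerSeries σ A) := by
  rw [mvps_mem_maximalIdeal_iff]
  simp

/-- The residue field of `A⟦X⟧` is a quotient of (in fact equal to) the residue field of `A`. -/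
theorem mvps_finite_quotient_maximalIdeal [Finite (ResidueField A)] :
    Finite (MvPowerSeries σ A ⧸ maximalIdeal (MvPowerSeries σ A)) := by
  let f : A ⧸ maximalIdeal A →+* MvPowerSeries σ A ⧸ maximalIdeal (MvPowerSeries σ A) :=
    Ideal.Quotient.lift (maximalIdeal A)
      ((Ideal.Quotient.mk (maximalIdeal (MvPowerSeries σ A))).comp MvPowerSeries.C)
      (fun a ha => by
        rw [RingHom.comp_apply, Ideal.Quotient.eq_zero_iff_mem]
        exact mvps_C_mem_maximalIdeal ha)
  have hf : Function.Surjective f := by
    intro y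
    obtain ⟨g, rfl⟩ := Ideal.Quotient.mk_surjective y
    refine ⟨Ideal.Quotient.mk _ (MvPowerSeries.constantCoeff g), ?_⟩
    rw [Ideal.Quotient.lift_mk, RingHom.comp_apply, eq_comm, Ideal.Quotient.eq]
    exact mvps_sub_C_constantCoeff_mem_maximalIdeal g
  have : Finite (A ⧸ maximalIdeal A) := inferInstanceAs (Finite (ResidueField A))
  exact Finite.of_surjective f hf

/-- All quotients of `A⟦X₁,…,X_r⟧` by powers of the maximal ideal are finite when `A` is
noetherian local with finite residue field. -/
theorem mvps_finite_quotient_maximalIdeal_pow [Finite σ] [IsNoetherianRing A]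
    [Finite (ResidueField A)] (n : ℕ) :
    Finite (MvPowerSeries σ A ⧸ maximalIdeal (MvPowerSeries σ A) ^ n) := by
  have := mvps_finite_quotient_maximalIdeal (σ := σ) (A := A)
  have : IsNoetherianRing (MvPowerSeries σ A) := MvPowerSeries.isNoetherianRing A
  exact Ideal.finite_quotient_pow (IsNoetherian.noetherian _) n

omit [IsLocalRing A] in
/-- The structure map `A → A⟦X⟧` is a local homomorphism. -/
theorem mvps_isLocalHom_algebraMap : IsLocalHom (algebraMap A (MvPowerSeries σ A)) := by
  refine ⟨fun a ha => ?_⟩
  have h := (MvPowerSeries.isUnit_iff_constantCoeff).1 ha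
  rwa [MvPowerSeries.algebraMap_apply, Algebra.algebraMap_self, RingHom.id_apply,
    MvPowerSeries.constantCoeff_C] at h

/-- `A → A⟦X⟧ → residue field of A⟦X⟧` is surjective. -/
theorem mvps_residue_comp_algebraMap_surjective :
    Function.Surjective (IsLocalRing.residue (MvPowerSeries σ A) ∘
      algebraMap A (MvPowerSeries σ A)) := by
  intro y
  obtain ⟨g, rfl⟩ := IsLocalRing.residue_surjective y
  refine ⟨MvPowerSeries.constantCoeff g, ?_⟩
  rw [Function.comp_apply, MvPowerSeries.algebraMap_apply, Algebra.algebraMap_self,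
    RingHom.id_apply, eq_comm, ← sub_eq_zero, ← map_sub, IsLocalRing.residue_eq_zero_iff]
  exact mvps_sub_C_constantCoeff_mem_maximalIdeal g

end Residue

end Fermat.Agent.S53
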