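/-
S53 helper: the abstract "pro-representing ring" construction.
`nonempty_proRing_of` proves the statement modulo two inputs about the power series ring
`MvPowerSeries (Fin r) 𝒪`:
* `hB`: it is complete for its maximal ideal;
* `hC`: Chevalley's lemma for downward directed families of ideals containing a power of the
  maximal ideal.
`nonempty_proRing : ProRingStatement` then feeds in `PowerSeriesComplete` and `Compactness`.
Pure commutative algebra, no Galois representations.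
-/
import Mathlib
import Fermat.Agent.S53.ProRingDefs
import Fermat.Agent.S53.PowerSeriesComplete
import Fermat.Agent.S53.Compactness
import Fermat.Agent.S57.PowerSeriesRegular
import Fermat.Prelude.Thm_IsLocalRing_isAdicComplete_of_module_finite

set_option autoImplicit false

namespace Fermat.Agent.S53

open MvPowerSeries

section Eval

variable {𝒪 : Type*} [CommRing 𝒪] {Q : Type*} [CommRing Q] [Algebra 𝒪 Q]
variable {σ : Type*} [Finite σ]

attribute [local instance] DiscreteTopology.instContinuousSMul in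
/-- Evaluation of power series in finitely many variables at nilpotent elements. -/
noncomputable def evalNil (a : σ → Q) (ha : ∀ i, IsNilpotent (a i)) :
    MvPowerSeries σ 𝒪 →ₐ[𝒪] Q :=
  letI : UniformSpace 𝒪 := ⊥
  letI : UniformSpace Q := ⊥
  MvPowerSeries.aeval (R := 𝒪) (S := Q) (a := a)
    ⟨fun i => (ha i).isTopologicallyNilpotent, by simp [Filter.cofinite_eq_bot]⟩

attribute [local instance] DiscreteTopology.instContinuousSMul in
theorem evalNil_X (a : σ → Q) (ha : ∀ i, IsNilpotent (a i)) (i : σ) :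
    evalNil (𝒪 := 𝒪) a ha (X i) = a i := by
  let _ : UniformSpace 𝒪 := ⊥
  let _ : UniformSpace Q := ⊥
  unfold evalNil
  rw [MvPowerSeries.coe_aeval, MvPowerSeries.eval₂_X]

attribute [local instance] DiscreteTopology.instContinuousSMul in
theorem comp_evalNil {Q' : Type*} [CommRing Q'] [Algebra 𝒪 Q'] (f : Q →ₐ[𝒪] Q')
    (a : σ → Q) (ha : ∀ i, IsNilpotent (a i)) :
    f.comp (evalNil (𝒪 := 𝒪) a ha) = evalNil (fun i => f (a i)) (fun i => (ha i).map f) := by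
  let _ : UniformSpace 𝒪 := ⊥
  let _ : UniformSpace Q := ⊥
  let _ : UniformSpace Q' := ⊥
  unfold evalNil
  exact MvPowerSeries.comp_aeval _ (ε := f) continuous_of_discreteTopology

theorem evalNil_congr {a b : σ → Q} (ha : ∀ i, IsNilpotent (a i)) (hb : ∀ i, IsNilpotent (b i))
    (h : a = b) : evalNil (𝒪 := 𝒪) a ha = evalNil b hb := by
  subst h; rfl

end Eval

section Surj

variable {𝒪 : Type*} [CommRing 𝒪] {Q : Type*} [CommRing Q] [Algebra 𝒪 Q]

/-- One step of the nilpotent Nakayama induction. -/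
theorem exists_sub_mem_pow_succ (Mb : Ideal Q)
    (hres : ∀ x : Q, ∃ c : 𝒪, x - algebraMap 𝒪 Q c ∈ Mb) {σ : Type*} (a : σ → Q)
    (ha : ∀ i, a i ∈ Mb) (hgen : Mb ≤ Ideal.span (Set.range a)) (B : Subalgebra 𝒪 Q)
    (hB : ∀ i, a i ∈ B) (i : ℕ) :
    ∀ x ∈ Mb ^ i, ∃ b ∈ B, x - b ∈ Mb ^ (i + 1) := by
  induction i with
  | zero =>
    intro x _
    obtain ⟨c, hc⟩ := hres x
    exact ⟨algebraMap 𝒪 Q c, B.algebraMap_mem c, by simpa using hc⟩
  | succ i ih =>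
    intro x hx
    rw [pow_succ] at hx
    -- the predicate is additive
    have key : ∀ m ∈ Ideal.span (Set.range a), ∀ y ∈ Mb ^ i,
        ∃ b ∈ B, y * m - b ∈ Mb ^ (i + 1 + 1) := by
      intro m hm
      induction hm using Submodule.span_induction with
      | mem m hm =>
        obtain ⟨j, rfl⟩ := hm
        intro y hy
        obtain ⟨b, hb, hyb⟩ := ih y hy
        refine ⟨b * a j, B.mul_mem hb (hB j), ?_⟩
        have : y * a j - b * a j = (y - b) * a j := by ring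
        rw [this, pow_succ (Mb) (i + 1)]
        exact Ideal.mul_mem_mul hyb (ha j)
      | zero =>
        intro y _
        exact ⟨0, B.zero_mem, by simp⟩
      | add m₁ m₂ _ _ h₁ h₂ =>
        intro y hy
        obtain ⟨b₁, hb₁, h₁⟩ := h₁ y hy
        obtain ⟨b₂, hb₂, h₂⟩ := h₂ y hy
        refine ⟨b₁ + b₂, B.add_mem hb₁ hb₂, ?_⟩
        have : y * (m₁ + m₂) - (b₁ + b₂) = (y * m₁ - b₁) + (y * m₂ - b₂) := by ring
        rw [this]
        exact Ideal.add_mem _ h₁ h₂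
      | smul c m _ h =>
        intro y hy
        obtain ⟨b, hb, h⟩ := h (y * c) (Ideal.mul_mem_right _ _ hy)
        refine ⟨b, hb, ?_⟩
        have : y * (c • m) - b = y * c * m - b := by rw [smul_eq_mul]; ring
        rw [this]
        exact h
    refine Submodule.mul_induction_on hx (fun y hy m hm => key m (hgen hm) y hy) ?_
    rintro x₁ x₂ ⟨b₁, hb₁, h₁⟩ ⟨b₂, hb₂, h₂⟩
    refine ⟨b₁ + b₂, B.add_mem hb₁ hb₂, ?_⟩
    have : x₁ + x₂ - (b₁ + b₂) = (x₁ - b₁) + (x₂ - b₂) := by ring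
    rw [this]
    exact Ideal.add_mem _ h₁ h₂

/-- Nilpotent Nakayama: a subalgebra containing generators of a nilpotent ideal `Mb` with
`Q = 𝒪 + Mb` is everything. -/
theorem subalgebra_eq_top_of_nilpotent (Mb : Ideal Q) (n : ℕ) (hn : Mb ^ n = ⊥)
    (hres : ∀ x : Q, ∃ c : 𝒪, x - algebraMap 𝒪 Q c ∈ Mb) {σ : Type*} (a : σ → Q)
    (ha : ∀ i, a i ∈ Mb) (hgen : Mb ≤ Ideal.span (Set.range a)) (B : Subalgebra 𝒪 Q)
    (hB : ∀ i, a i ∈ B) : B = ⊤ := by
  have step := exists_sub_mem_pow_succ Mb hres a ha hgen B hB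
  have main : ∀ j i : ℕ, i + j = n → ∀ x ∈ Mb ^ i, x ∈ B := by
    intro j
    induction j with
    | zero =>
      intro i hi x hx
      have : i = n := by omega
      subst this
      rw [hn, Ideal.mem_bot] at hx
      rw [hx]; exact B.zero_mem
    | succ j ih =>
      intro i hi x hx
      obtain ⟨b, hb, hxb⟩ := step i x hx
      have h2 := ih (i + 1) (by omega) _ hxb
      have : x = (x - b) + b := by ring
      rw [this]
      exact B.add_mem h2 hb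
  rw [eq_top_iff]
  intro x _
  exact main n 0 (by omega) x (by simp)

end Surj

section Main

variable {𝒪 : Type} [CommRing 𝒪] [IsDomain 𝒪] [IsDiscreteValuationRing 𝒪]
variable {Λ : Type} [CommRing Λ] [Algebra 𝒪 Λ]

/-- The evaluation points: the images in `Λ ⧸ J` of the elements of the finite set `t`. -/
noncomputable def pt (t : Finset Λ) (J : Ideal Λ) (i : Fin t.card) : Λ ⧸ J :=
  Ideal.Quotient.mk J ((t.equivFin.symm i : Λ))

theorem pt_mem_map (t : Finset Λ) {M : Ideal Λ} (J : Ideal Λ) (ht : ∀ x ∈ t, x ∈ M)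
    (i : Fin t.card) : pt t J i ∈ M.map (Ideal.Quotient.mk J) :=
  Ideal.mem_map_of_mem _ (ht _ (t.equivFin.symm i).2)

theorem map_pow_eq_bot {M J : Ideal Λ} {n : ℕ} (h : M ^ n ≤ J) :
    (M.map (Ideal.Quotient.mk J)) ^ n = ⊥ := by
  rw [← Ideal.map_pow]
  exact Ideal.map_mk_eq_bot_of_le h

theorem pt_nilpotent (t : Finset Λ) {M J : Ideal Λ} (ht : ∀ x ∈ t, x ∈ M)
    (hpow : ∃ n : ℕ, M ^ n ≤ J) (i : Fin t.card) : IsNilpotent (pt t J i) := by
  obtain ⟨n, hn⟩ := hpow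
  refine ⟨n, ?_⟩
  have h1 : pt t J i ^ n ∈ (M.map (Ideal.Quotient.mk J)) ^ n :=
    Ideal.pow_mem_pow (pt_mem_map t J ht i) n
  rwa [map_pow_eq_bot hn, Ideal.mem_bot] at h1

/-- The evaluation map `𝒪⟦X₁,…,X_r⟧ → Λ ⧸ J`, `X_i ↦ t_i`. -/
noncomputable def qJ (t : Finset Λ) (J : Ideal Λ) (h : ∀ i, IsNilpotent (pt t J i)) :
    MvPowerSeries (Fin t.card) 𝒪 →ₐ[𝒪] Λ ⧸ J :=
  evalNil (pt t J) h

theorem qJ_X (t : Finset Λ) (J : Ideal Λ) (h : ∀ i, IsNilpotent (pt t J i)) (i : Fin t.card) :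
    qJ (𝒪 := 𝒪) t J h (X i) = pt t J i :=
  evalNil_X _ _ i

theorem qJ_factor (t : Finset Λ) {J J' : Ideal Λ} (hle : J ≤ J')
    (h : ∀ i, IsNilpotent (pt t J i)) (h' : ∀ i, IsNilpotent (pt t J' i))
    (s : MvPowerSeries (Fin t.card) 𝒪) :
    Ideal.Quotient.factor hle (qJ t J h s) = qJ t J' h' s := by
  have h1 := comp_evalNil (𝒪 := 𝒪) (Ideal.Quotient.factorₐ 𝒪 hle) (pt t J) h
  have h2 : (fun i => (Ideal.Quotient.factorₐ 𝒪 hle) (pt t J i)) = pt t J' := by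
    funext i
    simp [pt]
  have h3 := evalNil_congr (𝒪 := 𝒪) (fun i => (h i).map (Ideal.Quotient.factorₐ 𝒪 hle)) h' h2
  have h4 := congrArg (fun f => f s) (h1.trans h3)
  simpa [qJ] using h4

theorem qJ_surjective (t : Finset Λ) {M J : Ideal Λ}
    (hres : ∀ x : Λ, ∃ a : 𝒪, x - algebraMap 𝒪 Λ a ∈ M)
    (ht : ∀ x ∈ t, x ∈ M) (hpow : ∃ n : ℕ, M ^ n ≤ J)
    (hgen : M ≤ J ⊔ Ideal.span (t : Set Λ)) (h : ∀ i, IsNilpotent (pt t J i)) :
    Function.Surjective (qJ (𝒪 := 𝒪) t J h) := by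
  obtain ⟨n, hn⟩ := hpow
  have hB : (qJ (𝒪 := 𝒪) t J h).range = ⊤ := by
    refine subalgebra_eq_top_of_nilpotent (M.map (Ideal.Quotient.mk J)) n (map_pow_eq_bot hn)
      ?_ (pt t J) (pt_mem_map t J ht) ?_ _ (fun i => ⟨X i, qJ_X t J h i⟩)
    · intro x
      obtain ⟨x, rfl⟩ := Ideal.Quotient.mk_surjective x
      obtain ⟨c, hc⟩ := hres x
      refine ⟨c, ?_⟩
      have := Ideal.mem_map_of_mem (Ideal.Quotient.mk J) hc
      simpa using this
    · have h1 : M.map (Ideal.Quotient.mk J) ≤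
          (J ⊔ Ideal.span (t : Set Λ)).map (Ideal.Quotient.mk J) := Ideal.map_mono hgen
      refine h1.trans ?_
      rw [Ideal.map_sup, Ideal.map_mk_eq_bot_of_le le_rfl, bot_sup_eq, Ideal.map_span,
        Ideal.span_le]
      rintro _ ⟨x, hx, rfl⟩
      refine Ideal.subset_span ⟨t.equivFin ⟨x, hx⟩, ?_⟩
      simp [pt]
  intro y
  have : y ∈ (qJ (𝒪 := 𝒪) t J h).range := by rw [hB]; trivial
  exact this

theorem qJ_mem_map (t : Finset Λ) {M J : Ideal Λ}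
    (hπ : ∀ a ∈ IsLocalRing.maximalIdeal 𝒪, algebraMap 𝒪 Λ a ∈ M)
    (ht : ∀ x ∈ t, x ∈ M) (h : ∀ i, IsNilpotent (pt t J i))
    (s : MvPowerSeries (Fin t.card) 𝒪)
    (hs : s ∈ IsLocalRing.maximalIdeal (MvPowerSeries (Fin t.card) 𝒪)) :
    qJ t J h s ∈ M.map (Ideal.Quotient.mk J) := by
  rw [Fermat.Agent.S57.maximalIdeal_mvPowerSeries_eq_comap, Ideal.mem_comap] at hs
  set c := constantCoeff s with hc
  have h0 : constantCoeff (s - C c) = 0 := by simp [hc]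
  have h1 := Fermat.Agent.S57.mem_span_range_X_of_constantCoeff_eq_zero _ _ h0
  have h2 : qJ t J h (s - C c) ∈ M.map (Ideal.Quotient.mk J) := by
    have h3 : Ideal.span (Set.range (X : Fin t.card → MvPowerSeries (Fin t.card) 𝒪)) ≤
        (M.map (Ideal.Quotient.mk J)).comap (qJ (𝒪 := 𝒪) t J h) := by
      rw [Ideal.span_le]
      rintro _ ⟨i, rfl⟩
      show qJ (𝒪 := 𝒪) t J h (X i) ∈ M.map (Ideal.Quotient.mk J)
      rw [qJ_X]
      exact pt_mem_map t J ht i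
    exact h3 h1
  have h4 : qJ t J h (C c) ∈ M.map (Ideal.Quotient.mk J) := by
    have : (C c : MvPowerSeries (Fin t.card) 𝒪) = algebraMap 𝒪 _ c := rfl
    rw [this, AlgHom.commutes]
    exact Ideal.mem_map_of_mem (Ideal.Quotient.mk J) (hπ c hs)
  have : s = (s - C c) + C c := by ring
  rw [this, map_add]
  exact Ideal.add_mem _ h2 h4

theorem pow_le_ker_qJ (t : Finset Λ) {M J : Ideal Λ}
    (hπ : ∀ a ∈ IsLocalRing.maximalIdeal 𝒪, algebraMap 𝒪 Λ a ∈ M)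
    (ht : ∀ x ∈ t, x ∈ M) (h : ∀ i, IsNilpotent (pt t J i)) {n : ℕ} (hn : M ^ n ≤ J) :
    IsLocalRing.maximalIdeal (MvPowerSeries (Fin t.card) 𝒪) ^ n ≤
      RingHom.ker (qJ (𝒪 := 𝒪) t J h : MvPowerSeries (Fin t.card) 𝒪 →+* Λ ⧸ J) := by
  have h1 : IsLocalRing.maximalIdeal (MvPowerSeries (Fin t.card) 𝒪) ≤
      (M.map (Ideal.Quotient.mk J)).comap
        (qJ (𝒪 := 𝒪) t J h : MvPowerSeries (Fin t.card) 𝒪 →+* Λ ⧸ J) :=
    fun s hs => qJ_mem_map t hπ ht h s hs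
  have h2 := Ideal.pow_right_mono h1 n
  refine h2.trans ((Ideal.le_comap_pow _ n).trans ?_)
  rw [map_pow_eq_bot hn]
  exact le_rfl

end Main

section Assembly

variable {𝒪 : Type} [CommRing 𝒪] [IsDomain 𝒪] [IsDiscreteValuationRing 𝒪]
variable {Λ : Type} [CommRing Λ] [Algebra 𝒪 Λ]

/-- The abstract pro-representing ring, given completeness of the power series ring (`hB`) and
Chevalley's lemma for it (`hC`). -/
theorem nonempty_proRing_of
    (M : Ideal Λ) (hM : M ≠ ⊤)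
    (hres : ∀ x : Λ, ∃ a : 𝒪, x - algebraMap 𝒪 Λ a ∈ M)
    (hπ : ∀ a ∈ IsLocalRing.maximalIdeal 𝒪, algebraMap 𝒪 Λ a ∈ M)
    (𝒥 : Set (Ideal Λ)) (hne : 𝒥.Nonempty)
    (hle : ∀ J ∈ 𝒥, J ≤ M) (hpow : ∀ J ∈ 𝒥, ∃ n : ℕ, M ^ n ≤ J)
    (hinf : ∀ J ∈ 𝒥, ∀ J' ∈ 𝒥, J ⊓ J' ∈ 𝒥)
    (t : Finset Λ) (ht : ∀ x ∈ t, x ∈ M)
    (hgen : ∀ J ∈ 𝒥, M ≤ J ⊔ Ideal.span (t : Set Λ))
    (hB : IsAdicComplete (IsLocalRing.maximalIdeal (MvPowerSeries (Fin t.card) 𝒪))
      (MvPowerSeries (Fin t.card) 𝒪))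
    (hC : ∀ (ι : Type) [Nonempty ι] (K : ι → Ideal (MvPowerSeries (Fin t.card) 𝒪)),
      (∀ i j, ∃ l, K l ≤ K i ⊓ K j) →
      (∀ i, ∃ n : ℕ, IsLocalRing.maximalIdeal (MvPowerSeries (Fin t.card) 𝒪) ^ n ≤ K i) →
      ∀ n : ℕ, ∃ i, K i ≤ (⨅ i, K i) ⊔
        IsLocalRing.maximalIdeal (MvPowerSeries (Fin t.card) 𝒪) ^ n) :
    Nonempty (ProRing 𝒪 Λ 𝒥) := by
  classical
  have hnil : ∀ J ∈ 𝒥, ∀ i, IsNilpotent (pt t J i) := fun J hJ => pt_nilpotent t ht (hpow J hJ)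
  -- notation
  set S := MvPowerSeries (Fin t.card) 𝒪 with hS
  set mS := IsLocalRing.maximalIdeal S with hmS
  let q : ∀ J : 𝒥, S →ₐ[𝒪] Λ ⧸ (J : Ideal Λ) := fun J => qJ t J.1 (hnil J.1 J.2)
  let Kf : 𝒥 → Ideal S := fun J => RingHom.ker (q J : S →+* Λ ⧸ (J : Ideal Λ))
  let K : Ideal S := ⨅ J : 𝒥, Kf J
  have hq_surj : ∀ J : 𝒥, Function.Surjective (q J) := fun J =>
    qJ_surjective t hres ht (hpow J.1 J.2) (hgen J.1 J.2) (hnil J.1 J.2)
  have hq_factor : ∀ (J J' : 𝒥) (h : (J : Ideal Λ) ≤ J') (s : S),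
      Ideal.Quotient.factor h (q J s) = q J' s := fun J J' h s =>
    qJ_factor t h (hnil J.1 J.2) (hnil J'.1 J'.2) s
  have hKf_mono : ∀ (J J' : 𝒥), (J : Ideal Λ) ≤ J' → Kf J ≤ Kf J' := by
    intro J J' h s hs
    have hs' : q J s = 0 := hs
    show q J' s = 0
    rw [← hq_factor J J' h s, hs', map_zero]
  have hKf_pow : ∀ (J : 𝒥) (n : ℕ), M ^ n ≤ (J : Ideal Λ) → mS ^ n ≤ Kf J := fun J n hn =>
    pow_le_ker_qJ t hπ ht (hnil J.1 J.2) hn
  have hK_le : ∀ J : 𝒥, K ≤ Kf J := fun J => iInf_le _ J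
  have hJ_ne : ∀ J : 𝒥, (J : Ideal Λ) ≠ ⊤ := fun J hJ => hM (top_le_iff.mp (hJ ▸ hle J.1 J.2))
  have hKf_ne : ∀ J : 𝒥, Kf J ≠ ⊤ := by
    intro J
    haveI : Nontrivial (Λ ⧸ (J : Ideal Λ)) := Ideal.Quotient.nontrivial_iff.mpr (hJ_ne J)
    exact RingHom.ker_ne_top _
  obtain ⟨J₀, hJ₀⟩ := hne
  haveI : Nonempty 𝒥 := ⟨⟨J₀, hJ₀⟩⟩
  have hK_ne : K ≠ ⊤ := fun h => hKf_ne ⟨J₀, hJ₀⟩ (top_le_iff.mp (h ▸ hK_le ⟨J₀, hJ₀⟩))
  have hK_mS : K ≤ mS := IsLocalRing.le_maximalIdeal hK_ne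
  haveI : Nontrivial (S ⧸ K) := Ideal.Quotient.nontrivial_iff.mpr hK_ne
  haveI : IsLocalRing (S ⧸ K) :=
    IsLocalRing.of_surjective' (Ideal.Quotient.mk K) Ideal.Quotient.mk_surjective
  have hmk_unit : ∀ s : S, IsUnit (Ideal.Quotient.mk K s) → IsUnit s := by
    intro s hs
    by_contra hns
    obtain ⟨y, hy⟩ := hs.exists_right_inv
    obtain ⟨s', rfl⟩ := Ideal.Quotient.mk_surjective y
    rw [← map_mul, ← map_one (Ideal.Quotient.mk K), Ideal.Quotient.eq] at hy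
    have h1 : s * s' ∈ mS := Ideal.mul_mem_right _ _ ((IsLocalRing.mem_maximalIdeal s).mpr hns)
    have h2 : (1 : S) ∈ mS := by
      have := Ideal.sub_mem _ h1 (hK_mS hy)
      simpa using this
    exact (IsLocalRing.maximalIdeal.isMaximal S).ne_top ((Ideal.eq_top_iff_one _).mpr h2)
  have hmk_mem : ∀ s : S, s ∈ mS → Ideal.Quotient.mk K s ∈ IsLocalRing.maximalIdeal (S ⧸ K) := by
    intro s hs
    rw [IsLocalRing.mem_maximalIdeal, mem_nonunits_iff]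
    exact fun h => (IsLocalRing.mem_maximalIdeal s).mp hs (hmk_unit s h)
  have hmR_pow : ∀ n : ℕ, IsLocalRing.maximalIdeal (S ⧸ K) ^ n = (mS ^ n).map (Ideal.Quotient.mk K) := by
    intro n
    rw [Ideal.map_pow]
    congr 1
    apply le_antisymm
    · intro x hx
      obtain ⟨s, rfl⟩ := Ideal.Quotient.mk_surjective x
      refine Ideal.mem_map_of_mem _ ((IsLocalRing.mem_maximalIdeal s).mpr fun hs => ?_)
      exact (IsLocalRing.mem_maximalIdeal _).mp hx (hs.map _)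
    · rw [Ideal.map_le_iff_le_comap]
      exact fun s hs => hmk_mem s hs
  haveI : IsLocalHom (algebraMap S (S ⧸ K)) := ⟨fun s hs => hmk_unit s hs⟩
  haveI := hB
  haveI : IsAdicComplete (IsLocalRing.maximalIdeal (S ⧸ K)) (S ⧸ K) :=
    IsLocalRing.isAdicComplete_of_module_finite (𝒪 := S) (T := S ⧸ K)
  have halg : ∀ c : 𝒪, algebraMap 𝒪 (S ⧸ K) c = Ideal.Quotient.mk K (C c) := fun c => rfl
  have hC_mem : ∀ c : 𝒪, c ∈ IsLocalRing.maximalIdeal 𝒪 → (C c : S) ∈ mS := by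
    intro c hc
    rw [hmS, Fermat.Agent.S57.maximalIdeal_mvPowerSeries_eq_comap, Ideal.mem_comap]
    simpa using hc
  haveI : IsLocalHom (algebraMap 𝒪 (S ⧸ K)) := by
    refine ⟨fun c hc => ?_⟩
    by_contra hnc
    have h1 := hmk_mem (C c) (hC_mem c ((IsLocalRing.mem_maximalIdeal c).mpr hnc))
    rw [← halg] at h1
    exact (IsLocalRing.mem_maximalIdeal _).mp h1 hc
  -- the projections
  let p : ∀ J : Ideal Λ, J ∈ 𝒥 → (S ⧸ K →ₐ[𝒪] Λ ⧸ J) := fun J hJ =>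
    Ideal.Quotient.liftₐ K (q ⟨J, hJ⟩) (fun s hs => hK_le ⟨J, hJ⟩ hs)
  have hp_mk : ∀ (J : Ideal Λ) (hJ : J ∈ 𝒥) (s : S),
      p J hJ (Ideal.Quotient.mk K s) = q ⟨J, hJ⟩ s := fun J hJ s => rfl
  have hp_surj : ∀ (J : Ideal Λ) (hJ : J ∈ 𝒥), Function.Surjective (p J hJ) := by
    intro J hJ y
    obtain ⟨s, rfl⟩ := hq_surj ⟨J, hJ⟩ y
    exact ⟨Ideal.Quotient.mk K s, hp_mk J hJ s⟩
  have hp_compat : ∀ (J J' : Ideal Λ) (hJ : J ∈ 𝒥) (hJ' : J' ∈ 𝒥) (h : J ≤ J') (x : S ⧸ K),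
      Ideal.Quotient.factor h (p J hJ x) = p J' hJ' x := by
    intro J J' hJ hJ' h x
    obtain ⟨s, rfl⟩ := Ideal.Quotient.mk_surjective x
    rw [hp_mk, hp_mk]
    exact hq_factor ⟨J, hJ⟩ ⟨J', hJ'⟩ h s
  have hp_ker_pow : ∀ (J : Ideal Λ) (hJ : J ∈ 𝒥) (n : ℕ), M ^ n ≤ J →
      IsLocalRing.maximalIdeal (S ⧸ K) ^ n ≤ RingHom.ker (p J hJ : S ⧸ K →+* Λ ⧸ J) := by
    intro J hJ n hn
    rw [hmR_pow, Ideal.map_le_iff_le_comap]
    intro s hs
    have := hKf_pow ⟨J, hJ⟩ n hn hs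
    show p J hJ (Ideal.Quotient.mk K s) = 0
    rw [hp_mk]
    exact this
  have hcofinal : ∀ n : ℕ, ∃ (J : Ideal Λ) (hJ : J ∈ 𝒥),
      RingHom.ker (p J hJ : S ⧸ K →+* Λ ⧸ J) ≤ IsLocalRing.maximalIdeal (S ⧸ K) ^ n := by
    intro n
    obtain ⟨J, hJ⟩ := hC 𝒥 Kf
      (fun J J' => ⟨⟨J.1 ⊓ J'.1, hinf J.1 J.2 J'.1 J'.2⟩,
        le_inf (hKf_mono _ _ inf_le_left) (hKf_mono _ _ inf_le_right)⟩)
      (fun J => by
        obtain ⟨n, hn⟩ := hpow J.1 J.2
        exact ⟨n, hKf_pow J n hn⟩) n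
    refine ⟨J.1, J.2, ?_⟩
    intro x hx
    obtain ⟨s, rfl⟩ := Ideal.Quotient.mk_surjective x
    have hs : s ∈ Kf J := hx
    have hs' := hJ hs
    obtain ⟨k, hk, m, hm, rfl⟩ := Submodule.mem_sup.mp hs'
    rw [hmR_pow, map_add, Ideal.Quotient.eq_zero_iff_mem.mpr hk, zero_add]
    exact Ideal.mem_map_of_mem _ hm
  refine ⟨{
    R := S ⧸ K
    residue_surjective := ?_
    p := p
    p_surjective := hp_surj
    p_compat := hp_compat
    cofinal := hcofinal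
    exists_of_compat := ?_ }⟩
  · -- residue field
    intro y
    obtain ⟨x, rfl⟩ := IsLocalRing.residue_surjective y
    obtain ⟨s, rfl⟩ := Ideal.Quotient.mk_surjective x
    refine ⟨constantCoeff s, ?_⟩
    show IsLocalRing.residue (S ⧸ K) (algebraMap 𝒪 (S ⧸ K) (constantCoeff s)) = _
    rw [halg]
    symm
    rw [← sub_eq_zero, ← map_sub, IsLocalRing.residue_eq_zero_iff, ← map_sub]
    refine hmk_mem _ ?_
    rw [hmS, Fermat.Agent.S57.maximalIdeal_mvPowerSeries_eq_comap, Ideal.mem_comap]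
    have h0 : MvPowerSeries.constantCoeff (σ := Fin t.card) (R := 𝒪)
        (s - C (MvPowerSeries.constantCoeff (σ := Fin t.card) (R := 𝒪) s)) = 0 := by
      rw [map_sub, MvPowerSeries.constantCoeff_C, sub_self]
    rw [h0]
    exact zero_mem _
  · -- compatible families
    intro y hy
    choose Jn hJn hker using hcofinal
    have hx : ∀ n, ∃ x : S ⧸ K, p (Jn n) (hJn n) x = y (Jn n) (hJn n) := fun n => hp_surj _ _ _
    choose x hx using hx
    -- key: two lifts agree modulo the kernel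
    have key : ∀ (J J' : Ideal Λ) (hJ : J ∈ 𝒥) (hJ' : J' ∈ 𝒥) (u u' : S ⧸ K),
        p J hJ u = y J hJ → p J' hJ' u' = y J' hJ' →
        ∃ v : S ⧸ K, p J hJ (v - u) = 0 ∧ p J' hJ' (v - u') = 0 := by
      intro J J' hJ hJ' u u' hu hu'
      obtain ⟨v, hv⟩ := hp_surj (J ⊓ J') (hinf J hJ J' hJ') (y (J ⊓ J') (hinf J hJ J' hJ'))
      refine ⟨v, ?_, ?_⟩
      · rw [map_sub, hu, ← hp_compat (J ⊓ J') J (hinf J hJ J' hJ') hJ inf_le_left v, hv,
          hy (J ⊓ J') J (hinf J hJ J' hJ') hJ inf_le_left, sub_self]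
      · rw [map_sub, hu', ← hp_compat (J ⊓ J') J' (hinf J hJ J' hJ') hJ' inf_le_right v, hv,
          hy (J ⊓ J') J' (hinf J hJ J' hJ') hJ' inf_le_right, sub_self]
    have hcauchy : ∀ {m n : ℕ}, m ≤ n →
        x m ≡ x n [SMOD (IsLocalRing.maximalIdeal (S ⧸ K) ^ m • ⊤ : Submodule (S ⧸ K) (S ⧸ K))] := by
      intro m n hmn
      rw [SModEq.sub_mem, smul_eq_mul, Ideal.mul_top]
      obtain ⟨v, hv1, hv2⟩ := key _ _ (hJn m) (hJn n) (x m) (x n) (hx m) (hx n)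
      have h1 : v - x m ∈ IsLocalRing.maximalIdeal (S ⧸ K) ^ m := hker m hv1
      have h2 : v - x n ∈ IsLocalRing.maximalIdeal (S ⧸ K) ^ m :=
        Ideal.pow_le_pow_right hmn (hker n hv2)
      have : x m - x n = (v - x n) - (v - x m) := by ring
      rw [this]
      exact Ideal.sub_mem _ h2 h1
    obtain ⟨L, hL⟩ := IsPrecomplete.prec inferInstance hcauchy
    refine ⟨L, fun J hJ => ?_⟩
    obtain ⟨N, hN⟩ := hpow J hJ
    have hLN : x N - L ∈ IsLocalRing.maximalIdeal (S ⧸ K) ^ N := by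
      have := hL N
      rwa [SModEq.sub_mem, smul_eq_mul, Ideal.mul_top] at this
    have h1 : p J hJ (x N - L) = 0 := hp_ker_pow J hJ N hN hLN
    obtain ⟨v, hv1, hv2⟩ := key J (Jn N) hJ (hJn N) _ (x N)
      (hp_surj J hJ (y J hJ)).choose_spec (hx N)
    have h2 : p J hJ (v - x N) = 0 := hp_ker_pow J hJ N hN (hker N hv2)
    have h3 := (hp_surj J hJ (y J hJ)).choose_spec
    rw [map_sub, h3, sub_eq_zero] at hv1
    rw [map_sub, sub_eq_zero] at h1 h2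
    rw [← h1, ← h2, hv1]

/-- The abstract existence theorem for the pro-representing ring. -/
theorem nonempty_proRing : ProRingStatement := by
  intro 𝒪 _ _ _ _ _ Λ _ _ M hM hres hπ 𝒥 hne hle hpow hinf t ht hgen
  have hB := mvPowerSeries_fin_isAdicComplete 𝒪 t.card
  have hfin : Finite (IsLocalRing.ResidueField (MvPowerSeries (Fin t.card) 𝒪)) :=
    mvps_finite_quotient_maximalIdeal
  have hnoeth : IsNoetherianRing (MvPowerSeries (Fin t.card) 𝒪) :=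
    MvPowerSeries.isNoetherianRing 𝒪
  have hpre : IsPrecomplete (IsLocalRing.maximalIdeal (MvPowerSeries (Fin t.card) 𝒪))
      (MvPowerSeries (Fin t.card) 𝒪) := hB.toIsPrecomplete
  exact nonempty_proRing_of M hM hres hπ 𝒥 hne hle hpow hinf t ht hgen hB
    (fun ι _ K hdir _ n => exists_le_iInf_sup_maximalIdeal_pow K hdir n)

end Assembly

end Fermat.Agent.S53
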