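import Mathlib
import Fermat.Agent.S53.ProRepDefs

/-!
# S53, sub-lemma T4: tangent vectors are detected by maps to the dual numbers

Let `A` be a local `𝒪`-algebra with the same residue field as `𝒪`.  If `y ∈ 𝔪_A` does not lie in
`𝔪_A ^ 2 + 𝔪_𝒪 A`, there is an `𝒪`-algebra homomorphism `u : A → k[ε]` with `u y ≠ 0`.
-/

set_option autoImplicit false

namespace Fermat.Agent.S53

open IsLocalRing

/-- T4, general form (no Artinian hypothesis). -/
theorem exists_algHom_dualNumber_ne_zero_of_local {𝒪 : Type} [CommRing 𝒪] [IsLocalRing 𝒪]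
    {A : Type} [CommRing A] [IsLocalRing A] [Algebra 𝒪 A]
    (hloc : IsLocalHom (algebraMap 𝒪 A))
    (hsurj : Function.Surjective (residue A ∘ algebraMap 𝒪 A))
    (y : A) (hy : y ∈ maximalIdeal A)
    (hy' : y ∉ maximalIdeal A ^ 2 ⊔ (maximalIdeal 𝒪).map (algebraMap 𝒪 A)) :
    letI := dualNumberAlgebra 𝒪
    ∃ u : A →ₐ[𝒪] DualNumber (ResidueField 𝒪), u y ≠ 0 := by
  classical
  letI := dualNumberAlgebra 𝒪
  haveI := hloc
  set 𝔞 : Ideal A := maximalIdeal A ^ 2 ⊔ (maximalIdeal 𝒪).map (algebraMap 𝒪 A) with h𝔞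
  have h𝔞le : 𝔞 ≤ maximalIdeal A := by
    refine sup_le (Ideal.pow_le_self two_ne_zero) ?_
    rw [Ideal.map_le_iff_le_comap]
    intro c hc
    rw [Ideal.mem_comap]
    exact map_nonunit (algebraMap 𝒪 A) c hc
  let π : A →+* A ⧸ 𝔞 := Ideal.Quotient.mk 𝔞
  -- the section `k → A ⧸ 𝔞`
  let s : ResidueField 𝒪 →+* A ⧸ 𝔞 :=
    Ideal.Quotient.lift (maximalIdeal 𝒪) (π.comp (algebraMap 𝒪 A)) (fun c hc => by
      rw [RingHom.comp_apply]
      exact Ideal.Quotient.eq_zero_iff_mem.2
        (Ideal.mem_sup_right (Ideal.mem_map_of_mem _ hc)))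
  have hs : ∀ c : 𝒪, s (residue 𝒪 c) = π (algebraMap 𝒪 A c) := fun c => rfl
  letI : Algebra (ResidueField 𝒪) (A ⧸ 𝔞) := s.toAlgebra
  have hsmul : ∀ (c : 𝒪) (b : A ⧸ 𝔞), (residue 𝒪 c) • b = π (algebraMap 𝒪 A c) * b := by
    intro c b
    rw [Algebra.smul_def, ← hs]
    rfl
  -- the residue field identification
  let e : ResidueField 𝒪 →+* ResidueField A := ResidueField.map (algebraMap 𝒪 A)
  have he : Function.Bijective e := by
    refine ⟨e.injective, fun x => ?_⟩
    obtain ⟨a, rfl⟩ := residue_surjective x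
    obtain ⟨c, hc⟩ := hsurj (residue A a)
    exact ⟨residue 𝒪 c, by rw [← hc]; exact ResidueField.map_residue _ c⟩
  let eE : ResidueField 𝒪 ≃+* ResidueField A := RingEquiv.ofBijective e he
  let aug : A →+* ResidueField 𝒪 := (eE.symm : ResidueField A →+* ResidueField 𝒪).comp (residue A)
  have haug_alg : ∀ c : 𝒪, aug (algebraMap 𝒪 A c) = residue 𝒪 c := by
    intro c
    show eE.symm (residue A (algebraMap 𝒪 A c)) = residue 𝒪 c
    rw [RingEquiv.symm_apply_eq]
    exact (ResidueField.map_residue _ c).symm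
  have hdecomp : ∀ a : A, ∃ c : 𝒪, residue 𝒪 c = aug a ∧ a - algebraMap 𝒪 A c ∈ maximalIdeal A := by
    intro a
    obtain ⟨c, hc⟩ := residue_surjective (aug a)
    refine ⟨c, hc, ?_⟩
    rw [← residue_eq_zero_iff, map_sub, sub_eq_zero]
    have h1 : eE (aug a) = residue A a := eE.apply_symm_apply _
    rw [← h1, ← hc]
    exact (ResidueField.map_residue _ c).symm
  -- the functional
  have hnotin : π y ∉ Submodule.span (ResidueField 𝒪) {(1 : A ⧸ 𝔞)} := by
    intro hmem
    obtain ⟨c, hc⟩ := Submodule.mem_span_singleton.1 hmem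
    obtain ⟨c₀, rfl⟩ := residue_surjective c
    rw [hsmul, mul_one] at hc
    have h1 : algebraMap 𝒪 A c₀ - y ∈ 𝔞 := Ideal.Quotient.eq.1 hc
    have h2 : algebraMap 𝒪 A c₀ ∈ maximalIdeal A := by
      have := (maximalIdeal A).add_mem (h𝔞le h1) hy
      simpa using this
    have h3 : c₀ ∈ maximalIdeal 𝒪 := by
      rw [mem_maximalIdeal, mem_nonunits_iff]
      intro hu
      exact (mem_nonunits_iff.1 ((mem_maximalIdeal _).1 h2)) (hu.map _)
    have h4 : algebraMap 𝒪 A c₀ ∈ 𝔞 := Ideal.mem_sup_right (Ideal.mem_map_of_mem _ h3)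
    have h5 : y ∈ 𝔞 := by
      have := 𝔞.sub_mem h4 h1
      simpa using this
    exact hy' h5
  obtain ⟨f, hfy, hf1⟩ := Submodule.exists_le_ker_of_notMem hnotin
  have hf1' : f 1 = 0 := by
    have := hf1 (Submodule.mem_span_singleton_self (1 : A ⧸ 𝔞))
    simpa using this
  let D : A → ResidueField 𝒪 := fun a => f (π a)
  have hD_add : ∀ a b, D (a + b) = D a + D b := fun a b => by simp [D]
  have hD_alg_mul : ∀ (c : 𝒪) (a : A), D (algebraMap 𝒪 A c * a) = residue 𝒪 c * D a := by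
    intro c a
    show f (π (algebraMap 𝒪 A c * a)) = residue 𝒪 c * f (π a)
    rw [map_mul, ← hsmul, map_smul, smul_eq_mul]
  have hD_alg : ∀ c : 𝒪, D (algebraMap 𝒪 A c) = 0 := by
    intro c
    have := hD_alg_mul c 1
    rw [mul_one] at this
    rw [this]
    show residue 𝒪 c * f (π 1) = 0
    rw [map_one, hf1', mul_zero]
  have hD_mm : ∀ n n' : A, n ∈ maximalIdeal A → n' ∈ maximalIdeal A → D (n * n') = 0 := by
    intro n n' hn hn'
    have h1 : n * n' ∈ 𝔞 := Ideal.mem_sup_left (by rw [pow_two]; exact Ideal.mul_mem_mul hn hn')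
    show f (π (n * n')) = 0
    rw [Ideal.Quotient.eq_zero_iff_mem.2 h1, map_zero]
  have hD_mul : ∀ a a' : A, D (a * a') = aug a * D a' + aug a' * D a := by
    intro a a'
    obtain ⟨c, hc, hn⟩ := hdecomp a
    obtain ⟨c', hc', hn'⟩ := hdecomp a'
    have e1 : a * a' = algebraMap 𝒪 A c * a' + algebraMap 𝒪 A c' * (a - algebraMap 𝒪 A c)
        + (a - algebraMap 𝒪 A c) * (a' - algebraMap 𝒪 A c') := by ring
    have e2 : D a = D (a - algebraMap 𝒪 A c) := by
      have : a = algebraMap 𝒪 A c + (a - algebraMap 𝒪 A c) := by ring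
      conv_lhs => rw [this]
      rw [hD_add, hD_alg, zero_add]
    rw [e1, hD_add, hD_add, hD_alg_mul, hD_alg_mul, hD_mm _ _ hn hn', add_zero, hc, hc', ← e2]
  -- the ring homomorphism
  let u₀ : A →+* DualNumber (ResidueField 𝒪) :=
    { toFun := fun a => TrivSqZeroExt.inl (aug a) + TrivSqZeroExt.inr (D a)
      map_one' := by
        have : D 1 = 0 := by
          show f (π 1) = 0
          rw [map_one, hf1']
        rw [map_one, this]
        simp
      map_mul' := by
        intro a a'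
        refine TrivSqZeroExt.ext ?_ ?_
        · simp
        · simp only [TrivSqZeroExt.snd_add, TrivSqZeroExt.snd_inl, TrivSqZeroExt.snd_inr,
            TrivSqZeroExt.snd_mul, TrivSqZeroExt.fst_add, TrivSqZeroExt.fst_inl,
            TrivSqZeroExt.fst_inr, zero_add, add_zero, smul_eq_mul, MulOpposite.smul_eq_mul_unop,
            MulOpposite.unop_op]
          rw [hD_mul]
          ring
      map_zero' := by
        have : D 0 = 0 := by
          show f (π 0) = 0
          rw [map_zero, map_zero]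
        rw [map_zero, this]
        simp
      map_add' := by
        intro a a'
        rw [map_add, hD_add]
        refine TrivSqZeroExt.ext ?_ ?_ <;> simp }
  have hu₀ : ∀ a, u₀ a = TrivSqZeroExt.inl (aug a) + TrivSqZeroExt.inr (D a) := fun a => rfl
  refine ⟨{ u₀ with
    commutes' := by
      intro c
      show u₀ (algebraMap 𝒪 A c) = _
      rw [hu₀, haug_alg, hD_alg]
      simp only [TrivSqZeroExt.inr_zero, add_zero]
      rfl }, ?_⟩
  intro h0
  have h1 : (u₀ y).snd = 0 := by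
    have : u₀ y = 0 := h0
    rw [this]; rfl
  rw [hu₀] at h1
  simp only [TrivSqZeroExt.snd_add, TrivSqZeroExt.snd_inl, TrivSqZeroExt.snd_inr, zero_add] at h1
  exact hfy h1

/-- T4 for Artinian test algebras. -/
theorem exists_algHom_dualNumber_ne_zero {𝒪 : Type} [CommRing 𝒪] [IsLocalRing 𝒪]
    {A : Type} [CommRing A] [IsLocalRing A] [Algebra 𝒪 A]
    (hA : GaloisRep.IsArtinianTestAlgebra 𝒪 A) (y : A) (hy : y ∈ maximalIdeal A)
    (hy' : y ∉ maximalIdeal A ^ 2 ⊔ (maximalIdeal 𝒪).map (algebraMap 𝒪 A)) :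
    letI := dualNumberAlgebra 𝒪
    ∃ u : A →ₐ[𝒪] DualNumber (ResidueField 𝒪), u y ≠ 0 :=
  exists_algHom_dualNumber_ne_zero_of_local hA.isLocalHom hA.residue_surjective y hy hy'

end Fermat.Agent.S53
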