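import Mathlib
import Fermat.Agent.S53.ProRepBasic
import Fermat.Agent.S53.TestAlg
import Fermat.Agent.S53.Tangent

/-!
# S53, B2: a uniform finite generating set of the augmentation ideal modulo all good ideals
-/

set_option autoImplicit false
set_option linter.style.haveILetI false

namespace Fermat.Agent.S53

open IsLocalRing GaloisRep

/-- `Λ → Λ ⧸ J → residue field` is the augmentation followed by the residue field map. -/
theorem residue_mk_eq_of_good {𝒪 : Type} [CommRing 𝒪] [IsLocalRing 𝒪] {X : Type}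
    {F : ∀ (A : Type) [CommRing A] [IsLocalRing A] [Algebra 𝒪 A], (X → A) → Prop}
    {x0 : X → 𝒪} (h : ProRepHyp 𝒪 X F x0) (J : Ideal (MvPolynomial X 𝒪))
    [IsLocalRing (MvPolynomial X 𝒪 ⧸ J)]
    (hA : IsArtinianTestAlgebra 𝒪 (MvPolynomial X 𝒪 ⧸ J))
    (hF : F (MvPolynomial X 𝒪 ⧸ J) (tautFam J)) (a : MvPolynomial X 𝒪) :
    haveI := hA.isLocalHom
    residue (MvPolynomial X 𝒪 ⧸ J) (Ideal.Quotient.mk J a) =
      ResidueField.map (algebraMap 𝒪 (MvPolynomial X 𝒪 ⧸ J))
        (MvPolynomial.aeval (fun i => residue 𝒪 (x0 i)) a) := by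
  haveI := hA.isLocalHom
  let f1 : MvPolynomial X 𝒪 →+* ResidueField (MvPolynomial X 𝒪 ⧸ J) :=
    (residue (MvPolynomial X 𝒪 ⧸ J)).comp (Ideal.Quotient.mk J)
  let f2 : MvPolynomial X 𝒪 →+* ResidueField (MvPolynomial X 𝒪 ⧸ J) :=
    (ResidueField.map (algebraMap 𝒪 (MvPolynomial X 𝒪 ⧸ J))).comp
      (MvPolynomial.aeval (fun i => residue 𝒪 (x0 i)) :
        MvPolynomial X 𝒪 →ₐ[𝒪] ResidueField 𝒪).toRingHom
  have key : f1 = f2 := by
    apply MvPolynomial.ringHom_ext
    · intro r
      show residue _ (Ideal.Quotient.mk J (MvPolynomial.C r)) =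
        ResidueField.map _ (MvPolynomial.aeval (fun i => residue 𝒪 (x0 i)) (MvPolynomial.C r))
      rw [MvPolynomial.aeval_C]
      show _ = ResidueField.map _ (residue 𝒪 r)
      rw [ResidueField.map_residue]
      rfl
    · intro i
      show residue _ (Ideal.Quotient.mk J (MvPolynomial.X i)) =
        ResidueField.map _ (MvPolynomial.aeval (fun i => residue 𝒪 (x0 i)) (MvPolynomial.X i))
      rw [MvPolynomial.aeval_X, ResidueField.map_residue, ← sub_eq_zero, ← map_sub,
        residue_eq_zero_iff]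
      exact h.lift _ hA _ hF i
  exact congrArg (fun f => f a) key

/-- (i): the preimage of the maximal ideal of `Λ ⧸ J` (for `J` good) is the augmentation ideal. -/
theorem mk_mem_maximalIdeal_iff_of_good {𝒪 : Type} [CommRing 𝒪] [IsLocalRing 𝒪] {X : Type}
    {F : ∀ (A : Type) [CommRing A] [IsLocalRing A] [Algebra 𝒪 A], (X → A) → Prop}
    {x0 : X → 𝒪} (h : ProRepHyp 𝒪 X F x0) (J : Ideal (MvPolynomial X 𝒪))
    [IsLocalRing (MvPolynomial X 𝒪 ⧸ J)]
    (hA : IsArtinianTestAlgebra 𝒪 (MvPolynomial X 𝒪 ⧸ J))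
    (hF : F (MvPolynomial X 𝒪 ⧸ J) (tautFam J)) (a : MvPolynomial X 𝒪) :
    Ideal.Quotient.mk J a ∈ maximalIdeal (MvPolynomial X 𝒪 ⧸ J) ↔ a ∈ augIdeal x0 := by
  haveI := hA.isLocalHom
  rw [← residue_eq_zero_iff, residue_mk_eq_of_good h J hA hF a, augIdeal, RingHom.mem_ker,
    map_eq_zero]

/-- B2: a finite subset `t` of the augmentation ideal `M` such that `M ≤ J + (t)` for every
good ideal `J`. -/
theorem exists_finset_gen {𝒪 : Type} [CommRing 𝒪] [IsDomain 𝒪] [IsDiscreteValuationRing 𝒪]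
    [Finite (IsLocalRing.ResidueField 𝒪)] {X : Type}
    {F : ∀ (A : Type) [CommRing A] [IsLocalRing A] [Algebra 𝒪 A], (X → A) → Prop}
    {x0 : X → 𝒪} (h : ProRepHyp 𝒪 X F x0) :
    ∃ t : Finset (MvPolynomial X 𝒪), (∀ x ∈ t, x ∈ augIdeal x0) ∧
      ∀ J, Good F J → augIdeal x0 ≤ J ⊔ Ideal.span (t : Set (MvPolynomial X 𝒪)) := by
  classical
  letI := dualNumberAlgebra 𝒪
  have hK : IsArtinianTestAlgebra 𝒪 (DualNumber (ResidueField 𝒪)) :=
    isArtinianTestAlgebra_dualNumber
  haveI : Finite (DualNumber (ResidueField 𝒪)) := finite_of_isArtinianTestAlgebra hK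
  have hT : Set.Finite {x : X → DualNumber (ResidueField 𝒪) |
      F (DualNumber (ResidueField 𝒪)) x} := h.tangent
  set T := {x : X → DualNumber (ResidueField 𝒪) | F (DualNumber (ResidueField 𝒪)) x} with hTdef
  haveI : Finite T := hT.to_subtype
  let Ψ : MvPolynomial X 𝒪 → (T → DualNumber (ResidueField 𝒪)) :=
    fun a τ => MvPolynomial.aeval τ.1 a
  haveI : Fintype (T → DualNumber (ResidueField 𝒪)) := Fintype.ofFinite _
  let g : (T → DualNumber (ResidueField 𝒪)) → MvPolynomial X 𝒪 := fun s =>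
    if hs : ∃ a ∈ augIdeal x0, Ψ a = s then hs.choose else 0
  have hg_mem : ∀ s, g s ∈ augIdeal x0 := by
    intro s
    by_cases hs : ∃ a ∈ augIdeal x0, Ψ a = s
    · simp only [g, dif_pos hs]; exact hs.choose_spec.1
    · simp only [g, dif_neg hs]; exact zero_mem _
  have hg_Ψ : ∀ a ∈ augIdeal x0, Ψ (g (Ψ a)) = Ψ a := by
    intro a ha
    have hs : ∃ b ∈ augIdeal x0, Ψ b = Ψ a := ⟨a, ha, rfl⟩
    simp only [g, dif_pos hs]; exact hs.choose_spec.2
  obtain ⟨ϖ, hϖ⟩ := IsDiscreteValuationRing.exists_irreducible 𝒪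
  have hϖmem : MvPolynomial.C ϖ ∈ augIdeal x0 := by
    rw [augIdeal, RingHom.mem_ker, MvPolynomial.aeval_C]
    show residue 𝒪 ϖ = 0
    rw [residue_eq_zero_iff]
    exact hϖ.not_isUnit
  refine ⟨insert (MvPolynomial.C ϖ) (Finset.univ.image g), ?_, ?_⟩
  · intro x hx
    rw [Finset.mem_insert] at hx
    rcases hx with rfl | hx
    · exact hϖmem
    · obtain ⟨s, -, rfl⟩ := Finset.mem_image.mp hx
      exact hg_mem s
  · rintro J ⟨hloc, hA, hF⟩
    set t : Finset (MvPolynomial X 𝒪) := insert (MvPolynomial.C ϖ) (Finset.univ.image g) with ht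
    set N : Ideal (MvPolynomial X 𝒪 ⧸ J) :=
      (Ideal.span (t : Set (MvPolynomial X 𝒪))).map (Ideal.Quotient.mk J) with hN
    have hAart := hA.isArtinian
    have hm_le : maximalIdeal (MvPolynomial X 𝒪 ⧸ J) ≤ N := by
      have hfg : (maximalIdeal (MvPolynomial X 𝒪 ⧸ J)).FG :=
        IsNoetherian.noetherian _
      refine Submodule.le_of_le_smul_of_le_jacobson_bot
        (I := maximalIdeal (MvPolynomial X 𝒪 ⧸ J)) hfg ?_ ?_
      · exact (IsLocalRing.jacobson_eq_maximalIdeal ⊥ bot_ne_top).ge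
      · intro y hy
        obtain ⟨a, rfl⟩ := Ideal.Quotient.mk_surjective y
        have ha : a ∈ augIdeal x0 := (mk_mem_maximalIdeal_iff_of_good h J hA hF a).mp hy
        have hsM : g (Ψ a) ∈ augIdeal x0 := hg_mem _
        have hsΨ : Ψ (g (Ψ a)) = Ψ a := hg_Ψ a ha
        have hz : Ideal.Quotient.mk J (a - g (Ψ a)) ∈ maximalIdeal (MvPolynomial X 𝒪 ⧸ J) :=
          (mk_mem_maximalIdeal_iff_of_good h J hA hF _).mpr (sub_mem ha hsM)
        have hz2 : Ideal.Quotient.mk J (a - g (Ψ a)) ∈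
            maximalIdeal (MvPolynomial X 𝒪 ⧸ J) ^ 2 ⊔
              (maximalIdeal 𝒪).map (algebraMap 𝒪 (MvPolynomial X 𝒪 ⧸ J)) := by
          by_contra hcon
          obtain ⟨u, hu⟩ := exists_algHom_dualNumber_ne_zero hA _ hz hcon
          apply hu
          have hτ : F (DualNumber (ResidueField 𝒪)) (fun i => u (tautFam J i)) :=
            h.map _ _ hA hK u _ hF
          have hcomp : ∀ b : MvPolynomial X 𝒪, u (Ideal.Quotient.mk J b) =
              MvPolynomial.aeval (fun i => u (tautFam J i)) b := by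
            intro b
            have : (u.comp (Ideal.Quotient.mkₐ 𝒪 J)) =
                MvPolynomial.aeval (fun i => u (tautFam J i)) := by
              apply MvPolynomial.algHom_ext
              intro i
              simp [tautFam]
            exact congrArg (fun f => f b) this
          have := congrFun hsΨ ⟨_, hτ⟩
          rw [map_sub, map_sub, hcomp, hcomp, sub_eq_zero]
          exact this.symm
        have hsN : Ideal.Quotient.mk J (g (Ψ a)) ∈ N :=
          Ideal.mem_map_of_mem _ (Ideal.subset_span (by simp [ht]))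
        have hmap_le : (maximalIdeal 𝒪).map (algebraMap 𝒪 (MvPolynomial X 𝒪 ⧸ J)) ≤ N := by
          rw [hϖ.maximalIdeal_eq, Ideal.map_span, Set.image_singleton,
            Ideal.span_singleton_le_iff_mem]
          exact Ideal.mem_map_of_mem _ (Ideal.subset_span (by simp [ht]))
        have hsplit : Ideal.Quotient.mk J a =
            Ideal.Quotient.mk J (g (Ψ a)) + Ideal.Quotient.mk J (a - g (Ψ a)) := by
          rw [← map_add]; congr 1; ring
        rw [hsplit]
        have hz3 : Ideal.Quotient.mk J (a - g (Ψ a)) ∈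
            N ⊔ maximalIdeal (MvPolynomial X 𝒪 ⧸ J) • maximalIdeal (MvPolynomial X 𝒪 ⧸ J) := by
          have hle : maximalIdeal (MvPolynomial X 𝒪 ⧸ J) ^ 2 ⊔
              (maximalIdeal 𝒪).map (algebraMap 𝒪 (MvPolynomial X 𝒪 ⧸ J)) ≤
              N ⊔ maximalIdeal (MvPolynomial X 𝒪 ⧸ J) • maximalIdeal (MvPolynomial X 𝒪 ⧸ J) := by
            rw [pow_two]
            exact sup_le le_sup_right (hmap_le.trans le_sup_left)
          exact hle hz2
        exact add_mem (Submodule.mem_sup_left hsN) hz3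
    intro a ha
    have h1 : Ideal.Quotient.mk J a ∈ N :=
      hm_le ((mk_mem_maximalIdeal_iff_of_good h J hA hF a).mpr ha)
    obtain ⟨b, hb, hab⟩ := (Ideal.mem_map_iff_of_surjective _ Ideal.Quotient.mk_surjective).mp h1
    have h2 : a - b ∈ J := by
      rw [← Ideal.Quotient.eq]; exact hab.symm
    have h3 : a = (a - b) + b := by ring
    rw [h3]
    exact add_mem (Ideal.mem_sup_left h2) (Ideal.mem_sup_right hb)

end Fermat.Agent.S53
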