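import Mathlib
import Fermat.Agent.S53.ProRepDefs
import Fermat.Agent.S53.ProRepBasic
import Fermat.Agent.S53.ProRepGood
import Fermat.Agent.S53.TangentBound
import Fermat.Agent.S53.ProRepOfProRing
import Fermat.Agent.S53.ProRing

/-!
# S53: the abstract pro-representability theorem

`ProRepHyp 𝒪 X F x0 → Nonempty (ProRepData 𝒪 X F)` for a complete discrete valuation ring `𝒪`
with finite residue field.
-/

set_option autoImplicit false

namespace Fermat.Agent.S53

open IsLocalRing GaloisRep

/-- **Abstract pro-representability.** A predicate `F` on families `X → A` (for Artinian test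
algebras `A`) that is functorial, descends along injections, glues over fibre products, has a
unique residual family and a finite tangent space is pro-represented by a complete Noetherian
local `𝒪`-algebra. -/
theorem exists_proRepData {𝒪 : Type} [CommRing 𝒪] [IsDomain 𝒪] [IsDiscreteValuationRing 𝒪]
    [IsAdicComplete (maximalIdeal 𝒪) 𝒪] [Finite (ResidueField 𝒪)] {X : Type}
    {F : ∀ (A : Type) [CommRing A] [IsLocalRing A] [Algebra 𝒪 A], (X → A) → Prop}
    {x0 : X → 𝒪} (h : ProRepHyp 𝒪 X F x0) : Nonempty (ProRepData 𝒪 X F) := by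
  obtain ⟨t, ht, hgen⟩ := exists_finset_gen h
  have hM : augIdeal x0 ≠ ⊤ := fun htop =>
    one_notMem_augIdeal x0 (htop ▸ Submodule.mem_top)
  have hres : ∀ x : MvPolynomial X 𝒪,
      ∃ a : 𝒪, x - algebraMap 𝒪 (MvPolynomial X 𝒪) a ∈ augIdeal x0 := fun x => by
    obtain ⟨o, ho⟩ := exists_sub_C_mem_augIdeal x0 x
    exact ⟨o, by rwa [MvPolynomial.algebraMap_eq]⟩
  have hπ : ∀ a ∈ maximalIdeal 𝒪, algebraMap 𝒪 (MvPolynomial X 𝒪) a ∈ augIdeal x0 :=
    fun a ha => by
      rw [MvPolynomial.algebraMap_eq]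
      exact (C_mem_augIdeal_iff x0 a).mpr ha
  obtain ⟨P⟩ := nonempty_proRing 𝒪 (MvPolynomial X 𝒪) (augIdeal x0) hM hres hπ {J | Good F J}
    ⟨augIdeal x0, good_augIdeal h⟩ (fun J hJ => Good.le_augIdeal h hJ)
    (fun J hJ => Good.exists_pow_le h hJ) (fun J hJ J' hJ' => good_inf h hJ hJ') t ht hgen
  exact proRepData_of_proRing h P

end Fermat.Agent.S53
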