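import Mathlib
import Fermat.Agent.S53.Defs
import Fermat.Agent.S53.Burnside

set_option autoImplicit false

namespace Fermat.Agent.S53

open IsLocalRing

noncomputable section

/-- The `𝒪`-action on matrices over the residue field is through the residue map. -/
theorem setupExists_smul_eq {𝒪 : Type} [CommRing 𝒪] [IsLocalRing 𝒪] (a : 𝒪)
    (N : Mat2 (ResidueField 𝒪)) : a • N = residue 𝒪 a • N := by
  ext i j
  rw [Matrix.smul_apply, Matrix.smul_apply, Algebra.smul_def,
    IsLocalRing.ResidueField.algebraMap_eq, smul_eq_mul]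

/-- Every matrix over the residue field is an `𝒪`-linear combination of the residual matrices
of an absolutely irreducible residual representation. -/
theorem setupExists_exists_comb (𝒪 : Type) [CommRing 𝒪] [IsLocalRing 𝒪]
    (ρbar : ResidualGaloisRep (ResidueField 𝒪)) (habs : ρbar.IsAbsolutelyIrreducible)
    (b : Module.Basis (Fin 2) (ResidueField 𝒪) ρbar.V) (M : Mat2 (ResidueField 𝒪)) :
    ∃ c : GQ →₀ 𝒪, comb c (rbarHom ρbar b) = M := by
  have hspan : Submodule.span (ResidueField 𝒪) (Set.range fun σ : GQ => rbarHom ρbar b σ) = ⊤ :=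
    span_range_toMatrix_eq_top_of_absIrr ρbar habs b
  obtain ⟨c, hc⟩ := exists_finsupp_sum_eq_of_span_eq_top (residue 𝒪)
    IsLocalRing.residue_surjective (fun σ : GQ => rbarHom ρbar b σ) hspan M
  refine ⟨c, ?_⟩
  rw [← hc]
  unfold comb
  exact Finsupp.sum_congr fun g _ => setupExists_smul_eq _ _

theorem nonempty_setup (𝒪 : Type) [CommRing 𝒪] [IsLocalRing 𝒪]
    (ρbar : ResidualGaloisRep (ResidueField 𝒪)) (habs : ρbar.IsAbsolutelyIrreducible) :
    Nonempty (Setup 𝒪 ρbar) := by
  classical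
  let b : Module.Basis (Fin 2) (ResidueField 𝒪) ρbar.V :=
    Module.finBasisOfFinrankEq _ ρbar.V ρbar.finrank_eq
  have hx : ∀ p : Idx, ∃ a : 𝒪, residue 𝒪 a = rbarHom ρbar b p.1 p.2.1 p.2.2 := fun p =>
    IsLocalRing.residue_surjective _
  choose x0 hx0 using hx
  obtain ⟨c₁, hc₁⟩ := setupExists_exists_comb 𝒪 ρbar habs b !![1, 0; 0, 0]
  obtain ⟨c₂, hc₂⟩ := setupExists_exists_comb 𝒪 ρbar habs b !![0, 0; 1, 0]
  exact ⟨{ b := b
           x0 := x0
           hx0 := fun σ i j => hx0 (σ, i, j)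
           c₁ := c₁
           c₂ := c₂
           hc₁ := hc₁
           hc₂ := hc₂ }⟩

end

end Fermat.Agent.S53
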