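/-
S53 final assembly: from the abstract pro-representing ring (`ProRepData`) for the concrete
predicate `IsDef S 𝒟` to `GaloisRep.DeformationRingData`.
-/
import Mathlib
import Fermat.Agent.S53.Defs
import Fermat.Agent.S53.Dict1
import Fermat.Agent.S53.Dict2
import Fermat.Agent.S53.Dict3
import Fermat.Agent.S53.RigidRep
import Fermat.Agent.S53.SetupExists
import Fermat.Agent.S53.TestAlg
import Fermat.Agent.S53.CompleteExtend
import Fermat.Agent.S53.HypBase
import Fermat.Agent.S53.HypMap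
import Fermat.Agent.S53.HypGlue
import Fermat.Agent.S53.HypTangent
import Fermat.Agent.S53.ProRep

set_option autoImplicit false

namespace Fermat.Agent.S53

open IsLocalRing

noncomputable section

/-! ### Small generalities -/

theorem final_isEquiv_symm {A : Type} [CommRing A] [IsLocalRing A] {ρ ρ' : GaloisRepAdic A}
    (h : ρ.IsEquiv ρ') : ρ'.IsEquiv ρ :=
  h.elim fun e => ⟨e.symm⟩

theorem final_isEquiv_trans {A : Type} [CommRing A] [IsLocalRing A] {ρ ρ' ρ'' : GaloisRepAdic A}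
    (h : ρ.IsEquiv ρ') (h' : ρ'.IsEquiv ρ'') : ρ.IsEquiv ρ'' :=
  h.elim fun e => h'.elim fun e' => ⟨e.trans e'⟩

theorem final_toMat_map {A B : Type} (f : A → B) (x : Idx → A) (σ : GQ) :
    (toMat x σ).map f = toMat (fun i => f (x i)) σ := by
  ext i j; rfl

theorem final_comb_map {𝒪 A B : Type} [CommRing 𝒪] [CommRing A] [CommRing B] [Algebra 𝒪 A]
    [Algebra 𝒪 B] (φ : A →ₐ[𝒪] B) (c : GQ →₀ 𝒪) (r : GQ → Mat2 A) :
    (comb c r).map φ = comb c (fun σ => (r σ).map φ) := by
  unfold comb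
  simp only [Finsupp.sum]
  ext i j
  simp [Matrix.sum_apply, Matrix.smul_apply, Matrix.map_apply, map_sum, map_smul]

/-- Hausdorffness, in the form used here. -/
theorem final_eq_of_forall_mk_eq {R : Type} [CommRing R] [IsLocalRing R]
    [IsHausdorff (maximalIdeal R) R] {a b : R}
    (h : ∀ n : ℕ, Ideal.Quotient.mk (maximalIdeal R ^ (n + 1)) a =
      Ideal.Quotient.mk (maximalIdeal R ^ (n + 1)) b) : a = b := by
  rw [← sub_eq_zero]
  apply IsHausdorff.haus (inferInstance : IsHausdorff (maximalIdeal R) R)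
  intro n
  rw [SModEq.zero, smul_eq_mul, Ideal.mul_top]
  exact Ideal.pow_le_pow_right (Nat.le_succ n) ((Ideal.Quotient.eq).1 (h n))

theorem final_matrix_eq_of_forall_map_eq {R : Type} [CommRing R] [IsLocalRing R]
    [IsHausdorff (maximalIdeal R) R] {M N : Mat2 R}
    (h : ∀ n : ℕ, M.map (Ideal.Quotient.mk (maximalIdeal R ^ (n + 1))) =
      N.map (Ideal.Quotient.mk (maximalIdeal R ^ (n + 1)))) : M = N := by
  ext i j
  apply final_eq_of_forall_mk_eq
  intro n
  exact congrFun (congrFun (h n) i) j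

/-- A surjective-residue `𝒪`-algebra hom into a local ring is local. -/
theorem final_isLocalHom_algHom {𝒪 : Type} [CommRing 𝒪] [IsLocalRing 𝒪] {A B : Type} [CommRing A]
    [IsLocalRing A] [Algebra 𝒪 A] [CommRing B] [IsLocalRing B] [Algebra 𝒪 B]
    (hB : Function.Surjective (residue B ∘ algebraMap 𝒪 B)) (φ : A →ₐ[𝒪] B) :
    IsLocalHom (φ : A →+* B) :=
  isLocalHom_algHom hB φ

/-! ### The hypotheses of the abstract theorem -/

section Hyp

variable {𝒪 : Type} [CommRing 𝒪] [IsLocalRing 𝒪]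
  {ρbar : ResidualGaloisRep (ResidueField 𝒪)} (S : Setup 𝒪 ρbar)
  (𝒟 : ∀ ⦃A : Type⦄ [CommRing A] [IsLocalRing A] [Algebra 𝒪 A], GaloisRepAdic A → Prop)
  (h𝒟 : GaloisRep.IsDeformationCondition 𝒪 𝒟)

include h𝒟 in
theorem final_proRepHyp (hbar : 𝒟 (GaloisRepAdic.ofResidualGaloisRep ρbar))
    (hfin : GaloisRep.TangentFinite 𝒪 ρbar 𝒟) :
    ProRepHyp 𝒪 Idx (fun A [CommRing A] [IsLocalRing A] [Algebra 𝒪 A] x => IsDef S 𝒟 A x)
      S.x0 where
  base := isDef_base S 𝒟 h𝒟 hbar
  lift := fun _ _ _ _ _ _ hx => hx.lifts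
  map := fun _ _ _ _ _ _ _ _ hA hB φ x hx => isDef_map S 𝒟 h𝒟 hA hB φ x hx
  descend := fun _ _ _ _ _ _ _ _ hA hB φ hφ x hx => isDef_descend S 𝒟 h𝒟 hA hB φ hφ x hx
  glue := fun _ _ _ _ _ _ _ _ _ _ _ _ _ _ _ _ hA hB hC hP f g pA pB hfg hinj hsurj x hxA hxB =>
    isDef_glue S 𝒟 h𝒟 hA hB hC hP f g pA pB hfg hinj hsurj x hxA hxB
  tangent := isDef_tangent S 𝒟 hfin

end Hyp

/-! ### The universal representation over the pro-representing ring -/

section Main

variable {𝒪 : Type} [CommRing 𝒪] [IsLocalRing 𝒪]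
  {ρbar : ResidualGaloisRep (ResidueField 𝒪)} (S : Setup 𝒪 ρbar)
  (𝒟 : ∀ ⦃A : Type⦄ [CommRing A] [IsLocalRing A] [Algebra 𝒪 A], GaloisRepAdic A → Prop)
  (h𝒟 : GaloisRep.IsDeformationCondition 𝒪 𝒟)
  (D : ProRepData 𝒪 Idx (fun A [CommRing A] [IsLocalRing A] [Algebra 𝒪 A] x => IsDef S 𝒟 A x))

/-- The universal family modulo `𝔪 ^ (n + 1)` is of type `IsDef`. -/
theorem final_isDef_quot (n : ℕ) :
    @IsDef 𝒪 _ _ ρbar S 𝒟 (D.R ⧸ maximalIdeal D.R ^ (n + 1)) _
      (isLocalRing_quotient_maximalIdeal_pow_succ D.R n) _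
      (fun i => Ideal.Quotient.mk (maximalIdeal D.R ^ (n + 1)) (D.xR i)) := by
  have := isLocalRing_quotient_maximalIdeal_pow_succ D.R n
  exact D.isOfType _
    (isArtinianTestAlgebra_quotient_maximalIdeal_pow_succ D.instIsLocalHom D.residue_surjective n)
    (Ideal.Quotient.mkₐ 𝒪 _)

theorem final_map_one : toMat D.xR 1 = 1 := by
  apply final_matrix_eq_of_forall_map_eq
  intro n
  have := isLocalRing_quotient_maximalIdeal_pow_succ D.R n
  rw [final_toMat_map, Matrix.map_one _ (map_zero _) (map_one _)]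
  exact (final_isDef_quot S 𝒟 D n).map_one

theorem final_map_mul (σ τ : GQ) : toMat D.xR (σ * τ) = toMat D.xR σ * toMat D.xR τ := by
  apply final_matrix_eq_of_forall_map_eq
  intro n
  have := isLocalRing_quotient_maximalIdeal_pow_succ D.R n
  rw [Matrix.map_mul, final_toMat_map, final_toMat_map, final_toMat_map]
  exact (final_isDef_quot S 𝒟 D n).map_mul σ τ

/-- The universal matrix representation. -/
def finalHom : GQ →* Mat2 D.R :=
  homOfEntries D.xR (final_map_one S 𝒟 D) (final_map_mul S 𝒟 D)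

theorem finalHom_apply (σ : GQ) : finalHom S 𝒟 D σ = toMat D.xR σ := rfl

theorem final_matCont : MatCont (finalHom S 𝒟 D) := by
  intro n
  have := isLocalRing_quotient_maximalIdeal_pow_succ D.R n
  obtain ⟨L, hL, h⟩ := (final_isDef_quot S 𝒟 D n).finiteLevel
  refine ⟨L, hL, fun σ hσ i j => ?_⟩
  apply Ideal.pow_le_pow_right (Nat.le_succ n)
  rw [← Ideal.Quotient.eq_zero_iff_mem]
  have h1 := congrFun (congrFun (h σ hσ) i) j
  rw [toMat_apply] at h1
  rw [Matrix.sub_apply, map_sub, finalHom_apply, toMat_apply, h1, Matrix.one_apply,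
    Matrix.one_apply]
  split_ifs <;> simp

theorem final_lifts : Lifts S (entries (finalHom S 𝒟 D)) := by
  rintro ⟨σ, i, j⟩
  have := isLocalRing_quotient_maximalIdeal_pow_succ D.R 0
  have h := (final_isDef_quot S 𝒟 D 0).lifts (σ, i, j)
  by_contra hne
  rw [notMem_maximalIdeal] at hne
  have hu := hne.map (Ideal.Quotient.mk (maximalIdeal D.R ^ (0 + 1)))
  rw [mem_maximalIdeal, mem_nonunits_iff] at h
  apply h
  convert hu using 1
  rw [map_sub]
  rfl

theorem final_rigid : IsRigid S.c₁ S.c₂ (finalHom S 𝒟 D) := by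
  have key : ∀ (c : GQ →₀ 𝒪) (n : ℕ) (i j : Fin 2),
      Ideal.Quotient.mk (maximalIdeal D.R ^ (n + 1)) (comb c (finalHom S 𝒟 D) i j) =
        comb c (toMat (fun p => Ideal.Quotient.mk (maximalIdeal D.R ^ (n + 1)) (D.xR p))) i j := by
    intro c n i j
    have h := final_comb_map (Ideal.Quotient.mkₐ 𝒪 (maximalIdeal D.R ^ (n + 1))) c
      (finalHom S 𝒟 D)
    have h2 := congrFun (congrFun h i) j
    rw [Matrix.map_apply] at h2
    exact h2
  refine ⟨?_, ?_, ?_⟩
  · apply final_eq_of_forall_mk_eq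
    intro n
    have := isLocalRing_quotient_maximalIdeal_pow_succ D.R n
    rw [key, map_zero]
    exact (final_isDef_quot S 𝒟 D n).rigid.1
  · apply final_eq_of_forall_mk_eq
    intro n
    have := isLocalRing_quotient_maximalIdeal_pow_succ D.R n
    rw [key, map_zero]
    exact (final_isDef_quot S 𝒟 D n).rigid.2.1
  · apply final_eq_of_forall_mk_eq
    intro n
    have := isLocalRing_quotient_maximalIdeal_pow_succ D.R n
    rw [key, map_one]
    exact (final_isDef_quot S 𝒟 D n).rigid.2.2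

include h𝒟 in
theorem final_type : 𝒟 (repOfMat (finalHom S 𝒟 D) (final_matCont S 𝒟 D)) := by
  rw [h𝒟.iff_forall_surjective D.instIsLocalHom D.residue_surjective]
  intro B _ _ _ hB q hq _
  have h1 := (D.isOfType B hB q).type (mapHom (q : D.R →+* B) (finalHom S 𝒟 D))
    (matCont_mapHom _ hq _ (final_matCont S 𝒟 D)) (fun σ => by ext i j; rfl)
  exact h𝒟.of_isEquiv hB
    (final_isEquiv_symm (baseChangeAlong_repOfMat_isEquiv _ hq _ (final_matCont S 𝒟 D))) h1

theorem final_residual :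
    (repOfMat (finalHom S 𝒟 D) (final_matCont S 𝒟 D)).residual.IsEquiv
      (ρbar.baseChangeAlong (IsLocalRing.ResidueField.map (algebraMap 𝒪 D.R))) :=
  residual_isEquiv_baseChangeAlong_of_lifts S _
    (fun a => IsLocalRing.ResidueField.map_residue _ a) _ _ (final_lifts S 𝒟 D)

/-- A rigid matrix model of a deformation over a complete local `𝒪`-algebra. -/
theorem final_exists_rigid_model {A : Type} [CommRing A] [IsLocalRing A]
    [IsAdicComplete (maximalIdeal A) A] [Algebra 𝒪 A] [IsLocalHom (algebraMap 𝒪 A)]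
    (ρA : GaloisRepAdic A)
    (hresid : ρA.residual.IsEquiv
      (ρbar.baseChangeAlong (IsLocalRing.ResidueField.map (algebraMap 𝒪 A)))) :
    ∃ (r : GQ →* Mat2 A) (hr : MatCont r), Lifts S (entries r) ∧ IsRigid S.c₁ S.c₂ r ∧
      ρA.IsEquiv (repOfMat r hr) := by
  obtain ⟨r0, hr0, e0⟩ := exists_repOfMat_isEquiv ρA
  have hψ : ∀ a : 𝒪, IsLocalRing.ResidueField.map (algebraMap 𝒪 A) (residue 𝒪 a) =
      residue A (algebraMap 𝒪 A a) := fun a => IsLocalRing.ResidueField.map_residue _ a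
  have h0 : (repOfMat r0 hr0).residual.IsEquiv
      (ρbar.baseChangeAlong (IsLocalRing.ResidueField.map (algebraMap 𝒪 A))) := by
    obtain ⟨e⟩ := e0
    obtain ⟨e'⟩ := hresid
    exact ⟨(e.symm.residual).trans e'⟩
  obtain ⟨M1, M1', hM1, -, hl1⟩ := exists_conj_lifts_of_residual_isEquiv S _ hψ r0 hr0 h0
  have hr1 := matCont_conjHom M1 M1' hM1 r0 hr0
  have e1 := repOfMat_conjHom_isEquiv M1 M1' hM1 r0 hr0
  obtain ⟨M2, M2', hM2, -, hl2, hrig2⟩ := exists_rigid_conj S (conjHom M1 M1' hM1 r0) hl1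
  have hr2 := matCont_conjHom M2 M2' hM2 _ hr1
  have e2 := repOfMat_conjHom_isEquiv M2 M2' hM2 _ hr1
  exact ⟨_, hr2, hl2, hrig2, final_isEquiv_trans e0 (final_isEquiv_trans e1 e2)⟩

include h𝒟 in
/-- Push-forwards of a rigid model of a deformation of type `𝒟` to Artinian quotients are of
type `IsDef`. -/
theorem final_isDef_of_rigid_model {A : Type} [CommRing A] [IsLocalRing A] [IsNoetherianRing A]
    [IsAdicComplete (maximalIdeal A) A] [Algebra 𝒪 A] [IsLocalHom (algebraMap 𝒪 A)]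
    (hres : Function.Surjective (residue A ∘ algebraMap 𝒪 A))
    (ρA : GaloisRepAdic A) (hρA : 𝒟 ρA) (r : GQ →* Mat2 A) (hr : MatCont r)
    (hl : Lifts S (entries r)) (hrig : IsRigid S.c₁ S.c₂ r) (e : ρA.IsEquiv (repOfMat r hr))
    (B : Type) [CommRing B] [IsLocalRing B] [Algebra 𝒪 B]
    (hB : GaloisRep.IsArtinianTestAlgebra 𝒪 B) (q : A →ₐ[𝒪] B) (hq : Function.Surjective q) :
    IsDef S 𝒟 B (fun i => q (entries r i)) := by
  have hqloc : IsLocalHom (q : A →+* B) := isLocalHom_algHom hB.residue_surjective q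
  have hmap : ∀ σ, toMat (fun i => q (entries r i)) σ = mapHom (q : A →+* B) r σ :=
    fun σ => by ext i j; rfl
  have hArt := hB.isArtinian
  refine { map_one := ?_, map_mul := ?_, finiteLevel := ?_, lifts := ?_, rigid := ?_, type := ?_ }
  · rw [hmap, map_one]
  · intro σ τ
    rw [hmap, hmap, hmap, map_mul]
  · obtain ⟨N, hN⟩ := (isArtinianRing_iff_isNilpotent_maximalIdeal B).mp hArt
    obtain ⟨L, hL, h⟩ := matCont_mapHom (q : A →+* B) hqloc r hr N
    refine ⟨L, hL, fun σ hσ => ?_⟩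
    rw [hmap]
    ext i j
    have h1 := h σ hσ i j
    rw [hN, Ideal.zero_eq_bot, Ideal.mem_bot, Matrix.sub_apply, sub_eq_zero] at h1
    exact h1
  · intro p
    have h1 : q (entries r p) - algebraMap 𝒪 B (S.x0 p) =
        q (entries r p - algebraMap 𝒪 A (S.x0 p)) := by
      rw [map_sub, AlgHom.commutes]
    rw [h1]
    by_contra hne
    rw [notMem_maximalIdeal] at hne
    have hu : IsUnit (entries r p - algebraMap 𝒪 A (S.x0 p)) :=
      hqloc.map_nonunit _ hne
    exact (mem_nonunits_iff.mp ((mem_maximalIdeal _).mp (hl p))) hu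
  · have key : ∀ c : GQ →₀ 𝒪, comb c (toMat (fun i => q (entries r i))) = (comb c r).map q := by
      intro c
      rw [final_comb_map q c r]
      rfl
    refine ⟨?_, ?_, ?_⟩
    · rw [key, Matrix.map_apply, hrig.1, map_zero]
    · rw [key, Matrix.map_apply, hrig.2.1, map_zero]
    · rw [key, Matrix.map_apply, hrig.2.2, map_one]
  · intro r' hr' hr'eq
    have hr'r : r' = mapHom (q : A →+* B) r := DFunLike.ext _ _ fun σ => by rw [hr'eq, hmap]
    subst hr'r
    have h1 := (h𝒟.iff_forall_surjective (inferInstance : IsLocalHom (algebraMap 𝒪 A)) hres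
      ρA).mp hρA hB q hqloc hq
    obtain ⟨e'⟩ := e
    have e3 : (ρA.baseChangeAlong (q : A →+* B) hqloc).IsEquiv
        ((repOfMat r hr).baseChangeAlong (q : A →+* B) hqloc) := ⟨e'.baseChangeAlong _ hqloc⟩
    have e4 := baseChangeAlong_repOfMat_isEquiv (q : A →+* B) hqloc r hr
    exact h𝒟.of_isEquiv hB (final_isEquiv_trans e3 e4) h1

include h𝒟 in
/-- The universal property. -/
theorem final_universal (A : Type) [CommRing A] [IsLocalRing A] [IsNoetherianRing A]
    [IsAdicComplete (maximalIdeal A) A] [Algebra 𝒪 A] [IsLocalHom (algebraMap 𝒪 A)]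
    (hres : Function.Surjective (residue A ∘ algebraMap 𝒪 A))
    (ρA : GaloisRepAdic A) (hρA : 𝒟 ρA)
    (hresid : ρA.residual.IsEquiv
      (ρbar.baseChangeAlong (IsLocalRing.ResidueField.map (algebraMap 𝒪 A)))) :
    ∃! φ : D.R →ₐ[𝒪] A, ∃ hφ : IsLocalHom (φ : D.R →+* A),
      ((repOfMat (finalHom S 𝒟 D) (final_matCont S 𝒟 D)).baseChangeAlong
        (φ : D.R →+* A) hφ).IsEquiv ρA := by
  obtain ⟨r, hr, hl, hrig, e⟩ := final_exists_rigid_model S ρA hresid
  have hx := final_isDef_of_rigid_model S 𝒟 h𝒟 hres ρA hρA r hr hl hrig e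
  obtain ⟨φ, hφ, hφu⟩ := D.existsUnique_of_complete A (inferInstance) hres (entries r) hx
  have hloc : ∀ φ' : D.R →ₐ[𝒪] A, IsLocalHom (φ' : D.R →+* A) :=
    fun φ' => isLocalHom_algHom hres φ'
  have hmapφ : mapHom (φ : D.R →+* A) (finalHom S 𝒟 D) = r := by
    apply DFunLike.ext
    intro σ
    ext i j
    exact hφ (σ, i, j)
  refine ⟨φ, ⟨hloc φ, ?_⟩, ?_⟩
  · have e4 := baseChangeAlong_repOfMat_isEquiv (φ : D.R →+* A) (hloc φ) (finalHom S 𝒟 D)
      (final_matCont S 𝒟 D)
    have e5 : (repOfMat (mapHom (φ : D.R →+* A) (finalHom S 𝒟 D))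
        (matCont_mapHom _ (hloc φ) _ (final_matCont S 𝒟 D))).IsEquiv (repOfMat r hr) := by
      rw [repOfMat_isEquiv_iff]
      exact ⟨1, 1, one_mul 1, one_mul 1, fun σ => by rw [hmapφ, one_mul, mul_one]⟩
    exact final_isEquiv_trans e4 (final_isEquiv_trans e5 (final_isEquiv_symm e))
  · rintro φ' ⟨hφ', e'⟩
    apply hφu
    have e4 := baseChangeAlong_repOfMat_isEquiv (φ' : D.R →+* A) hφ' (finalHom S 𝒟 D)
      (final_matCont S 𝒟 D)
    have e6 : (repOfMat (mapHom (φ' : D.R →+* A) (finalHom S 𝒟 D))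
        (matCont_mapHom _ hφ' _ (final_matCont S 𝒟 D))).IsEquiv (repOfMat r hr) :=
      final_isEquiv_trans (final_isEquiv_symm e4) (final_isEquiv_trans e' e)
    rw [repOfMat_isEquiv_iff] at e6
    obtain ⟨M, M', -, hM'M, hconj⟩ := e6
    have hl' : Lifts S (entries (mapHom (φ' : D.R →+* A) (finalHom S 𝒟 D))) := by
      intro p
      have h1 : entries (mapHom (φ' : D.R →+* A) (finalHom S 𝒟 D)) p - algebraMap 𝒪 A (S.x0 p) =
          φ' (entries (finalHom S 𝒟 D) p - algebraMap 𝒪 D.R (S.x0 p)) := by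
        rw [map_sub, AlgHom.commutes]
        rfl
      rw [h1]
      by_contra hne
      rw [notMem_maximalIdeal] at hne
      have hu := hφ'.map_nonunit _ hne
      exact (mem_nonunits_iff.mp ((mem_maximalIdeal _).mp (final_lifts S 𝒟 D p))) hu
    have hrig' : IsRigid S.c₁ S.c₂ (mapHom (φ' : D.R →+* A) (finalHom S 𝒟 D)) := by
      have key : ∀ c : GQ →₀ 𝒪, comb c (mapHom (φ' : D.R →+* A) (finalHom S 𝒟 D)) =
          (comb c (finalHom S 𝒟 D)).map φ' := by
        intro c
        rw [final_comb_map φ' c (finalHom S 𝒟 D)]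
        rfl
      have h0 := final_rigid S 𝒟 D
      refine ⟨?_, ?_, ?_⟩
      · rw [key, Matrix.map_apply, h0.1, map_zero]
      · rw [key, Matrix.map_apply, h0.2.1, map_zero]
      · rw [key, Matrix.map_apply, h0.2.2, map_one]
    have heq := rigid_unique S _ _ hl' hl hrig' hrig M M' hM'M hconj
    intro p
    obtain ⟨σ, i, j⟩ := p
    have := congrFun (congrFun (congrArg (fun f : GQ →* Mat2 A => f σ) heq) i) j
    exact this

end Main

/-! ### The deformation ring data -/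

theorem final_nonempty_deformationRingData
    (𝒪 : Type) [CommRing 𝒪] [IsDomain 𝒪] [IsDiscreteValuationRing 𝒪]
    [IsAdicComplete (IsLocalRing.maximalIdeal 𝒪) 𝒪] [Finite (IsLocalRing.ResidueField 𝒪)]
    (ρbar : ResidualGaloisRep (IsLocalRing.ResidueField 𝒪))
    (𝒟 : ∀ ⦃A : Type⦄ [CommRing A] [IsLocalRing A] [Algebra 𝒪 A], GaloisRepAdic A → Prop)
    (habs : ρbar.IsAbsolutelyIrreducible)
    (h𝒟 : GaloisRep.IsDeformationCondition 𝒪 𝒟)
    (hbar : 𝒟 (GaloisRepAdic.ofResidualGaloisRep ρbar))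
    (hfin : GaloisRep.TangentFinite 𝒪 ρbar 𝒟) :
    Nonempty (GaloisRep.DeformationRingData 𝒪 ρbar 𝒟) := by
  obtain ⟨S⟩ := nonempty_setup 𝒪 ρbar habs
  obtain ⟨D⟩ := exists_proRepData (final_proRepHyp S 𝒟 h𝒟 hbar hfin)
  exact ⟨{
    R := D.R
    residue_surjective := D.residue_surjective
    absIrr := habs
    ρ := repOfMat (finalHom S 𝒟 D) (final_matCont S 𝒟 D)
    isOfType := final_type S 𝒟 h𝒟 D
    residual_isEquiv := final_residual S 𝒟 D
    universal := fun A _ _ _ _ _ _ hres ρA hρA hresid =>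
      final_universal S 𝒟 h𝒟 D A hres ρA hρA hresid }⟩

end

end Fermat.Agent.S53
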