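import Mathlib

/-!
# Chevalley's lemma (S53, sub-lemma (c))

Let `P` be a ring, `I` an ideal such that `P` is `I`-adically precomplete and every `P ⧸ I ^ N`
is finite.  If `K : ι → Ideal P` is a downward directed family of `I`-adically open ideals, then
for every `n` some member `K i` is contained in `(⨅ i, K i) ⊔ I ^ n`.
-/

set_option autoImplicit false

namespace Fermat.Agent.S53

open IsLocalRing

section Chevalley

variable {P : Type*} [CommRing P]

/-- In a downward directed family of ideals there is a member which is minimal modulo a given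
ideal `J` of finite index. -/
theorem chevalley_exists_min (J : Ideal P) [Finite (P ⧸ J)] {ι : Type*} [Nonempty ι]
    (K : ι → Ideal P) (hdir : ∀ i j, ∃ l, K l ≤ K i ⊓ K j) :
    ∃ i, ∀ j, K i ≤ K j ⊔ J := by
  classical
  let π := Ideal.Quotient.mk J
  let c : ι → ℕ := fun i => (π '' (K i : Set P)).ncard
  refine ⟨Function.argmin c, fun j => ?_⟩
  obtain ⟨l, hl⟩ := hdir (Function.argmin c) j
  have hsub : π '' (K l : Set P) ⊆ π '' (K (Function.argmin c) : Set P) :=
    Set.image_mono (fun x hx => (hl hx).1)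
  have hcard : c (Function.argmin c) ≤ c l := Function.argmin_le c l
  have heq : π '' (K l : Set P) = π '' (K (Function.argmin c) : Set P) :=
    Set.eq_of_subset_of_ncard_le hsub hcard (Set.toFinite _)
  intro x hx
  have hx' : π x ∈ π '' (K l : Set P) := by rw [heq]; exact ⟨x, hx, rfl⟩
  obtain ⟨y, hy, hxy⟩ := hx'
  have hxyJ : x - y ∈ J := by
    rw [← Ideal.Quotient.eq]; exact hxy.symm
  have hyj : y ∈ K j := (hl hy).2
  have hxe : x = y + (x - y) := by ring
  rw [hxe]
  exact Submodule.add_mem_sup hyj hxyJ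

/-- **Chevalley's lemma**, general form. -/
theorem chevalley_of_isPrecomplete (I : Ideal P) [IsPrecomplete I P]
    (hfin : ∀ N, Finite (P ⧸ I ^ N)) {ι : Type*} [Nonempty ι] (K : ι → Ideal P)
    (hdir : ∀ i j, ∃ l, K l ≤ K i ⊓ K j) (hopen : ∀ i, ∃ n, I ^ n ≤ K i) (n : ℕ) :
    ∃ i, K i ≤ (⨅ i, K i) ⊔ I ^ n := by
  classical
  -- indices minimal modulo `I ^ N`
  have hmin : ∀ N, ∃ i, ∀ j, K i ≤ K j ⊔ I ^ N := fun N =>
    haveI := hfin N; chevalley_exists_min (I ^ N) K hdir
  choose idx hidx using hmin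
  refine ⟨idx n, fun x hx => ?_⟩
  -- one step of the recursion
  have hstep : ∀ j (z : P), z ∈ K (idx (n + j)) →
      ∃ z' ∈ K (idx (n + j + 1)), z - z' ∈ I ^ (n + j) := by
    intro j z hz
    have := hidx (n + j) (idx (n + j + 1)) hz
    obtain ⟨z', hz', w, hw, rfl⟩ := Submodule.mem_sup.1 this
    exact ⟨z', hz', by simpa using hw⟩
  let next : ℕ → P → P := fun j z =>
    if h : z ∈ K (idx (n + j)) then (hstep j z h).choose else z
  let xs : ℕ → P := fun j => Nat.rec x (fun j z => next j z) j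
  have hxs_succ : ∀ j, xs (j + 1) = next j (xs j) := fun j => rfl
  have hxs_mem : ∀ j, xs j ∈ K (idx (n + j)) := by
    intro j
    induction j with
    | zero => exact hx
    | succ j ih =>
      rw [hxs_succ]
      simp only [next, dif_pos ih]
      exact (hstep j (xs j) ih).choose_spec.1
  have hxs_sub : ∀ j, xs j - xs (j + 1) ∈ I ^ (n + j) := by
    intro j
    rw [hxs_succ]
    simp only [next, dif_pos (hxs_mem j)]
    exact (hstep j (xs j) (hxs_mem j)).choose_spec.2
  have hcauchy : ∀ j j', j ≤ j' → xs j - xs j' ∈ I ^ (n + j) := by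
    intro j j' h
    induction j', h using Nat.le_induction with
    | base => simp
    | succ j' hj' ih =>
      have h1 := hxs_sub j'
      have h2 : I ^ (n + j') ≤ I ^ (n + j) := Ideal.pow_le_pow_right (by omega)
      have hxe : xs j - xs (j' + 1) = (xs j - xs j') + (xs j' - xs (j' + 1)) := by ring
      rw [hxe]
      exact Ideal.add_mem _ ih (h2 h1)
  -- the partial sums `x - xs j`, reindexed so that the `k`-th term is determined modulo `I ^ k`
  let f : ℕ → P := fun k => x - xs (k - n)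
  have hf : ∀ {k k' : ℕ}, k ≤ k' → f k ≡ f k' [SMOD (I ^ k • ⊤ : Submodule P P)] := by
    intro k k' hkk'
    rw [SModEq.sub_mem, smul_eq_mul, Ideal.mul_top]
    have h1 := hcauchy (k - n) (k' - n) (by omega)
    have h2 : I ^ (n + (k - n)) ≤ I ^ k := Ideal.pow_le_pow_right (by omega)
    have hxe : f k - f k' = -(xs (k - n) - xs (k' - n)) := by simp only [f]; ring
    rw [hxe]
    exact Ideal.neg_mem_iff _ |>.2 (h2 h1)
  obtain ⟨y, hy⟩ := IsPrecomplete.prec' (I := I) (M := P) f hf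
  have hy' : ∀ k, f k - y ∈ I ^ k := by
    intro k
    have := hy k
    rwa [SModEq.sub_mem, smul_eq_mul, Ideal.mul_top] at this
  -- `y ∈ I ^ n`
  have hyn : y ∈ I ^ n := by
    have := hy' n
    have hf0 : f n = 0 := by simp [f, xs]
    rw [hf0, zero_sub] at this
    exact (Ideal.neg_mem_iff _).1 this
  -- `x - y` lies in every `K i`
  have hxy : x - y ∈ ⨅ i, K i := by
    rw [Ideal.mem_iInf]
    intro i
    obtain ⟨l, hl⟩ := hopen i
    have h1 : f (n + l) - y ∈ K i := by
      have h2 : I ^ (n + l) ≤ I ^ l := Ideal.pow_le_pow_right (by omega)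
      exact hl (h2 (hy' (n + l)))
    have h3 : xs l ∈ K i := by
      have h4 := hidx (n + l) i (hxs_mem l)
      have h5 : K i ⊔ I ^ (n + l) ≤ K i :=
        sup_le le_rfl ((Ideal.pow_le_pow_right (by omega)).trans hl)
      exact h5 h4
    have hxe : x - y = (f (n + l) - y) + xs l := by
      simp only [f, Nat.add_sub_cancel_left]; ring
    rw [hxe]
    exact Ideal.add_mem _ h1 h3
  have hxe : x = (x - y) + y := by ring
  rw [hxe]
  exact Submodule.add_mem_sup hxy hyn

/-- **Chevalley's lemma** for a Noetherian local ring with finite residue field, complete for its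
maximal ideal (indexed, directed form). -/
theorem chevalley_local [IsLocalRing P] [IsNoetherianRing P]
    [IsAdicComplete (maximalIdeal P) P] [Finite (ResidueField P)]
    {ι : Type*} [Nonempty ι] (K : ι → Ideal P)
    (hdir : ∀ i j, ∃ l, K l ≤ K i ⊓ K j) (hopen : ∀ i, ∃ n, maximalIdeal P ^ n ≤ K i) (n : ℕ) :
    ∃ i, K i ≤ (⨅ i, K i) ⊔ maximalIdeal P ^ n :=
  chevalley_of_isPrecomplete (maximalIdeal P)
    (fun N => IsLocalRing.finite_quotient_iff.2 ⟨N, le_rfl⟩) K hdir hopen n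

/-- **Chevalley's lemma**, set form: a nonempty set of open ideals closed under `⊓`. -/
theorem chevalley_set [IsLocalRing P] [IsNoetherianRing P]
    [IsAdicComplete (maximalIdeal P) P] [Finite (ResidueField P)]
    (𝒦 : Set (Ideal P)) (hne : 𝒦.Nonempty) (hinf : ∀ K ∈ 𝒦, ∀ K' ∈ 𝒦, K ⊓ K' ∈ 𝒦)
    (hopen : ∀ K ∈ 𝒦, ∃ n, maximalIdeal P ^ n ≤ K) (n : ℕ) :
    ∃ K ∈ 𝒦, K ≤ sInf 𝒦 ⊔ maximalIdeal P ^ n := by
  have : Nonempty 𝒦 := hne.to_subtype
  obtain ⟨i, hi⟩ := chevalley_local (P := P) (fun K : 𝒦 => (K : Ideal P))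
    (fun i j => ⟨⟨i.1 ⊓ j.1, hinf i.1 i.2 j.1 j.2⟩, le_rfl⟩) (fun i => hopen i.1 i.2) n
  refine ⟨i.1, i.2, ?_⟩
  rwa [sInf_eq_iInf'] 

/-- Set form of Chevalley's lemma with the finiteness of the quotients as a hypothesis
(no Noetherian / local assumption). -/
theorem chevalley_set_of_isPrecomplete (I : Ideal P) [IsPrecomplete I P]
    (hfin : ∀ N, Finite (P ⧸ I ^ N))
    (𝒦 : Set (Ideal P)) (hne : 𝒦.Nonempty) (hinf : ∀ K ∈ 𝒦, ∀ K' ∈ 𝒦, K ⊓ K' ∈ 𝒦)
    (hopen : ∀ K ∈ 𝒦, ∃ n, I ^ n ≤ K) (n : ℕ) :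
    ∃ K ∈ 𝒦, K ≤ sInf 𝒦 ⊔ I ^ n := by
  have : Nonempty 𝒦 := hne.to_subtype
  obtain ⟨i, hi⟩ := chevalley_of_isPrecomplete I hfin (fun K : 𝒦 => (K : Ideal P))
    (fun i j => ⟨⟨i.1 ⊓ j.1, hinf i.1 i.2 j.1 j.2⟩, le_rfl⟩) (fun i => hopen i.1 i.2) n
  refine ⟨i.1, i.2, ?_⟩
  rwa [sInf_eq_iInf']

end Chevalley

end Fermat.Agent.S53
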