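/-
S53 (Galois side), task G8: the concrete deformation predicate `IsDef` is functorial in the
test algebra and descends along injective maps of test algebras
(the fields `map` and `descend` of `ProRepHyp`).
-/
import Mathlib
import Fermat.Agent.S53.Defs
import Fermat.Agent.S53.Dict1
import Fermat.Agent.S53.Dict2
import Fermat.Agent.S53.TestAlg

set_option autoImplicit false

namespace Fermat.Agent.S53

open IsLocalRing

noncomputable section

/-- `comb` commutes with push-forward along an `𝒪`-algebra homomorphism. -/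
theorem hypMap_comb_map {𝒪 A B : Type} [CommRing 𝒪] [CommRing A] [CommRing B] [Algebra 𝒪 A]
    [Algebra 𝒪 B] (φ : A →ₐ[𝒪] B) (c : GQ →₀ 𝒪) (r : GQ → Mat2 A) :
    comb c (fun σ => (r σ).map φ) = (comb c r).map φ := by
  have h : ∀ N : Mat2 A, N.map φ = (AlgHom.mapMatrix φ : Mat2 A →ₐ[𝒪] Mat2 B) N := fun _ => rfl
  simp only [comb, h, Finsupp.sum, map_sum, map_smul]

/-- entrywise version of `hypMap_comb_map`. -/
theorem hypMap_comb_apply {𝒪 A B : Type} [CommRing 𝒪] [CommRing A] [CommRing B] [Algebra 𝒪 A]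
    [Algebra 𝒪 B] (φ : A →ₐ[𝒪] B) (c : GQ →₀ 𝒪) (x : Idx → A) (i j : Fin 2) :
    comb c (toMat (fun p => φ (x p))) i j = φ (comb c (toMat x) i j) := by
  have h : toMat (fun p => φ (x p)) = fun σ => (toMat x σ).map φ := rfl
  rw [h, hypMap_comb_map]
  rfl

variable {𝒪 : Type} [CommRing 𝒪] [IsLocalRing 𝒪]
  {ρbar : ResidualGaloisRep (ResidueField 𝒪)} (S : Setup 𝒪 ρbar)
  (𝒟 : ∀ ⦃A : Type⦄ [CommRing A] [IsLocalRing A] [Algebra 𝒪 A], GaloisRepAdic A → Prop)
  (h𝒟 : GaloisRep.IsDeformationCondition 𝒪 𝒟)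

include h𝒟 in
theorem isDef_map {A B : Type} [CommRing A] [IsLocalRing A] [Algebra 𝒪 A]
    [CommRing B] [IsLocalRing B] [Algebra 𝒪 B]
    (hA : GaloisRep.IsArtinianTestAlgebra 𝒪 A) (hB : GaloisRep.IsArtinianTestAlgebra 𝒪 B)
    (φ : A →ₐ[𝒪] B) (x : Idx → A) (hx : IsDef S 𝒟 A x) : IsDef S 𝒟 B (fun i => φ (x i)) := by
  have hloc : IsLocalHom (φ : A →+* B) := isLocalHom_algHom hB.residue_surjective φ
  have e : ∀ σ : GQ, toMat (fun i => φ (x i)) σ = (toMat x σ).map φ := fun σ => rfl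
  refine ⟨?_, ?_, ?_, ?_, ?_, ?_⟩
  · -- map_one
    rw [e 1, hx.map_one]
    exact Matrix.map_one φ (map_zero φ) (map_one φ)
  · -- map_mul
    intro σ τ
    rw [e (σ * τ), e σ, e τ, hx.map_mul]
    exact Matrix.map_mul
  · -- finiteLevel
    obtain ⟨L, hL, hL'⟩ := hx.finiteLevel
    refine ⟨L, hL, fun σ hσ => ?_⟩
    rw [e σ, hL' σ hσ]
    exact Matrix.map_one φ (map_zero φ) (map_one φ)
  · -- lifts
    intro p
    have h1 : φ (x p) - algebraMap 𝒪 B (S.x0 p) = (φ : A →+* B) (x p - algebraMap 𝒪 A (S.x0 p)) := by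
      rw [map_sub]
      simp
    rw [h1]
    exact map_nonunit (φ : A →+* B) _ (hx.lifts p)
  · -- rigid
    obtain ⟨h1, h2, h3⟩ := hx.rigid
    refine ⟨?_, ?_, ?_⟩
    · rw [hypMap_comb_apply, h1, map_zero]
    · rw [hypMap_comb_apply, h2, map_zero]
    · rw [hypMap_comb_apply, h3, map_one]
  · -- type
    intro r' hr' hr'x
    let r : GQ →* Mat2 A := homOfEntries x hx.map_one hx.map_mul
    have hr : MatCont r := matCont_of_finiteLevel r hx.finiteLevel
    have h0 : 𝒟 (repOfMat r hr) := hx.type r hr (fun σ => rfl)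
    have h1 : 𝒟 ((repOfMat r hr).baseChangeAlong (φ : A →+* B) hloc) :=
      h𝒟.baseChangeAlong hA hB φ hloc h0
    have h2 : 𝒟 (repOfMat (mapHom (φ : A →+* B) r) (matCont_mapHom (φ : A →+* B) hloc r hr)) :=
      h𝒟.of_isEquiv hB (baseChangeAlong_repOfMat_isEquiv (φ : A →+* B) hloc r hr) h1
    have h3 : r' = mapHom (φ : A →+* B) r := by
      refine MonoidHom.ext fun σ => ?_
      rw [hr'x σ]
      rfl
    subst h3
    exact h2

include h𝒟 in
theorem isDef_descend {A B : Type} [CommRing A] [IsLocalRing A] [Algebra 𝒪 A]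
    [CommRing B] [IsLocalRing B] [Algebra 𝒪 B]
    (hA : GaloisRep.IsArtinianTestAlgebra 𝒪 A) (hB : GaloisRep.IsArtinianTestAlgebra 𝒪 B)
    (φ : A →ₐ[𝒪] B) (hφ : Function.Injective φ) (x : Idx → A)
    (hx : IsDef S 𝒟 B (fun i => φ (x i))) : IsDef S 𝒟 A x := by
  have hloc : IsLocalHom (φ : A →+* B) := isLocalHom_algHom hB.residue_surjective φ
  have hinj : Function.Injective (fun N : Mat2 A => N.map φ) := Matrix.map_injective hφ
  have hone : (1 : Mat2 A).map φ = 1 := Matrix.map_one φ (map_zero φ) (map_one φ)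
  have e : ∀ σ : GQ, toMat (fun i => φ (x i)) σ = (toMat x σ).map φ := fun σ => rfl
  refine ⟨?_, ?_, ?_, ?_, ?_, ?_⟩
  · -- map_one
    apply hinj
    show (toMat x 1).map φ = (1 : Mat2 A).map φ
    rw [hone, ← e 1]
    exact hx.map_one
  · -- map_mul
    intro σ τ
    apply hinj
    show (toMat x (σ * τ)).map φ = (toMat x σ * toMat x τ).map φ
    rw [Matrix.map_mul, ← e (σ * τ), ← e σ, ← e τ]
    exact hx.map_mul σ τ
  · -- finiteLevel
    obtain ⟨L, hL, hL'⟩ := hx.finiteLevel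
    refine ⟨L, hL, fun σ hσ => ?_⟩
    apply hinj
    show (toMat x σ).map φ = (1 : Mat2 A).map φ
    rw [hone, ← e σ]
    exact hL' σ hσ
  · -- lifts
    intro p
    by_contra hmem
    have hu : IsUnit (x p - algebraMap 𝒪 A (S.x0 p)) := by
      by_contra hnu
      exact hmem ((IsLocalRing.mem_maximalIdeal _).mpr hnu)
    have hu' : IsUnit ((φ : A →+* B) (x p - algebraMap 𝒪 A (S.x0 p))) := hu.map _
    have h1 : φ (x p) - algebraMap 𝒪 B (S.x0 p) = (φ : A →+* B) (x p - algebraMap 𝒪 A (S.x0 p)) := by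
      rw [map_sub]
      simp
    have h2 := hx.lifts p
    rw [h1] at h2
    exact ((IsLocalRing.mem_maximalIdeal _).mp h2) hu'
  · -- rigid
    obtain ⟨h1, h2, h3⟩ := hx.rigid
    rw [hypMap_comb_apply] at h1 h2 h3
    refine ⟨?_, ?_, ?_⟩
    · exact hφ (h1.trans (map_zero φ).symm)
    · exact hφ (h2.trans (map_zero φ).symm)
    · exact hφ (h3.trans (map_one φ).symm)
  · -- type
    intro r hr hrx
    have hr' : MatCont (mapHom (φ : A →+* B) r) := matCont_mapHom (φ : A →+* B) hloc r hr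
    have h0 : 𝒟 (repOfMat (mapHom (φ : A →+* B) r) hr') := by
      refine hx.type _ hr' fun σ => ?_
      rw [e σ, ← hrx σ]
      rfl
    obtain ⟨e⟩ := baseChangeAlong_repOfMat_isEquiv (φ : A →+* B) hloc r hr
    have h1 : 𝒟 ((repOfMat r hr).baseChangeAlong (φ : A →+* B) hloc) :=
      h𝒟.of_isEquiv hB ⟨e.symm⟩ h0
    exact h𝒟.of_baseChangeAlong_injective hA hB φ hloc hφ h1

end

end Fermat.Agent.S53
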