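/-
S53 helper (T5): algebra maps out of `MvPowerSeries σ 𝒪` into Artinian test algebras.
Pure commutative algebra.
-/
import Mathlib
import Fermat.Prelude.Def_GaloisRep_DeformationCondition

set_option autoImplicit false
set_option linter.unusedSectionVars false

namespace Fermat.Agent.S53

open IsLocalRing

section PowerSeriesMap

variable {𝒪 : Type} [CommRing 𝒪] [IsLocalRing 𝒪]
variable {A : Type} [CommRing A] [IsLocalRing A] [Algebra 𝒪 A]
variable {σ : Type} [Finite σ]

/-- In an Artinian local ring the maximal ideal is nilpotent. -/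
theorem exists_maximalIdeal_pow_eq_bot_of_isArtinianRing (A : Type*) [CommRing A] [IsLocalRing A]
    [IsArtinianRing A] : ∃ N : ℕ, maximalIdeal A ^ N = ⊥ := by
  have h := IsArtinianRing.isNilpotent_jacobson_bot (R := A)
  rw [IsLocalRing.jacobson_eq_maximalIdeal ⊥ bot_ne_top] at h
  obtain ⟨N, hN⟩ := h
  exact ⟨N, by simpa using hN⟩

theorem exists_maximalIdeal_pow_eq_bot_of_test (hA : GaloisRep.IsArtinianTestAlgebra 𝒪 A) :
    ∃ N : ℕ, maximalIdeal A ^ N = ⊥ :=
  haveI := hA.isArtinian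
  exists_maximalIdeal_pow_eq_bot_of_isArtinianRing A

/-- Polynomial evaluation at a family in the maximal ideal kills the `N`-th power of the ideal
of variables, if `𝔪 ^ N = 0`. -/
theorem aeval_eq_zero_of_mem_idealOfVars_pow (a : σ → A) (ha : ∀ s, a s ∈ maximalIdeal A)
    (N : ℕ) (hN : maximalIdeal A ^ N = ⊥) (q : MvPolynomial σ 𝒪)
    (hq : q ∈ MvPolynomial.idealOfVars σ 𝒪 ^ N) : MvPolynomial.aeval a q = 0 := by
  have h1 : Ideal.map (MvPolynomial.aeval a : MvPolynomial σ 𝒪 →ₐ[𝒪] A)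
      (MvPolynomial.idealOfVars σ 𝒪) ≤ maximalIdeal A := by
    rw [Ideal.map_le_iff_le_comap]
    refine Ideal.span_le.2 ?_
    rintro _ ⟨s, rfl⟩
    simpa using ha s
  have h2 : Ideal.map (MvPolynomial.aeval a : MvPolynomial σ 𝒪 →ₐ[𝒪] A)
      (MvPolynomial.idealOfVars σ 𝒪 ^ N) ≤ maximalIdeal A ^ N := by
    rw [Ideal.map_pow]
    exact Ideal.pow_right_mono h1 N
  have h3 := h2 (Ideal.mem_map_of_mem _ hq)
  rw [hN] at h3
  simpa using h3

/-- **T5 (i)**: a family in the maximal ideal of a test algebra is the image of the variables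
under an `𝒪`-algebra map from the power series ring. -/
theorem exists_algHom_mvPowerSeries_X_eq (hA : GaloisRep.IsArtinianTestAlgebra 𝒪 A)
    (a : σ → A) (ha : ∀ s, a s ∈ maximalIdeal A) :
    ∃ θ : MvPowerSeries σ 𝒪 →ₐ[𝒪] A, ∀ s, θ (MvPowerSeries.X s) = a s := by
  obtain ⟨N, hN⟩ := exists_maximalIdeal_pow_eq_bot_of_test hA
  let L : (MvPolynomial σ 𝒪 ⧸ MvPolynomial.idealOfVars σ 𝒪 ^ N) →ₐ[𝒪] A :=
    Ideal.Quotient.liftₐ (MvPolynomial.idealOfVars σ 𝒪 ^ N) (MvPolynomial.aeval a)
      (fun q hq => aeval_eq_zero_of_mem_idealOfVars_pow a ha N hN q hq)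
  refine ⟨L.comp ((MvPowerSeries.truncTotalAlgHom σ 𝒪 N).restrictScalars 𝒪), fun s => ?_⟩
  have h1 : (MvPowerSeries.truncTotalAlgHom σ 𝒪 N) (MvPowerSeries.X s) =
      Ideal.Quotient.mk _ (MvPolynomial.X s) := by
    have h := (MvPowerSeries.truncTotalAlgHom σ 𝒪 N).commutes (MvPolynomial.X s)
    rw [MvPowerSeries.algebraMap_apply', Algebra.algebraMap_self, MvPowerSeries.map_id,
      RingHom.id_apply, MvPolynomial.coe_X] at h
    exact h
  change L ((MvPowerSeries.truncTotalAlgHom σ 𝒪 N) (MvPowerSeries.X s)) = a s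
  rw [h1]
  change MvPolynomial.aeval a (MvPolynomial.X s) = a s
  simp


theorem map_idealOfVars_eq_span_X {σ : Type*} {R : Type*} [CommRing R] :
    Ideal.map (algebraMap (MvPolynomial σ R) (MvPowerSeries σ R)) (MvPolynomial.idealOfVars σ R) =
      Ideal.span (Set.range (MvPowerSeries.X : σ → MvPowerSeries σ R)) := by
  rw [MvPolynomial.idealOfVars, Ideal.map_span, ← Set.range_comp]
  congr 2
  ext1 s
  simp [MvPowerSeries.algebraMap_apply', MvPolynomial.coe_X]

/-- A power series differs from its truncation at total degree `N` by an element of the `N`-th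
power of the ideal generated by the variables. -/
theorem sub_truncTotal_mem_span_X_pow {σ : Type*} [Finite σ] {R : Type*} [CommRing R]
    (f : MvPowerSeries σ R) (N : ℕ) :
    f - ((MvPowerSeries.truncTotal N f : MvPolynomial σ R) : MvPowerSeries σ R) ∈
      (Ideal.span (Set.range (MvPowerSeries.X : σ → MvPowerSeries σ R))) ^ N := by
  set g := f - ((MvPowerSeries.truncTotal N f : MvPolynomial σ R) : MvPowerSeries σ R) with hg
  have h1 : (MvPowerSeries.toAdicCompletionAlgEquiv σ R g) ∈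
      (MvPolynomial.idealOfVars σ R ^ N • ⊤ :
        Submodule (MvPolynomial σ R)
          (AdicCompletion (MvPolynomial.idealOfVars σ R) (MvPolynomial σ R))) := by
    rw [AdicCompletion.pow_smul_top_eq_ker_eval (MvPolynomial.idealOfVars_fg σ R), LinearMap.mem_ker]
    rw [hg, map_sub, MvPowerSeries.toAdicCompletionAlgEquiv_apply,
      MvPowerSeries.toAdicCompletionAlgEquiv_apply, MvPowerSeries.toAdicCompletion_coe, map_sub]
    rw [AdicCompletion.eval_apply, AdicCompletion.eval_apply,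
      MvPowerSeries.toAdicCompletion_apply_eq_mk_truncTotal]
    simp
  have h2 : ∀ y ∈ (MvPolynomial.idealOfVars σ R ^ N • ⊤ :
        Submodule (MvPolynomial σ R)
          (AdicCompletion (MvPolynomial.idealOfVars σ R) (MvPolynomial σ R))),
      (MvPowerSeries.toAdicCompletionAlgEquiv σ R).symm y ∈
        (Ideal.span (Set.range (MvPowerSeries.X : σ → MvPowerSeries σ R))) ^ N := by
    intro y hy
    refine Submodule.smul_induction_on hy ?_ ?_
    · intro r hr m _
      rw [map_smul, Algebra.smul_def]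
      refine Ideal.mul_mem_right _ _ ?_
      rw [← map_idealOfVars_eq_span_X, ← Ideal.map_pow]
      exact Ideal.mem_map_of_mem _ hr
    · intro x y hx hy
      rw [map_add]
      exact Ideal.add_mem _ hx hy
  have h3 := h2 _ h1
  rwa [AlgEquiv.symm_apply_apply] at h3


/-- An `𝒪`-algebra map from a local `𝒪`-algebra to a local `𝒪`-algebra whose residue field is
generated by `𝒪` is a local homomorphism. -/
theorem algHom_isLocalHom_of_residue_surjective {P : Type*} [CommRing P] [IsLocalRing P]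
    [Algebra 𝒪 P] (hres : Function.Surjective (IsLocalRing.residue A ∘ algebraMap 𝒪 A))
    (θ : P →ₐ[𝒪] A) : IsLocalHom (θ : P →+* A) := by
  refine ⟨fun f hf => ?_⟩
  by_contra hfu
  have hfm : f ∈ maximalIdeal P := (IsLocalRing.mem_maximalIdeal f).2 hfu
  obtain ⟨u, hu⟩ := hf
  obtain ⟨c, hc⟩ := hres (IsLocalRing.residue A ((u⁻¹ : Aˣ) : A))
  have h1 : IsUnit (1 - algebraMap 𝒪 P c * f) := by
    have h2 : algebraMap 𝒪 P c * f ∈ maximalIdeal P := Ideal.mul_mem_left _ _ hfm
    by_contra h3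
    have h4 : (1 - algebraMap 𝒪 P c * f) ∈ maximalIdeal P := (IsLocalRing.mem_maximalIdeal _).2 h3
    have h5 : (1 : P) ∈ maximalIdeal P := by
      have h5' : (1 - algebraMap 𝒪 P c * f) + algebraMap 𝒪 P c * f ∈ maximalIdeal P :=
        Ideal.add_mem _ h4 h2
      rwa [sub_add_cancel] at h5'
    exact (Ideal.ne_top_iff_one _).1 (IsLocalRing.maximalIdeal.isMaximal P).ne_top h5
  have h6 : IsUnit ((θ : P →+* A) (1 - algebraMap 𝒪 P c * f)) := h1.map _
  have h7 : (θ : P →+* A) (1 - algebraMap 𝒪 P c * f) = 1 - algebraMap 𝒪 A c * (u : A) := by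
    rw [hu]
    simp
  rw [h7] at h6
  have h8 : IsLocalRing.residue A (1 - algebraMap 𝒪 A c * (u : A)) = 0 := by
    have hc' : IsLocalRing.residue A (algebraMap 𝒪 A c) =
        IsLocalRing.residue A ((u⁻¹ : Aˣ) : A) := hc
    rw [map_sub, map_mul, hc', ← map_mul, Units.inv_mul, map_one, sub_self]
  have h9 : (1 - algebraMap 𝒪 A c * (u : A)) ∈ maximalIdeal A := by
    rwa [← IsLocalRing.residue_eq_zero_iff]
  exact ((IsLocalRing.mem_maximalIdeal _).1 h9) h6

/-- Any `𝒪`-algebra map from a power series ring to a test algebra sends the variables into the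
maximal ideal. -/
theorem algHom_mvPowerSeries_X_mem_maximalIdeal (hA : GaloisRep.IsArtinianTestAlgebra 𝒪 A)
    (θ : MvPowerSeries σ 𝒪 →ₐ[𝒪] A) (s : σ) : θ (MvPowerSeries.X s) ∈ maximalIdeal A := by
  have := algHom_isLocalHom_of_residue_surjective hA.residue_surjective θ
  rw [IsLocalRing.mem_maximalIdeal]
  intro hu
  have h1 : IsUnit (MvPowerSeries.X s : MvPowerSeries σ 𝒪) :=
    isUnit_of_map_unit (θ : MvPowerSeries σ 𝒪 →+* A) _ hu
  rw [MvPowerSeries.isUnit_iff_constantCoeff, MvPowerSeries.constantCoeff_X] at h1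
  exact not_isUnit_zero h1

/-- Any `𝒪`-algebra map from a power series ring to a test algebra with `𝔪 ^ N = 0` is given by
evaluating the truncation at total degree `N`. -/
theorem algHom_mvPowerSeries_apply_eq_aeval_truncTotal (hA : GaloisRep.IsArtinianTestAlgebra 𝒪 A)
    (θ : MvPowerSeries σ 𝒪 →ₐ[𝒪] A) (N : ℕ) (hN : maximalIdeal A ^ N = ⊥)
    (f : MvPowerSeries σ 𝒪) :
    θ f = MvPolynomial.aeval (fun s => θ (MvPowerSeries.X s)) (MvPowerSeries.truncTotal N f) := by
  have h1 : θ (f - ((MvPowerSeries.truncTotal N f : MvPolynomial σ 𝒪) : MvPowerSeries σ 𝒪)) = 0 := by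
    have h2 : Ideal.map (θ : MvPowerSeries σ 𝒪 →+* A)
        (Ideal.span (Set.range (MvPowerSeries.X : σ → MvPowerSeries σ 𝒪))) ≤ maximalIdeal A := by
      rw [Ideal.map_le_iff_le_comap]
      refine Ideal.span_le.2 ?_
      rintro _ ⟨s, rfl⟩
      exact algHom_mvPowerSeries_X_mem_maximalIdeal hA θ s
    have h3 : Ideal.map (θ : MvPowerSeries σ 𝒪 →+* A)
        (Ideal.span (Set.range (MvPowerSeries.X : σ → MvPowerSeries σ 𝒪)) ^ N) ≤
          maximalIdeal A ^ N := by
      rw [Ideal.map_pow]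
      exact Ideal.pow_right_mono h2 N
    have h4 := h3 (Ideal.mem_map_of_mem _ (sub_truncTotal_mem_span_X_pow f N))
    rw [hN] at h4
    simpa using h4
  have h5 : (θ.comp (MvPolynomial.coeToMvPowerSeries.algHom 𝒪)) =
      MvPolynomial.aeval (fun s => θ (MvPowerSeries.X s)) := by
    apply MvPolynomial.algHom_ext
    intro s
    simp [MvPolynomial.coeToMvPowerSeries.algHom_apply]
  have h6 : θ ((MvPowerSeries.truncTotal N f : MvPolynomial σ 𝒪) : MvPowerSeries σ 𝒪) =
      MvPolynomial.aeval (fun s => θ (MvPowerSeries.X s)) (MvPowerSeries.truncTotal N f) := by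
    rw [← h5]
    simp [MvPolynomial.coeToMvPowerSeries.algHom_apply]
  rw [← h6]
  rw [map_sub, sub_eq_zero] at h1
  exact h1

/-- **T5 (ii)**: an `𝒪`-algebra map from the power series ring to a test algebra is determined
by the images of the variables. -/
theorem algHom_mvPowerSeries_ext (hA : GaloisRep.IsArtinianTestAlgebra 𝒪 A)
    (θ θ' : MvPowerSeries σ 𝒪 →ₐ[𝒪] A)
    (h : ∀ s, θ (MvPowerSeries.X s) = θ' (MvPowerSeries.X s)) : θ = θ' := by
  obtain ⟨N, hN⟩ := exists_maximalIdeal_pow_eq_bot_of_test hA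
  ext f
  rw [algHom_mvPowerSeries_apply_eq_aeval_truncTotal hA θ N hN,
    algHom_mvPowerSeries_apply_eq_aeval_truncTotal hA θ' N hN]
  have : (fun s => θ (MvPowerSeries.X s)) = fun s => θ' (MvPowerSeries.X s) := funext h
  rw [this]

/-- Successive approximation: if `𝔪_A` is generated by elements of the image of `θ` lying in
`𝔪_A`, then every element of `𝔪_A ^ n` is congruent to an element of the image modulo
`𝔪_A ^ (n + 1)`. (No Artinian hypothesis.) -/
theorem algHom_exists_sub_mem_pow_succ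
    (hloc : IsLocalHom (algebraMap 𝒪 A))
    (hres : Function.Surjective (IsLocalRing.residue A ∘ algebraMap 𝒪 A))
    {Q : Type*} [CommRing Q] [Algebra 𝒪 Q] (θ : Q →ₐ[𝒪] A) (T : Set Q)
    (hT : ∀ t ∈ T, θ t ∈ maximalIdeal A)
    (h : maximalIdeal A ≤ Ideal.span (θ '' T) ⊔ (maximalIdeal 𝒪).map (algebraMap 𝒪 A))
    (n : ℕ) : ∀ x ∈ maximalIdeal A ^ n, ∃ q : Q, x - θ q ∈ maximalIdeal A ^ (n + 1) := by
  set G : Set A := θ '' T ∪ (algebraMap 𝒪 A) '' (maximalIdeal 𝒪 : Set 𝒪) with hG
  have hGm : ∀ g ∈ G, g ∈ maximalIdeal A := by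
    rintro g (⟨t, ht, rfl⟩ | ⟨c, hc, rfl⟩)
    · exact hT t ht
    · rw [IsLocalRing.mem_maximalIdeal]
      intro hu
      exact ((IsLocalRing.mem_maximalIdeal c).1 hc) (isUnit_of_map_unit (algebraMap 𝒪 A) c hu)
  have hGθ : ∀ g ∈ G, ∃ g' : Q, θ g' = g := by
    rintro g (⟨t, _, rfl⟩ | ⟨c, _, rfl⟩)
    · exact ⟨t, rfl⟩
    · exact ⟨algebraMap 𝒪 Q c, θ.commutes c⟩
  have hspan : maximalIdeal A ≤ Ideal.span G := by
    rw [hG, Ideal.span_union]
    exact h
  induction n with
  | zero =>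
    intro x _
    obtain ⟨c, hc⟩ := hres (IsLocalRing.residue A x)
    refine ⟨algebraMap 𝒪 Q c, ?_⟩
    have hc' : IsLocalRing.residue A (algebraMap 𝒪 A c) = IsLocalRing.residue A x := hc
    rw [zero_add, pow_one, ← IsLocalRing.residue_eq_zero_iff, map_sub, θ.commutes, hc', sub_self]
  | succ n ih =>
    have key : ∀ b ∈ Ideal.span G, ∀ y ∈ maximalIdeal A ^ n,
        ∃ q : Q, y * b - θ q ∈ maximalIdeal A ^ (n + 1 + 1) := by
      intro b hb
      induction hb using Submodule.span_induction with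
      | mem g hg =>
        intro y hy
        obtain ⟨qy, hqy⟩ := ih y hy
        obtain ⟨g', hg'⟩ := hGθ g hg
        refine ⟨qy * g', ?_⟩
        have e : y * g - θ (qy * g') = (y - θ qy) * g := by
          rw [map_mul, hg']; ring
        rw [e, pow_succ (maximalIdeal A) (n + 1)]
        exact Ideal.mul_mem_mul hqy (hGm g hg)
      | zero =>
        intro y _
        exact ⟨0, by simp⟩
      | add b1 b2 _ _ h1 h2 =>
        intro y hy
        obtain ⟨q1, hq1⟩ := h1 y hy
        obtain ⟨q2, hq2⟩ := h2 y hy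
        refine ⟨q1 + q2, ?_⟩
        have e : y * (b1 + b2) - θ (q1 + q2) = (y * b1 - θ q1) + (y * b2 - θ q2) := by
          rw [map_add]; ring
        rw [e]
        exact Ideal.add_mem _ hq1 hq2
      | smul a b _ hb =>
        intro y hy
        obtain ⟨q, hq⟩ := hb (y * a) (Ideal.mul_mem_right _ _ hy)
        refine ⟨q, ?_⟩
        have e : y * (a • b) - θ q = y * a * b - θ q := by
          rw [smul_eq_mul]; ring
        rw [e]
        exact hq
    intro x hx
    rw [pow_succ] at hx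
    refine Submodule.mul_induction_on hx ?_ ?_
    · intro y hy b hb
      exact key b (hspan hb) y hy
    · rintro x1 x2 ⟨q1, hq1⟩ ⟨q2, hq2⟩
      refine ⟨q1 + q2, ?_⟩
      have e : x1 + x2 - θ (q1 + q2) = (x1 - θ q1) + (x2 - θ q2) := by
        rw [map_add]; ring
      rw [e]
      exact Ideal.add_mem _ hq1 hq2

/-- Every element of `A` is congruent to an element of the image of `θ` modulo `𝔪_A ^ n`. -/
theorem algHom_exists_sub_mem_pow
    (hloc : IsLocalHom (algebraMap 𝒪 A))
    (hres : Function.Surjective (IsLocalRing.residue A ∘ algebraMap 𝒪 A))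
    {Q : Type*} [CommRing Q] [Algebra 𝒪 Q] (θ : Q →ₐ[𝒪] A) (T : Set Q)
    (hT : ∀ t ∈ T, θ t ∈ maximalIdeal A)
    (h : maximalIdeal A ≤ Ideal.span (θ '' T) ⊔ (maximalIdeal 𝒪).map (algebraMap 𝒪 A))
    (n : ℕ) (x : A) : ∃ q : Q, x - θ q ∈ maximalIdeal A ^ n := by
  induction n with
  | zero => exact ⟨0, by simp⟩
  | succ n ih =>
    obtain ⟨q, hq⟩ := ih
    obtain ⟨q', hq'⟩ := algHom_exists_sub_mem_pow_succ hloc hres θ T hT h n _ hq
    refine ⟨q + q', ?_⟩
    have e : x - θ (q + q') = x - θ q - θ q' := by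
      rw [map_add]; ring
    rw [e]
    exact hq'

/-- **T5 (iii)** (with the necessary extra hypothesis `hT` that `θ` maps `T` into the maximal
ideal): an `𝒪`-algebra map to a test algebra whose image contains generators of the maximal
ideal modulo `𝔪_𝒪` is surjective. -/
theorem algHom_surjective_of_maximalIdeal_le_span (hA : GaloisRep.IsArtinianTestAlgebra 𝒪 A)
    {Q : Type*} [CommRing Q] [Algebra 𝒪 Q] (θ : Q →ₐ[𝒪] A) (T : Set Q)
    (hT : ∀ t ∈ T, θ t ∈ maximalIdeal A)
    (h : maximalIdeal A ≤ Ideal.span (θ '' T) ⊔ (maximalIdeal 𝒪).map (algebraMap 𝒪 A)) :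
    Function.Surjective θ := by
  obtain ⟨N, hN⟩ := exists_maximalIdeal_pow_eq_bot_of_test hA
  intro x
  obtain ⟨q, hq⟩ := algHom_exists_sub_mem_pow hA.isLocalHom hA.residue_surjective θ T hT h N x
  rw [hN, Ideal.mem_bot, sub_eq_zero] at hq
  exact ⟨q, hq.symm⟩

/-- **T5 (iii)**, version for a local source: `T ⊆ 𝔪_Q` suffices. -/
theorem algHom_surjective_of_maximalIdeal_le_span_of_isLocalRing
    (hA : GaloisRep.IsArtinianTestAlgebra 𝒪 A)
    {Q : Type*} [CommRing Q] [IsLocalRing Q] [Algebra 𝒪 Q] (θ : Q →ₐ[𝒪] A) (T : Set Q)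
    (hT : ∀ t ∈ T, t ∈ maximalIdeal Q)
    (h : maximalIdeal A ≤ Ideal.span (θ '' T) ⊔ (maximalIdeal 𝒪).map (algebraMap 𝒪 A)) :
    Function.Surjective θ := by
  have hloc := algHom_isLocalHom_of_residue_surjective hA.residue_surjective θ
  refine algHom_surjective_of_maximalIdeal_le_span hA θ T (fun t ht => ?_) h
  rw [IsLocalRing.mem_maximalIdeal]
  intro hu
  exact ((IsLocalRing.mem_maximalIdeal t).1 (hT t ht)) (isUnit_of_map_unit (θ : Q →+* A) t hu)

/-- **T5 (iii)**, version for the power series ring and the variables. -/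
theorem algHom_mvPowerSeries_surjective (hA : GaloisRep.IsArtinianTestAlgebra 𝒪 A)
    (θ : MvPowerSeries σ 𝒪 →ₐ[𝒪] A)
    (h : maximalIdeal A ≤ Ideal.span (Set.range fun s => θ (MvPowerSeries.X s)) ⊔
      (maximalIdeal 𝒪).map (algebraMap 𝒪 A)) :
    Function.Surjective θ := by
  refine algHom_surjective_of_maximalIdeal_le_span hA θ (Set.range MvPowerSeries.X) ?_ ?_
  · rintro _ ⟨s, rfl⟩
    exact algHom_mvPowerSeries_X_mem_maximalIdeal hA θ s
  · rw [← Set.range_comp]
    exact h

end PowerSeriesMap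

end Fermat.Agent.S53
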