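import Mathlib
import Fermat.Agent.S53.TestAlg

/-!
# S53 (task G6): small facts on Artinian test algebras needed by the Galois side

This file complements `Fermat/Agent/S53/TestAlg.lean` (which already provides
`isLocalHom_algHom`, `isArtinianTestAlgebra_dualNumber`, and an existential form of
`isArtinianTestAlgebra_quotient_pow`).  The statements here are those of the G6 stub; the one
stub name that is already taken in `TestAlg.lean` with another signature gets a prime.
-/

set_option autoImplicit false
set_option linter.unusedSectionVars false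

namespace Fermat.Agent.S53

open IsLocalRing

noncomputable section

variable (𝒪 : Type) [CommRing 𝒪] [IsLocalRing 𝒪]

/-- Every `𝒪`-algebra hom out of an Artinian test algebra into a local ring is a local hom. -/
theorem isLocalHom_of_isArtinianTestAlgebra {A B : Type} [CommRing A] [IsLocalRing A]
    [Algebra 𝒪 A] [CommRing B] [IsLocalRing B] [Algebra 𝒪 B]
    (hA : GaloisRep.IsArtinianTestAlgebra 𝒪 A) (φ : A →ₐ[𝒪] B) :
    IsLocalHom (φ : A →+* B) := by
  have hArt := hA.isArtinian
  obtain ⟨n, hn⟩ := (isArtinianRing_iff_isNilpotent_maximalIdeal A).mp hArt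
  constructor
  intro a ha
  by_contra hna
  have ha' : a ∈ maximalIdeal A := hna
  have h1 : a ^ n = 0 := by
    have h := Ideal.pow_mem_pow ha' n
    rw [hn] at h
    simpa using h
  have h2 : ((φ : A →+* B) a) ^ n = 0 := by rw [← map_pow, h1, map_zero]
  exact (ha.pow n).ne_zero h2

/-- The residue field of `𝒪` is an Artinian test algebra. -/
theorem isArtinianTestAlgebra_residueField :
    GaloisRep.IsArtinianTestAlgebra 𝒪 (ResidueField 𝒪) := by
  refine ⟨?_, ?_, inferInstance⟩
  · rw [IsLocalRing.ResidueField.algebraMap_eq]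
    infer_instance
  · intro x
    obtain ⟨y, rfl⟩ := residue_surjective x
    obtain ⟨o, rfl⟩ := residue_surjective y
    exact ⟨o, rfl⟩

/-- `k[ε]` is an Artinian test algebra (explicit-`𝒪` form of `isArtinianTestAlgebra_dualNumber`). -/
theorem isArtinianTestAlgebra_dualNumber' :
    letI := dualNumberAlgebra 𝒪
    GaloisRep.IsArtinianTestAlgebra 𝒪 (DualNumber (ResidueField 𝒪)) :=
  isArtinianTestAlgebra_dualNumber (𝒪 := 𝒪)

/-- `A / 𝔪 ^ n` is a local ring for `n ≠ 0`. -/
theorem isLocalRing_quotient_pow {A : Type} [CommRing A] [IsLocalRing A] (n : ℕ) (hn : n ≠ 0) :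
    IsLocalRing (A ⧸ maximalIdeal A ^ n) := by
  have hne : maximalIdeal A ^ n ≠ ⊤ := by
    intro h
    have h1 : (1 : A) ∈ maximalIdeal A ^ n := h ▸ Submodule.mem_top
    exact (Ideal.ne_top_iff_one _).mp (maximalIdeal.isMaximal A).ne_top
      (Ideal.pow_le_self hn h1)
  have : Nontrivial (A ⧸ maximalIdeal A ^ n) := Ideal.Quotient.nontrivial_iff.mpr hne
  exact IsLocalRing.of_surjective' (Ideal.Quotient.mk (maximalIdeal A ^ n))
    Ideal.Quotient.mk_surjective

/-- The quotients `A / 𝔪 ^ n` (`n ≠ 0`) of a Noetherian local `𝒪`-algebra with residue field `k`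
are Artinian test algebras (instance-argument form of `isArtinianTestAlgebra_quotient_pow`). -/
theorem isArtinianTestAlgebra_quotient_pow' {A : Type} [CommRing A] [IsLocalRing A]
    [IsNoetherianRing A] [Algebra 𝒪 A] [IsLocalHom (algebraMap 𝒪 A)]
    (hres : Function.Surjective (residue A ∘ algebraMap 𝒪 A)) (n : ℕ) (hn : n ≠ 0) :
    letI := isLocalRing_quotient_pow (A := A) n hn
    GaloisRep.IsArtinianTestAlgebra 𝒪 (A ⧸ maximalIdeal A ^ n) := by
  obtain ⟨m, rfl⟩ := Nat.exists_eq_succ_of_ne_zero hn
  obtain ⟨_, h⟩ := isArtinianTestAlgebra_quotient_pow (𝒪 := 𝒪) (A := A) inferInstance hres m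
  exact h

end

end Fermat.Agent.S53
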